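import Fermat.Agent.S53.Defs

/-!
# S53: Burnside's theorem in dimension two and the existence of a frame
-/

set_option autoImplicit false

namespace Fermat.Agent.S53

open IsLocalRing

section Burnside

variable {K V : Type*} [Field K] [AddCommGroup V] [Module K V]

/-- Burnside's theorem in dimension two: a subalgebra of `End V` without invariant line is
everything. -/
theorem burnside_two [IsAlgClosed K] (hV : Module.finrank K V = 2)
    (B : Subalgebra K (Module.End K V))
    (hirr : ∀ W : Submodule K V, (∀ b ∈ B, ∀ x ∈ W, b x ∈ W) → W = ⊥ ∨ W = ⊤) :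
    B = ⊤ := by
  have : Module.Finite K V := Module.finite_of_finrank_eq_succ hV
  have : Nontrivial V := Module.nontrivial_of_finrank_pos (R := K) (by omega)
  -- transitivity
  have htrans : ∀ w : V, w ≠ 0 → ∀ x : V, ∃ b ∈ B, b w = x := by
    intro w hw x
    let W : Submodule K V := (Subalgebra.toSubmodule B).map (LinearMap.applyₗ w)
    have hW : W = ⊥ ∨ W = ⊤ := by
      apply hirr
      rintro b hb _ ⟨b', hb', rfl⟩
      exact ⟨b * b', B.mul_mem hb hb', rfl⟩
    have hwW : w ∈ W := ⟨1, B.one_mem, rfl⟩
    rcases hW with h | h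
    · rw [h] at hwW
      exact absurd ((Submodule.mem_bot K).1 hwW) hw
    · have hx : x ∈ W := by rw [h]; trivial
      obtain ⟨b, hb, rfl⟩ := hx
      exact ⟨b, hb, rfl⟩
  -- a nonzero element with nonzero kernel
  obtain ⟨c, hcB, v0, hv0, hcv0, w0, hcw0⟩ :
      ∃ c ∈ B, ∃ v0 : V, v0 ≠ 0 ∧ c v0 = 0 ∧ ∃ w0 : V, c w0 ≠ 0 := by
    by_contra hcon
    push Not at hcon
    -- every element of B is a scalar
    obtain ⟨v, hv⟩ := exists_ne (0 : V)
    have hline : (K ∙ v) = ⊥ ∨ (K ∙ v) = ⊤ := by
      apply hirr
      intro b hb x hx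
      obtain ⟨μ, hμ⟩ := Module.End.exists_eigenvalue b
      obtain ⟨e, he⟩ := hμ.exists_hasEigenvector
      have hc : b - algebraMap K _ μ ∈ B := B.sub_mem hb (B.algebraMap_mem μ)
      have h0 := hcon _ hc e he.2 (by
        simp [he.apply_eq_smul, Module.algebraMap_end_apply])
      have hbx : b x = μ • x := by
        have := h0 x
        simpa [sub_eq_zero, Module.algebraMap_end_apply] using this
      rw [hbx]
      exact Submodule.smul_mem _ _ hx
    rcases hline with h | h
    · exact hv ((Submodule.span_singleton_eq_bot).1 h)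
    · have h1 : Module.finrank K (K ∙ v) = 1 := finrank_span_singleton hv
      rw [h, finrank_top, hV] at h1
      omega
  -- `v0, w0` span
  have hspan : Submodule.span K (Set.range ![v0, w0]) = ⊤ := by
    have hli : LinearIndependent K ![v0, w0] := by
      rw [LinearIndependent.pair_iff]
      intro s t hst
      have h1 : t • c w0 = 0 := by
        have := congrArg c hst
        simpa [hcv0] using this
      have ht : t = 0 := (smul_eq_zero.1 h1).resolve_right hcw0
      subst ht
      have hs : s • v0 = 0 := by simpa using hst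
      exact ⟨(smul_eq_zero.1 hs).resolve_right hv0, rfl⟩
    exact hli.span_eq_top_of_card_eq_finrank (by simp [hV])
  -- every map killing `v0` is in `B`
  have hkill : ∀ g : Module.End K V, g v0 = 0 → g ∈ B := by
    intro g hg
    obtain ⟨b, hb, hbx⟩ := htrans (c w0) hcw0 (g w0)
    have : g = b * c := by
      apply LinearMap.ext_on_range hspan
      intro i
      fin_cases i
      · simp [hg, hcv0]
      · simp [hbx]
    rw [this]
    exact B.mul_mem hb hcB
  -- an element of `B` of the form `c * b0` not killing `v0`
  obtain ⟨b0, hb0, hcb0⟩ : ∃ b0 ∈ B, c (b0 v0) ≠ 0 := by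
    by_contra hcon
    push Not at hcon
    let W : Submodule K V :=
      { carrier := {x | ∀ b ∈ B, c (b x) = 0}
        add_mem' := by
          intro x y hx hy b hb
          simp [hx b hb, hy b hb]
        zero_mem' := by
          intro b _
          simp
        smul_mem' := by
          intro a x hx b hb
          simp [hx b hb] }
    have hW : W = ⊥ ∨ W = ⊤ := by
      apply hirr
      intro b hb x hx b' hb'
      exact hx (b' * b) (B.mul_mem hb' hb)
    rcases hW with h | h
    · have : v0 ∈ W := hcon
      rw [h] at this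
      exact hv0 ((Submodule.mem_bot K).1 this)
    · have : w0 ∈ W := by rw [h]; trivial
      exact hcw0 (this 1 B.one_mem)
  rw [eq_top_iff]
  intro f _
  obtain ⟨b1, hb1, hb1x⟩ := htrans _ hcb0 (f v0)
  have hg : f - b1 * (c * b0) ∈ B := hkill _ (by simp [hb1x])
  have : f = (f - b1 * (c * b0)) + b1 * (c * b0) := by abel
  rw [this]
  exact B.add_mem hg (B.mul_mem hb1 (B.mul_mem hcB hb0))

/-- Burnside for a monoid representation: the image spans `End V`. -/
theorem span_range_eq_top_of_irr [IsAlgClosed K] {G : Type*} [Monoid G]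
    (hV : Module.finrank K V = 2) (ρ : G →* Module.End K V)
    (hirr : ∀ W : Submodule K V, (∀ g, ∀ x ∈ W, ρ g x ∈ W) → W = ⊥ ∨ W = ⊤) :
    Submodule.span K (Set.range ρ) = ⊤ := by
  have h := burnside_two hV (Algebra.adjoin K (Set.range ρ))
    (fun W hW => hirr W fun g x hx => hW _ (Algebra.subset_adjoin ⟨g, rfl⟩) x hx)
  have h2 := Algebra.adjoin_eq_span K (Set.range ρ)
  rw [h, ← MonoidHom.coe_mrange, Submonoid.closure_eq, Algebra.top_toSubmodule] at h2
  exact h2.symm

end Burnside

section Descent

variable {k K : Type*} [Field k] [Field K] [Algebra k K]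

/-- If a family of matrices over `k` spans the matrix algebra over an extension `K`, it already
spans over `k`. -/
theorem span_eq_top_of_span_map_eq_top {ι : Type*} (r : ι → Matrix (Fin 2) (Fin 2) k)
    (h : Submodule.span K (Set.range fun i => (r i).map (algebraMap k K)) = ⊤) :
    Submodule.span k (Set.range r) = ⊤ := by
  by_contra hne
  obtain ⟨f, hf0, hf⟩ := Submodule.exists_le_ker_of_lt_top _ (lt_top_iff_ne_top.2 hne)
  let F : Matrix (Fin 2) (Fin 2) K →ₗ[K] K :=
    { toFun := fun M => ∑ i, ∑ j, algebraMap k K (f (Matrix.single i j 1)) * M i j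
      map_add' := by
        intro M N
        simp only [Matrix.add_apply, mul_add, Finset.sum_add_distrib]
      map_smul' := by
        intro a M
        simp only [Matrix.smul_apply, smul_eq_mul, RingHom.id_apply, Finset.mul_sum]
        refine Finset.sum_congr rfl fun i _ => Finset.sum_congr rfl fun j _ => ?_
        ring }
  have hF : ∀ M : Matrix (Fin 2) (Fin 2) K,
      F M = ∑ i, ∑ j, algebraMap k K (f (Matrix.single i j 1)) * M i j := fun _ => rfl
  have hfM : ∀ M : Matrix (Fin 2) (Fin 2) k, f M = ∑ i, ∑ j, f (Matrix.single i j 1) * M i j := by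
    intro M
    conv_lhs => rw [Matrix.matrix_eq_sum_single M]
    simp only [map_sum]
    refine Finset.sum_congr rfl fun i _ => Finset.sum_congr rfl fun j _ => ?_
    have : Matrix.single i j (M i j) = M i j • Matrix.single i j (1 : k) := by
      simp [Matrix.smul_single]
    rw [this, map_smul, smul_eq_mul, mul_comm]
  have hFr : ∀ M : Matrix (Fin 2) (Fin 2) k, F (M.map (algebraMap k K)) = algebraMap k K (f M) := by
    intro M
    rw [hF, hfM]
    simp
  have hker : (⊤ : Submodule K (Matrix (Fin 2) (Fin 2) K)) ≤ LinearMap.ker F := by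
    rw [← h, Submodule.span_le]
    rintro _ ⟨i, rfl⟩
    have : f (r i) = 0 := hf (Submodule.subset_span ⟨i, rfl⟩)
    simp only [SetLike.mem_coe, LinearMap.mem_ker]
    rw [hFr, this, map_zero]
  apply hf0
  ext M
  have h1 : F (M.map (algebraMap k K)) = 0 := hker trivial
  rw [hFr] at h1
  simpa using h1

end Descent

section Frame

variable {𝒪 : Type} [CommRing 𝒪] [IsLocalRing 𝒪]

/-- An absolutely irreducible residual representation spans the matrix algebra. -/
theorem span_toMatrix_eq_top {k : Type} [Field k] (ρbar : ResidualGaloisRep k)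
    (habs : ρbar.IsAbsolutelyIrreducible) (b : Module.Basis (Fin 2) k ρbar.V) :
    Submodule.span k (Set.range fun σ : Gal => LinearMap.toMatrix b b (ρbar.ρ σ)) = ⊤ := by
  apply span_eq_top_of_span_map_eq_top (K := AlgebraicClosure k)
  have h := span_range_eq_top_of_irr (ρbar.baseChange (AlgebraicClosure k)).finrank_eq
    (ρbar.baseChange (AlgebraicClosure k)).ρ habs
  have h2 := congrArg (Submodule.map (LinearMap.toMatrix
    (Algebra.TensorProduct.basis (AlgebraicClosure k) b)
    (Algebra.TensorProduct.basis (AlgebraicClosure k) b)).toLinearMap) h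
  rw [Submodule.map_span, Submodule.map_top, LinearEquiv.range, ← Set.range_comp] at h2
  rw [← h2]
  congr 2
  ext1 σ
  exact (LinearMap.toMatrix_baseChange (AlgebraicClosure k) (ρbar.ρ σ) b b).symm

/-- A set-theoretic section of the residue map sending `0` to `0`. -/
noncomputable def resSection (x : ResidueField 𝒪) : 𝒪 :=
  open Classical in if x = 0 then 0 else Classical.choose (residue_surjective x)

theorem resSection_zero : resSection (0 : ResidueField 𝒪) = 0 := by
  simp [resSection]

theorem residue_resSection (x : ResidueField 𝒪) : residue 𝒪 (resSection x) = x := by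
  unfold resSection
  split_ifs with h
  · rw [h, map_zero]
  · exact Classical.choose_spec (residue_surjective x)

/-- Reduction of `ext rtil (lift of c)`. -/
theorem ext_mapRange_map_residue (rtil : Gal → M2 𝒪) (c : Gal →₀ ResidueField 𝒪) :
    (ext rtil (c.mapRange resSection resSection_zero)).map (residue 𝒪) =
      c.sum fun g a => a • (rtil g).map (residue 𝒪) := by
  unfold ext
  rw [Finsupp.sum_mapRange_index (h := fun g a => a • rtil g) (fun _ => zero_smul _ _)]
  rw [← RingHom.mapMatrix_apply, map_finsuppSum]
  refine Finsupp.sum_congr fun g _ => ?_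
  rw [RingHom.mapMatrix_apply]
  ext i j
  simp [residue_resSection]

/-- **Existence of a frame** for an absolutely irreducible residual representation. -/
theorem exists_frame (ρbar : ResidualGaloisRep (ResidueField 𝒪))
    (habs : ρbar.IsAbsolutelyIrreducible) : Nonempty (Frame ρbar) := by
  let b : Module.Basis (Fin 2) (ResidueField 𝒪) ρbar.V :=
    Module.finBasisOfFinrankEq _ _ ρbar.finrank_eq
  let rtil : Gal → M2 𝒪 := fun σ => (LinearMap.toMatrix b b (ρbar.ρ σ)).map resSection
  have hrtil : ∀ σ, (rtil σ).map (residue 𝒪) = LinearMap.toMatrix b b (ρbar.ρ σ) := by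
    intro σ
    ext i j
    simp [rtil, residue_resSection]
  have hspan := span_toMatrix_eq_top ρbar habs b
  have key : ∀ M : M2 (ResidueField 𝒪), ∃ u : Gal →₀ 𝒪, (ext rtil u).map (residue 𝒪) = M := by
    intro M
    have hM : M ∈ Submodule.span (ResidueField 𝒪)
        (Set.range fun σ : Gal => LinearMap.toMatrix b b (ρbar.ρ σ)) := by
      rw [hspan]; trivial
    obtain ⟨c, hc⟩ := Finsupp.mem_span_range_iff_exists_finsupp.1 hM
    refine ⟨c.mapRange resSection resSection_zero, ?_⟩
    rw [ext_mapRange_map_residue, ← hc]
    exact Finsupp.sum_congr fun g _ => by rw [hrtil]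
  obtain ⟨u, hu⟩ := key !![1, 0; 0, 0]
  obtain ⟨v, hv⟩ := key !![0, 0; 1, 0]
  exact ⟨{ rtil := rtil, u := u, v := v, hu := hu, hv := hv, b := b, rtil_spec := hrtil }⟩

end Frame

end Fermat.Agent.S53
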