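import Fermat.Agent.S53.Final

/-!
# S53: from the abstract pro-representability conclusion to `DeformationRingData`
-/

set_option autoImplicit false

namespace Fermat.Agent.S53

open IsLocalRing GaloisRep

variable {𝒪 : Type} [CommRing 𝒪] [IsDomain 𝒪] [IsDiscreteValuationRing 𝒪]
  [IsAdicComplete (maximalIdeal 𝒪) 𝒪]

/-- The conclusion of the abstract pro-representability lemma for the functor of normalised lifts
gives a universal deformation ring. -/
theorem nonempty_deformationRingData_of_concl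
    {ρbar : ResidualGaloisRep (ResidueField 𝒪)}
    {𝒟 : ∀ ⦃A : Type⦄ [CommRing A] [IsLocalRing A] [Algebra 𝒪 A], GaloisRepAdic A → Prop}
    (F : Frame ρbar) (habs : ρbar.IsAbsolutelyIrreducible) (h𝒟 : IsDeformationCondition 𝒪 𝒟)
    (hc : ProRepConcl 𝒪 Idx (SPred F.toMatFrame 𝒟)) :
    Nonempty (DeformationRingData 𝒪 ρbar 𝒟) := by
  obtain ⟨R, _, _, _, _, _, hloc, fu, hres, hU1, hU2⟩ := hc
  obtain ⟨r, hr, hD⟩ := exists_isDLift_of_forall h𝒟 hloc hres fu hU1
  subst hr
  refine ⟨{ R := R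
            residue_surjective := hres
            absIrr := habs
            ρ := toAdic r hD.cont
            isOfType := hD.type
            residual_isEquiv := residual_isEquiv_of_isLift F r hD.cont hD.lift
            universal := ?_ }⟩
  intro A _ _ _ _ _ hA1 hA2 ρA hρA hresA
  obtain ⟨rA, hrA, he, hl, hn⟩ := exists_normalized_of_residual F ρA hresA
  have htype : 𝒟 (toAdic rA hrA) := type_of_isEquiv h𝒟 hA1 hA2 he hρA
  have hS : IsDLift F.toMatFrame 𝒟 rA := ⟨hrA, hl, hn, htype⟩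
  obtain ⟨φ, hφ, huniq⟩ := hU2 A hA2 (entries rA)
    (fun B _ _ _ hB q hq => spred_of_isDLift h𝒟 hA1 hA2 hS B hB q hq)
  refine ⟨φ, ?_, ?_⟩
  · have hφl : IsLocalHom (φ : R →+* A) := isLocalHom_of_residue_surjective hA1 hA2 φ
    refine ⟨hφl, ?_⟩
    have h1 : mapRep (φ : R →+* A) r = rA := entries_injective hφ
    have h2 := baseChangeAlong_toAdic_isEquiv r hD.cont (φ : R →+* A) hφl
    subst h1
    exact IsEquiv.trans' h2 (IsEquiv.symm' he)
  · rintro φ' ⟨hφ'l, hφ'⟩
    refine huniq φ' ?_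
    have h2 := baseChangeAlong_toAdic_isEquiv r hD.cont (φ' : R →+* A) hφ'l
    have h3 : (toAdic (mapRep (φ' : R →+* A) r) (hD.cont.map _ hφ'l)).IsEquiv (toAdic rA hrA) :=
      IsEquiv.trans' (IsEquiv.symm' h2) (IsEquiv.trans' hφ' he)
    have h4 : mapRep (φ' : R →+* A) r = rA :=
      eq_of_isEquiv _ _ (hD.lift.map φ' hφ'l) hl (hD.norm.map φ') hn h3
    rw [← h4]
    rfl

end Fermat.Agent.S53
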