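import Fermat.Agent.S53.ProRepTheta

/-!
# S53: abstract pro-representability, part 3: the universal ring
-/

set_option autoImplicit false
set_option linter.unusedSectionVars false
set_option linter.style.haveILetI false

namespace Fermat.Agent.S53.ProRep

open IsLocalRing GaloisRep

section shift

variable {P : Type*} [CommRing P] (m : Ideal P) [IsPrecomplete m P] (K : ℕ → Ideal P)

/-- Shifted sequence of ideals. -/
def shiftK : ℕ → Ideal P
  | 0 => ⊤
  | n + 1 => K n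

theorem iInf_shiftK : (⨅ i, shiftK K i) = ⨅ i, K i := by
  apply le_antisymm
  · exact le_iInf fun i => iInf_le (shiftK K) (i + 1)
  · refine le_iInf fun i => ?_
    cases i with
    | zero => exact le_top
    | succ n => exact iInf_le K n

theorem exists_limit' (h1 : ∀ n, m ^ (n + 1) ≤ K n) (h3 : ∀ n, K n ≤ K (n + 1) ⊔ m ^ (n + 1))
    (p : ℕ → P) (hp : ∀ n, p (n + 1) - p n ∈ K n) : ∃ q, ∀ n, q - p n ∈ K n := by
  obtain ⟨q, hq⟩ := ProRepAlg.exists_limit m (shiftK K)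
    (fun n => by cases n with
      | zero => exact le_top
      | succ n => exact h1 n)
    (fun n => by cases n with
      | zero => simp
      | succ n => exact h3 n)
    (fun n => p (n - 1))
    (fun n => by cases n with
      | zero => exact Submodule.mem_top
      | succ n => exact hp n)
  exact ⟨q, fun n => hq (n + 1)⟩

theorem le_iInf_sup_pow' (h1 : ∀ n, m ^ (n + 1) ≤ K n) (h2 : ∀ n, K (n + 1) ≤ K n)
    (h3 : ∀ n, K n ≤ K (n + 1) ⊔ m ^ (n + 1)) (n : ℕ) : K n ≤ (⨅ i, K i) ⊔ m ^ (n + 1) := by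
  have := ProRepAlg.le_iInf_sup_pow m (shiftK K)
    (fun n => by cases n with
      | zero => exact le_top
      | succ n => exact h1 n)
    (fun n => by cases n with
      | zero => exact le_top
      | succ n => exact h2 n)
    (fun n => by cases n with
      | zero => simp
      | succ n => exact h3 n) (n + 1)
  rwa [iInf_shiftK] at this

end shift

section quot

variable {𝒪 : Type} [CommRing 𝒪] [IsLocalRing 𝒪]

theorem maximalIdeal_quot_pow {A : Type} [CommRing A] [IsLocalRing A] (n : ℕ)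
    [IsLocalRing (A ⧸ maximalIdeal A ^ (n + 1))] :
    maximalIdeal (A ⧸ maximalIdeal A ^ (n + 1)) ^ (n + 1) = ⊥ := by
  have h1 : maximalIdeal (A ⧸ maximalIdeal A ^ (n + 1)) ≤
      Ideal.map (Ideal.Quotient.mk (maximalIdeal A ^ (n + 1))) (maximalIdeal A) := by
    intro y hy
    obtain ⟨x, rfl⟩ := Ideal.Quotient.mk_surjective y
    refine Ideal.mem_map_of_mem _ ?_
    rw [mem_maximalIdeal, mem_nonunits_iff]
    intro hu
    exact hy (hu.map _)
  rw [eq_bot_iff]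
  refine (Ideal.pow_right_mono h1 (n + 1)).trans ?_
  rw [← Ideal.map_pow, Ideal.map_quotient_self]

theorem quot_pow_test {A : Type} [CommRing A] [IsLocalRing A] [IsNoetherianRing A] [Algebra 𝒪 A]
    [IsLocalHom (algebraMap 𝒪 A)] (hA : Function.Surjective (residue A ∘ algebraMap 𝒪 A))
    (n : ℕ) : ∃ _ : IsLocalRing (A ⧸ maximalIdeal A ^ (n + 1)),
      IsArtinianTestAlgebra 𝒪 (A ⧸ maximalIdeal A ^ (n + 1)) := by
  have hne : maximalIdeal A ^ (n + 1) ≠ ⊤ :=
    ne_top_of_le_ne_top (maximalIdeal.isMaximal A).ne_top (Ideal.pow_le_self (Nat.succ_ne_zero n))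
  have : Nontrivial (A ⧸ maximalIdeal A ^ (n + 1)) := Ideal.Quotient.nontrivial_iff.2 hne
  have hl : IsLocalRing (A ⧸ maximalIdeal A ^ (n + 1)) :=
    IsLocalRing.of_surjective' (Ideal.Quotient.mk _) Ideal.Quotient.mk_surjective
  have hloc : IsLocalHom (Ideal.Quotient.mk (maximalIdeal A ^ (n + 1))) :=
    IsLocalHom.of_surjective _ Ideal.Quotient.mk_surjective
  refine ⟨hl, ⟨fun a ha => ?_⟩, ?_, ?_⟩
  · exact isUnit_of_map_unit (algebraMap 𝒪 A) a
      (isUnit_of_map_unit (Ideal.Quotient.mk (maximalIdeal A ^ (n + 1))) _ ha)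
  · intro y
    obtain ⟨y, rfl⟩ := residue_surjective y
    obtain ⟨x, rfl⟩ := Ideal.Quotient.mk_surjective y
    obtain ⟨a, ha⟩ := hA (residue A x)
    refine ⟨a, ?_⟩
    simp only [Function.comp_apply] at ha ⊢
    rw [← sub_eq_zero, ← map_sub, residue_eq_zero_iff] at ha ⊢
    exact map_nonunit (Ideal.Quotient.mk (maximalIdeal A ^ (n + 1))) _ ha
  · exact (isArtinianRing_iff_isNilpotent_maximalIdeal _).2 ⟨n + 1, maximalIdeal_quot_pow n⟩

theorem eq_zero_of_forall_mem_pow {A : Type} [CommRing A] [IsLocalRing A] [IsNoetherianRing A]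
    {x : A} (h : ∀ n, x ∈ maximalIdeal A ^ (n + 1)) : x = 0 := by
  have h1 : x ∈ ⨅ i, maximalIdeal A ^ i := by
    rw [Ideal.mem_iInf]
    intro i
    exact Ideal.pow_le_pow_right (Nat.le_succ i) (h i)
  rw [Ideal.iInf_pow_eq_bot_of_isLocalRing _ (maximalIdeal.isMaximal A).ne_top] at h1
  exact h1

end quot

variable {𝒪 : Type} [CommRing 𝒪] [IsDomain 𝒪] [IsDiscreteValuationRing 𝒪]
  [IsAdicComplete (maximalIdeal 𝒪) 𝒪] [Finite (ResidueField 𝒪)]

variable {X : Type}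
  {S : ∀ ⦃A : Type⦄ [CommRing A] [IsLocalRing A] [Algebra 𝒪 A], (X → A) → Prop}
  {c : X → 𝒪} (H : ProRepHyp 𝒪 X S c) {d : ℕ} {ξ : Fin d → X} (hξ : Sep S ξ)

/-- The least good ideal containing `mF ^ (n + 1)`. -/
noncomputable def Jn (n : ℕ) : Ideal (MvPolynomial X 𝒪) := (exists_min H hξ n).choose

theorem Jn_good (n : ℕ) : Good S (Jn H hξ n) := (exists_min H hξ n).choose_spec.1

theorem Jn_pow (n : ℕ) : mF c ^ (n + 1) ≤ Jn H hξ n := (exists_min H hξ n).choose_spec.2.1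

theorem Jn_min (n : ℕ) {J' : Ideal (MvPolynomial X 𝒪)} (h : Good S J')
    (h' : mF c ^ (n + 1) ≤ J') : Jn H hξ n ≤ J' := (exists_min H hξ n).choose_spec.2.2 J' h h'

theorem Jn_anti (n : ℕ) : Jn H hξ (n + 1) ≤ Jn H hξ n :=
  Jn_min H hξ (n + 1) (Jn_good H hξ n)
    ((Ideal.pow_le_pow_right (Nat.le_succ (n + 1))).trans (Jn_pow H hξ n))

theorem Jn_le_sup (n : ℕ) : Jn H hξ n ≤ Jn H hξ (n + 1) ⊔ mF c ^ (n + 1) :=
  Jn_min H hξ n ((Jn_good H hξ (n + 1)).mono H le_sup_left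
    (sup_le ((Jn_good H hξ (n + 1)).le_mF H) (Ideal.pow_le_self (Nat.succ_ne_zero n))))
    le_sup_right

/-- The map from the power series ring to the `n`-th level. -/
noncomputable def th (n : ℕ) : MvPowerSeries (Fin d) 𝒪 →ₐ[𝒪] MvPolynomial X 𝒪 ⧸ Jn H hξ n :=
  theta H ξ (Jn_good H hξ n)

theorem th_surjective (n : ℕ) : Function.Surjective (th H hξ n) :=
  theta_surjective H hξ _

theorem th_compat (n : ℕ) (f : MvPowerSeries (Fin d) 𝒪) :
    Ideal.Quotient.factorₐ 𝒪 (Jn_anti H hξ n) (th H hξ (n + 1) f) = th H hξ n f :=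
  DFunLike.congr_fun (theta_compat H ξ (Jn_good H hξ (n + 1)) (Jn_good H hξ n)
    (Jn_anti H hξ n)) f

/-- The kernel of the map to the `n`-th level. -/
noncomputable def Kn (n : ℕ) : Ideal (MvPowerSeries (Fin d) 𝒪) := RingHom.ker (th H hξ n)

theorem mem_Kn {n : ℕ} {f : MvPowerSeries (Fin d) 𝒪} : f ∈ Kn H hξ n ↔ th H hξ n f = 0 :=
  Iff.rfl

theorem pow_le_Kn (n : ℕ) : maximalIdeal (MvPowerSeries (Fin d) 𝒪) ^ (n + 1) ≤ Kn H hξ n :=
  pow_le_ker_theta H ξ _ (Jn_pow H hξ n)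

theorem Kn_anti (n : ℕ) : Kn H hξ (n + 1) ≤ Kn H hξ n := by
  intro f hf
  rw [mem_Kn] at hf ⊢
  rw [← th_compat, hf, map_zero]

theorem Kn_le_sup (n : ℕ) :
    Kn H hξ n ≤ Kn H hξ (n + 1) ⊔ maximalIdeal (MvPowerSeries (Fin d) 𝒪) ^ (n + 1) := by
  intro f hf
  rw [mem_Kn, ← th_compat] at hf
  obtain ⟨p, hp⟩ := Ideal.Quotient.mk_surjective (th H hξ (n + 1) f)
  rw [← hp] at hf
  have hp' : p ∈ Jn H hξ n := Ideal.Quotient.eq_zero_iff_mem.1 hf
  obtain ⟨j, hj, v, hv, rfl⟩ := Submodule.mem_sup.1 (Jn_le_sup H hξ n hp')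
  letI := (Jn_good H hξ (n + 1)).choose
  have h1 : th H hξ (n + 1) f ∈ Ideal.map (th H hξ (n + 1))
      (maximalIdeal (MvPowerSeries (Fin d) 𝒪) ^ (n + 1)) := by
    rw [Ideal.map_pow]
    have := map_theta H hξ (Jn_good H hξ (n + 1))
    rw [th, this, ← (Jn_good H hξ (n + 1)).map_mF H, ← Ideal.map_pow]
    have h2 : theta H ξ (Jn_good H hξ (n + 1)) f = Ideal.Quotient.mk _ v := by
      have : th H hξ (n + 1) f = Ideal.Quotient.mk _ v := by
        rw [← hp, map_add, Ideal.Quotient.eq_zero_iff_mem.2 hj, zero_add]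
      exact this
    rw [h2]
    exact Ideal.mem_map_of_mem _ hv
  obtain ⟨g, hg, hgf⟩ := (Ideal.mem_map_iff_of_surjective _ (th_surjective H hξ (n + 1))).1 h1
  have h3 : f - g ∈ Kn H hξ (n + 1) := by
    rw [mem_Kn, map_sub, hgf, sub_self]
  have : f = (f - g) + g := by ring
  rw [this]
  exact Ideal.add_mem _ (Ideal.mem_sup_left h3) (Ideal.mem_sup_right hg)

/-- The kernel of the map to the universal ring. -/
noncomputable def Kinf : Ideal (MvPowerSeries (Fin d) 𝒪) := ⨅ n, Kn H hξ n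

theorem Kinf_le (n : ℕ) : Kinf H hξ ≤ Kn H hξ n := iInf_le _ n

theorem Kinf_ne_top : Kinf H hξ ≠ ⊤ := by
  letI := (Jn_good H hξ 0).choose
  exact ne_top_of_le_ne_top (RingHom.ker_ne_top _) (Kinf_le H hξ 0)

theorem Kn_le (n : ℕ) :
    Kn H hξ n ≤ Kinf H hξ ⊔ maximalIdeal (MvPowerSeries (Fin d) 𝒪) ^ (n + 1) := by
  have := isAdicComplete_mvPowerSeries 𝒪 d
  exact le_iInf_sup_pow' _ _ (pow_le_Kn H hξ) (Kn_anti H hξ) (Kn_le_sup H hξ) n

theorem exists_pu (x : X) : ∃ q : MvPowerSeries (Fin d) 𝒪,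
    ∀ n, th H hξ n q = taut (Jn H hξ n) x := by
  have := isAdicComplete_mvPowerSeries 𝒪 d
  choose p hp using fun n => th_surjective H hξ n (taut (Jn H hξ n) x)
  obtain ⟨q, hq⟩ := exists_limit' (maximalIdeal (MvPowerSeries (Fin d) 𝒪)) _ (pow_le_Kn H hξ)
    (Kn_le_sup H hξ) p (fun n => by
      rw [mem_Kn, map_sub, hp, ← th_compat, hp, sub_eq_zero]
      rfl)
  refine ⟨q, fun n => ?_⟩
  have := hq n
  rw [mem_Kn, map_sub, hp, sub_eq_zero] at this
  exact this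

/-- A lift of the universal family to the power series ring. -/
noncomputable def pu (x : X) : MvPowerSeries (Fin d) 𝒪 := (exists_pu H hξ x).choose

theorem th_pu (x : X) (n : ℕ) : th H hξ n (pu H hξ x) = taut (Jn H hξ n) x :=
  (exists_pu H hξ x).choose_spec n

/-- The universal family. -/
noncomputable def fu (x : X) : MvPowerSeries (Fin d) 𝒪 ⧸ Kinf H hξ :=
  Ideal.Quotient.mk _ (pu H hξ x)

theorem mk_X (i : Fin d) : Ideal.Quotient.mk (Kinf H hξ) (MvPowerSeries.X i) =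
    fu H hξ (ξ i) - algebraMap 𝒪 _ (c (ξ i)) := by
  have h1 : algebraMap 𝒪 (MvPowerSeries (Fin d) 𝒪 ⧸ Kinf H hξ) (c (ξ i)) =
      Ideal.Quotient.mk (Kinf H hξ) (algebraMap 𝒪 _ (c (ξ i))) := rfl
  rw [fu, h1, ← map_sub, Ideal.Quotient.eq, Kinf, Ideal.mem_iInf]
  intro n
  rw [mem_Kn, map_sub, map_sub, th_pu, AlgHom.commutes, th, theta_X, sub_self]

theorem X_mem (i : Fin d) :
    (MvPowerSeries.X i : MvPowerSeries (Fin d) 𝒪) ∈ maximalIdeal (MvPowerSeries (Fin d) 𝒪) :=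
  PSC.span_X_le (Ideal.subset_span ⟨i, rfl⟩)

/-- (U1) every Artinian quotient of the universal family is of type `S`. -/
theorem fu_type (B : Type) [CommRing B] [IsLocalRing B] [Algebra 𝒪 B]
    (hB : IsArtinianTestAlgebra 𝒪 B) (q : (MvPowerSeries (Fin d) 𝒪 ⧸ Kinf H hξ) →ₐ[𝒪] B) :
    S (q ∘ fu H hξ) := by
  have := hB.isLocalHom
  have := hB.isArtinian
  set q' : MvPowerSeries (Fin d) 𝒪 →ₐ[𝒪] B := q.comp (Ideal.Quotient.mkₐ 𝒪 (Kinf H hξ)) with hq'
  have hloc : IsLocalHom (q' : MvPowerSeries (Fin d) 𝒪 →+* B) :=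
    isLocalHom_of_residue_surjective hB.residue_surjective q'
  have hX : ∀ i, q' (MvPowerSeries.X i) ∈ maximalIdeal B := fun i =>
    map_nonunit (q' : MvPowerSeries (Fin d) 𝒪 →+* B) _ (X_mem i)
  obtain ⟨n, hn⟩ := (isArtinianRing_iff_isNilpotent_maximalIdeal B).1 inferInstance
  have hn' : maximalIdeal B ^ (n + 1) = ⊥ := by
    rw [pow_succ, hn]
    simp
  have hker : RingHom.ker (th H hξ n).toRingHom ≤ RingHom.ker q'.toRingHom := by
    refine (Kn_le H hξ n).trans (sup_le ?_ ?_)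
    · intro f hf
      have : Ideal.Quotient.mk (Kinf H hξ) f = 0 := Ideal.Quotient.eq_zero_iff_mem.2 hf
      change q (Ideal.Quotient.mk (Kinf H hξ) f) = 0
      rw [this, map_zero]
    · intro f hf
      have := PSC.algHom_map_pow_le q' hX (n + 1) hf
      rw [hn'] at this
      exact this
  set ψ := AlgHom.liftOfSurjective (th H hξ n) (th_surjective H hξ n) q' hker with hψ
  have h1 : q ∘ fu H hξ = ψ ∘ taut (Jn H hξ n) := by
    funext x
    simp only [Function.comp_apply]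
    rw [← th_pu H hξ x n, hψ, AlgHom.liftOfSurjective_apply]
    rfl
  rw [h1]
  obtain ⟨_, hT, hS⟩ := Jn_good H hξ n
  exact H.map hT hB ψ hS

/-- (U2) the universal property. -/
theorem fu_universal (A : Type) [CommRing A] [IsLocalRing A] [IsNoetherianRing A]
    [IsAdicComplete (maximalIdeal A) A] [Algebra 𝒪 A] [IsLocalHom (algebraMap 𝒪 A)]
    (hA : Function.Surjective (residue A ∘ algebraMap 𝒪 A)) (f : X → A)
    (hf : ∀ (B : Type) [CommRing B] [IsLocalRing B] [Algebra 𝒪 B], IsArtinianTestAlgebra 𝒪 B →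
        ∀ q : A →ₐ[𝒪] B, Function.Surjective q → S (q ∘ f)) :
    ∃! φ : (MvPowerSeries (Fin d) 𝒪 ⧸ Kinf H hξ) →ₐ[𝒪] A, φ ∘ fu H hξ = f := by
  -- the levels
  have hlev : ∀ n, ∃ ι : (MvPolynomial X 𝒪 ⧸ Jn H hξ n) →ₐ[𝒪] (A ⧸ maximalIdeal A ^ (n + 1)),
      ∀ x, ι (taut (Jn H hξ n) x) = Ideal.Quotient.mk _ (f x) := by
    intro n
    obtain ⟨_, hT⟩ := quot_pow_test hA n
    have hS := hf _ hT (Ideal.Quotient.mkₐ 𝒪 _) (Ideal.Quotient.mkₐ_surjective 𝒪 _)
    have hle : Jn H hξ n ≤ RingHom.ker (MvPolynomial.aeval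
        ((Ideal.Quotient.mkₐ 𝒪 (maximalIdeal A ^ (n + 1))) ∘ f) :
          MvPolynomial X 𝒪 →ₐ[𝒪] (A ⧸ maximalIdeal A ^ (n + 1))) := by
      refine Jn_min H hξ n (good_ker H hT hS) ?_
      intro p hp
      have := aeval_mem_pow H hT hS (n + 1) hp
      rw [maximalIdeal_quot_pow] at this
      exact this
    refine ⟨Ideal.Quotient.liftₐ _ _ (fun a ha => RingHom.mem_ker.1 (hle ha)), fun x => ?_⟩
    change MvPolynomial.aeval ((Ideal.Quotient.mkₐ 𝒪 (maximalIdeal A ^ (n + 1))) ∘ f)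
      (MvPolynomial.X x) = _
    rw [MvPolynomial.aeval_X]
    rfl
  choose ι hι using hlev
  have hmem : ∀ x, f x - algebraMap 𝒪 A (c x) ∈ maximalIdeal A := by
    intro x
    obtain ⟨_, hT⟩ := quot_pow_test hA 0
    have hS := hf _ hT (Ideal.Quotient.mkₐ 𝒪 _) (Ideal.Quotient.mkₐ_surjective 𝒪 _)
    have h1 := H.res hT hS x
    by_contra hcon
    rw [mem_maximalIdeal, mem_nonunits_iff, not_not] at hcon
    exact h1 (hcon.map (Ideal.Quotient.mkₐ 𝒪 (maximalIdeal A ^ (0 + 1))))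
  obtain ⟨Θ, hΘ⟩ := exists_eval (𝒪 := 𝒪) (fun i => f (ξ i) - algebraMap 𝒪 A (c (ξ i)))
    (fun i => hmem (ξ i))
  have hcomp : ∀ n, (Ideal.Quotient.mkₐ 𝒪 (maximalIdeal A ^ (n + 1))).comp Θ =
      (ι n).comp (th H hξ n) := by
    intro n
    obtain ⟨_, hT⟩ := quot_pow_test hA n
    have := hT.isArtinian
    have hloc : IsLocalHom (Ideal.Quotient.mk (maximalIdeal A ^ (n + 1))) :=
      IsLocalHom.of_surjective _ Ideal.Quotient.mk_surjective
    refine eval_ext _ _ (fun i => ?_) (fun i => ?_)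
    · rw [AlgHom.comp_apply, hΘ]
      exact map_nonunit (Ideal.Quotient.mk (maximalIdeal A ^ (n + 1))) _ (hmem (ξ i))
    · rw [AlgHom.comp_apply, AlgHom.comp_apply, hΘ, th, theta_X, map_sub, map_sub, hι,
        AlgHom.commutes, AlgHom.commutes]
      rfl
  have hcomp' : ∀ n g, Ideal.Quotient.mk (maximalIdeal A ^ (n + 1)) (Θ g) =
      ι n (th H hξ n g) := fun n g => DFunLike.congr_fun (hcomp n) g
  have hker : ∀ g ∈ Kinf H hξ, Θ g = 0 := by
    intro g hg
    apply eq_zero_of_forall_mem_pow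
    intro n
    rw [← Ideal.Quotient.eq_zero_iff_mem, hcomp', (mem_Kn H hξ).1 (Kinf_le H hξ n hg), map_zero]
  have hpu : ∀ x, Θ (pu H hξ x) = f x := by
    intro x
    rw [← sub_eq_zero]
    apply eq_zero_of_forall_mem_pow
    intro n
    rw [← Ideal.Quotient.eq_zero_iff_mem, map_sub, hcomp', th_pu, hι, sub_self]
  refine ⟨Ideal.Quotient.liftₐ _ Θ hker, ?_, ?_⟩
  · funext x
    exact hpu x
  · intro φ hφ
    apply Ideal.Quotient.algHom_ext
    rw [Ideal.Quotient.liftₐ_comp]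
    symm
    refine eval_ext _ _ (fun i => ?_) (fun i => ?_)
    · rw [hΘ]
      exact hmem (ξ i)
    · rw [hΘ, AlgHom.comp_apply]
      change _ = φ (Ideal.Quotient.mk _ _)
      rw [mk_X, map_sub, AlgHom.commutes]
      have := congrFun hφ (ξ i)
      simp only [Function.comp_apply] at this
      rw [this]

end Fermat.Agent.S53.ProRep

namespace Fermat.Agent.S53

open IsLocalRing GaloisRep

/-- The abstract pro-representability lemma. -/
theorem proRep {𝒪 : Type} [CommRing 𝒪] [IsDomain 𝒪] [IsDiscreteValuationRing 𝒪]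
    [IsAdicComplete (maximalIdeal 𝒪) 𝒪] [Finite (ResidueField 𝒪)] {X : Type}
    {S : ∀ ⦃A : Type⦄ [CommRing A] [IsLocalRing A] [Algebra 𝒪 A], (X → A) → Prop}
    {c : X → 𝒪} (H : ProRepHyp 𝒪 X S c) : ProRepConcl 𝒪 X S := by
  obtain ⟨d, ξ, hξ⟩ := ProRep.exists_sep H
  obtain ⟨h1, h2, h3, h4, h5⟩ := ProRepAlg.cnl_quotient _ (ProRep.Kinf_ne_top H hξ)
  refine ⟨MvPowerSeries (Fin d) 𝒪 ⧸ ProRep.Kinf H hξ, inferInstance, h1, h2, h3, inferInstance,
    h4, ProRep.fu H hξ, h5, ?_, ?_⟩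
  · intro B _ _ _ hB q _
    exact ProRep.fu_type H hξ B hB q
  · intro A _ _ _ _ _ _ hA f hf
    exact ProRep.fu_universal H hξ A hA f hf

end Fermat.Agent.S53
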