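import Fermat.Agent.S53.MatrixRep

/-!
# S53 (T7a): `toAdic` versus `baseChangeAlong`, equivalence versus conjugation, invariance of a
deformation condition under equivalence on complete Noetherian local rings
-/

set_option autoImplicit false

namespace Fermat.Agent.S53

open IsLocalRing GaloisRep
open scoped TensorProduct

theorem mapRep_cont {A B : Type} [CommRing A] [IsLocalRing A] [CommRing B] [IsLocalRing B]
    (φ : A →+* B) (hφ : IsLocalHom φ) {r : Gal →* M2 A} (hr : MatCont r) :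
    MatCont (mapRep φ r) :=
  hr.map φ hφ

theorem toAdic_baseChangeAlong {A B : Type} [CommRing A] [IsLocalRing A] [CommRing B]
    [IsLocalRing B] (φ : A →+* B) (hφ : IsLocalHom φ) (r : Gal →* M2 A) (hr : MatCont r)
    (hr' : MatCont (mapRep φ r)) :
    ((toAdic r hr).baseChangeAlong φ hφ).IsEquiv (toAdic (mapRep φ r) hr') :=
  baseChangeAlong_toAdic_isEquiv r hr φ hφ

theorem toAdic_isEquiv_iff_isUnit {A : Type} [CommRing A] [IsLocalRing A] (r r' : Gal →* M2 A)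
    (hr : MatCont r) (hr' : MatCont r') :
    (toAdic r hr).IsEquiv (toAdic r' hr') ↔ ∃ M : M2 A, IsUnit M ∧ ∀ σ, M * r σ = r' σ * M := by
  rw [toAdic_isEquiv_iff]
  constructor
  · rintro ⟨M, hM⟩
    exact ⟨M, M.isUnit, hM⟩
  · rintro ⟨M, ⟨u, rfl⟩, hM⟩
    exact ⟨u, hM⟩

/-- Base change in two steps is base change along the composite. -/
theorem baseChangeAlong_comp_isEquiv {A B C : Type} [CommRing A] [IsLocalRing A] [CommRing B]
    [IsLocalRing B] [CommRing C] [IsLocalRing C] (φ : A →+* B) (ψ : B →+* C)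
    (hφ : IsLocalHom φ) (hψ : IsLocalHom ψ) (hψφ : IsLocalHom (ψ.comp φ)) (ρ : GaloisRepAdic A) :
    ((ρ.baseChangeAlong φ hφ).baseChangeAlong ψ hψ).IsEquiv
      (ρ.baseChangeAlong (ψ.comp φ) hψφ) := by
  obtain ⟨r, hr, ⟨e⟩⟩ := exists_isEquiv_toAdic ρ
  have h1 : ((ρ.baseChangeAlong φ hφ).baseChangeAlong ψ hψ).IsEquiv
      (((toAdic r hr).baseChangeAlong φ hφ).baseChangeAlong ψ hψ) :=
    ⟨(e.baseChangeAlong φ hφ).baseChangeAlong ψ hψ⟩
  obtain ⟨e2⟩ := baseChangeAlong_toAdic_isEquiv r hr φ hφ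
  have h2 : (((toAdic r hr).baseChangeAlong φ hφ).baseChangeAlong ψ hψ).IsEquiv
      ((toAdic (mapRep φ r) (hr.map φ hφ)).baseChangeAlong ψ hψ) :=
    ⟨e2.baseChangeAlong ψ hψ⟩
  have h3 := baseChangeAlong_toAdic_isEquiv (mapRep φ r) (hr.map φ hφ) ψ hψ
  have h4 : (ρ.baseChangeAlong (ψ.comp φ) hψφ).IsEquiv
      ((toAdic r hr).baseChangeAlong (ψ.comp φ) hψφ) :=
    ⟨e.baseChangeAlong (ψ.comp φ) hψφ⟩
  have h5 := baseChangeAlong_toAdic_isEquiv r hr (ψ.comp φ) hψφ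
  have h6 : (toAdic (mapRep ψ (mapRep φ r)) ((hr.map φ hφ).map ψ hψ)).IsEquiv
      (toAdic (mapRep (ψ.comp φ) r) (hr.map (ψ.comp φ) hψφ)) := by
    refine (toAdic_isEquiv_iff _ _ _ _).mpr ⟨1, fun σ => ?_⟩
    rw [mapRep_comp]
    simp
  exact IsEquiv.trans' h1 (IsEquiv.trans' h2 (IsEquiv.trans' h3 (IsEquiv.trans' h6
    (IsEquiv.symm' (IsEquiv.trans' h4 h5)))))

/-- A deformation condition is invariant under equivalence on complete Noetherian local rings. -/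
theorem type_of_isEquiv {𝒪 : Type} [CommRing 𝒪] [IsLocalRing 𝒪]
    {𝒟 : ∀ ⦃A : Type⦄ [CommRing A] [IsLocalRing A] [Algebra 𝒪 A], GaloisRepAdic A → Prop}
    (h𝒟 : IsDeformationCondition 𝒪 𝒟) {A : Type} [CommRing A] [IsLocalRing A]
    [IsNoetherianRing A] [IsAdicComplete (maximalIdeal A) A] [Algebra 𝒪 A]
    (h1 : IsLocalHom (algebraMap 𝒪 A))
    (h2 : Function.Surjective (IsLocalRing.residue A ∘ algebraMap 𝒪 A))
    {ρ ρ' : GaloisRepAdic A} (e : ρ.IsEquiv ρ') (h : 𝒟 ρ) : 𝒟 ρ' := by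
  obtain ⟨e⟩ := e
  rw [h𝒟.iff_forall_surjective h1 h2 ρ'] 
  intro B _ _ _ hB q hq hqs
  exact h𝒟.of_isEquiv hB ⟨e.baseChangeAlong (q : A →+* B) hq⟩
    ((h𝒟.iff_forall_surjective h1 h2 ρ).mp h hB q hq hqs)

end Fermat.Agent.S53
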