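import Fermat.Agent.S53.MatrixRep

/-!
# S53: deformations of `ρbar` correspond to matrix lifts of `rtil`
-/

set_option autoImplicit false

namespace Fermat.Agent.S53

open IsLocalRing

variable {𝒪 : Type} [CommRing 𝒪] [IsLocalRing 𝒪]

/-- The residual matrix representation over `k_A` determined by a frame. -/
theorem isLift_iff_mapRep_residue {ρbar : ResidualGaloisRep (ResidueField 𝒪)} (F : Frame ρbar)
    {A : Type} [CommRing A] [IsLocalRing A] [Algebra 𝒪 A] [IsLocalHom (algebraMap 𝒪 A)]
    (r : Gal →* M2 A) :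
    IsLift F.toMatFrame r ↔
      mapRep (residue A) r =
        mapRep (ResidueField.map (algebraMap 𝒪 A)) (resMatOf ρbar F.b) := by
  have key : ∀ σ i j, mapRep (ResidueField.map (algebraMap 𝒪 A)) (resMatOf ρbar F.b) σ i j =
      residue A (algebraMap 𝒪 A (F.rtil σ i j)) := by
    intro σ i j
    rw [mapRep_apply, resMatOf_apply, ← F.rtil_spec σ, Matrix.map_apply,
      ResidueField.map_residue]
  constructor
  · intro h
    ext σ i j
    rw [key, mapRep_apply, ← sub_eq_zero, ← map_sub, residue_eq_zero_iff]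
    exact h σ i j
  · intro h σ i j
    have h1 := congrFun (congrFun (DFunLike.congr_fun h σ) i) j
    rw [key, mapRep_apply, ← sub_eq_zero, ← map_sub, residue_eq_zero_iff] at h1
    exact h1

theorem exists_lift_of_residual_isEquiv {ρbar : ResidualGaloisRep (ResidueField 𝒪)}
    (F : Frame ρbar) {A : Type} [CommRing A] [IsLocalRing A] [Algebra 𝒪 A]
    [IsLocalHom (algebraMap 𝒪 A)] (ρA : GaloisRepAdic A)
    (h : ρA.residual.IsEquiv (ρbar.baseChangeAlong (ResidueField.map (algebraMap 𝒪 A)))) :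
    ∃ (r : Gal →* M2 A) (hr : MatCont r), IsLift F.toMatFrame r ∧ (toAdic r hr).IsEquiv ρA := by
  obtain ⟨r, hr, he, hs⟩ := exists_toAdic_lift ρA _ _
    (ResIsEquiv.trans' h
      (baseChangeAlong_isEquiv_toRes ρbar F.b (ResidueField.map (algebraMap 𝒪 A))))
  exact ⟨r, hr, (isLift_iff_mapRep_residue F r).mpr hs, IsEquiv.symm' he⟩

theorem residual_isEquiv_of_isLift {ρbar : ResidualGaloisRep (ResidueField 𝒪)} (F : Frame ρbar)
    {A : Type} [CommRing A] [IsLocalRing A] [Algebra 𝒪 A]
    [IsLocalHom (algebraMap 𝒪 A)] (r : Gal →* M2 A) (hr : MatCont r)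
    (hl : IsLift F.toMatFrame r) :
    (toAdic r hr).residual.IsEquiv
      (ρbar.baseChangeAlong (ResidueField.map (algebraMap 𝒪 A))) :=
  ResIsEquiv.trans'
    (residual_toAdic_isEquiv_of_eq r hr _
      (factors_mapRep _ (resMatOf_factors ρbar F.b)) ((isLift_iff_mapRep_residue F r).mp hl))
    (ResIsEquiv.symm'
      (baseChangeAlong_isEquiv_toRes ρbar F.b (ResidueField.map (algebraMap 𝒪 A))))

end Fermat.Agent.S53
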