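import Fermat.Agent.S53.Defs

/-!
# S53: toolbox for Artinian test algebras (finiteness, subalgebras, quotients, fibre products)
-/

set_option autoImplicit false

namespace Fermat.Agent.S53

open IsLocalRing GaloisRep

variable {𝒪 : Type} [CommRing 𝒪] [IsLocalRing 𝒪]

theorem residueField_test : IsArtinianTestAlgebra 𝒪 (ResidueField 𝒪) where
  isLocalHom := by
    rw [ResidueField.algebraMap_eq]
    infer_instance
  residue_surjective := by
    rw [ResidueField.algebraMap_eq]
    exact (residue_surjective (R := ResidueField 𝒪)).comp (residue_surjective (R := 𝒪))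
  isArtinian := inferInstance

theorem isNilpotent_of_mem_maximalIdeal {A : Type} [CommRing A] [IsLocalRing A] [IsArtinianRing A]
    {a : A} (ha : a ∈ maximalIdeal A) : IsNilpotent a := by
  obtain ⟨n, hn⟩ := (isArtinianRing_iff_isNilpotent_maximalIdeal A).1 inferInstance
  refine ⟨n, ?_⟩
  have : a ^ n ∈ maximalIdeal A ^ n := Ideal.pow_mem_pow ha n
  rw [hn] at this
  simpa using this

omit [IsLocalRing 𝒪] in
theorem isLocalHom_of_artinian {A B : Type} [CommRing A] [IsLocalRing A] [Algebra 𝒪 A]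
    [CommRing B] [IsLocalRing B] [Algebra 𝒪 B] (hA : IsArtinianTestAlgebra 𝒪 A)
    (φ : A →ₐ[𝒪] B) : IsLocalHom (φ : A →+* B) := by
  have := hA.isArtinian
  refine ⟨fun a ha => ?_⟩
  by_contra hcon
  have h1 : a ∈ maximalIdeal A := (mem_maximalIdeal a).2 hcon
  have h2 : IsNilpotent ((φ : A →+* B) a) := (isNilpotent_of_mem_maximalIdeal h1).map _
  exact h2.not_isUnit ha

theorem finite_residueField_of_test [Finite (ResidueField 𝒪)] {A : Type} [CommRing A]
    [IsLocalRing A] [Algebra 𝒪 A] (hA : IsArtinianTestAlgebra 𝒪 A) : Finite (ResidueField A) := by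
  have := hA.isLocalHom
  refine Finite.of_surjective (ResidueField.map (algebraMap 𝒪 A)) ?_
  intro y
  obtain ⟨a, ha⟩ := hA.residue_surjective y
  exact ⟨residue 𝒪 a, by rw [ResidueField.map_residue]; exact ha⟩

theorem finite_of_artinian [Finite (ResidueField 𝒪)] {A : Type} [CommRing A] [IsLocalRing A]
    [Algebra 𝒪 A] (hA : IsArtinianTestAlgebra 𝒪 A) : Finite A := by
  have := hA.isArtinian
  have : Finite (A ⧸ maximalIdeal A) := finite_residueField_of_test hA
  obtain ⟨n, hn⟩ := (isArtinianRing_iff_isNilpotent_maximalIdeal A).1 inferInstance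
  have hfg : (maximalIdeal A).FG := IsNoetherian.noetherian _
  have := Ideal.finite_quotient_pow hfg n
  rw [hn] at this
  exact Finite.of_equiv _ (RingEquiv.quotientBot A).toEquiv

/-- The residue map of an Artinian test algebra, with values in the residue field of `𝒪`. -/
noncomputable def resHom {A : Type} [CommRing A] [IsLocalRing A] [Algebra 𝒪 A]
    (hA : IsArtinianTestAlgebra 𝒪 A) : A →ₐ[𝒪] ResidueField 𝒪 :=
  haveI := hA.isLocalHom
  have hbij : Function.Bijective (ResidueField.map (algebraMap 𝒪 A)) :=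
    ⟨(ResidueField.map (algebraMap 𝒪 A)).injective, fun y => by
      obtain ⟨a, ha⟩ := hA.residue_surjective y
      exact ⟨residue 𝒪 a, by rw [ResidueField.map_residue]; exact ha⟩⟩
  { toRingHom := ((RingEquiv.ofBijective _ hbij).symm : ResidueField A →+* ResidueField 𝒪).comp
      (residue A)
    commutes' := fun a => by
      rw [ResidueField.algebraMap_eq]
      simp only [RingHom.toMonoidHom_eq_coe, OneHom.toFun_eq_coe, MonoidHom.toOneHom_coe,
        MonoidHom.coe_coe, RingHom.coe_comp, RingHom.coe_coe, Function.comp_apply]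
      rw [RingEquiv.symm_apply_eq]
      simp [ResidueField.map_residue] }

theorem resHom_eq_zero_iff {A : Type} [CommRing A] [IsLocalRing A] [Algebra 𝒪 A]
    (hA : IsArtinianTestAlgebra 𝒪 A) (a : A) : resHom hA a = 0 ↔ a ∈ maximalIdeal A := by
  rw [← residue_eq_zero_iff]
  simp only [resHom, AlgHom.coe_mk, RingHom.coe_comp, RingHom.coe_coe, Function.comp_apply]
  exact map_eq_zero_iff _ (RingEquiv.injective _)

theorem resHom_ne_zero_iff {A : Type} [CommRing A] [IsLocalRing A] [Algebra 𝒪 A]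
    (hA : IsArtinianTestAlgebra 𝒪 A) (a : A) : resHom hA a ≠ 0 ↔ IsUnit a := by
  rw [Ne, resHom_eq_zero_iff, mem_maximalIdeal, mem_nonunits_iff, not_not]

theorem subalgebra_test [Finite (ResidueField 𝒪)] {A : Type} [CommRing A] [IsLocalRing A]
    [Algebra 𝒪 A] (hA : IsArtinianTestAlgebra 𝒪 A) (B : Subalgebra 𝒪 A) :
    ∃ _ : IsLocalRing B, IsArtinianTestAlgebra 𝒪 B := by
  have := finite_of_artinian hA
  have hloc : IsLocalHom (B.val : B →+* A) := by
    refine ⟨fun x hx => ?_⟩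
    obtain ⟨u, hu⟩ := hx
    have hn : 0 < orderOf u := orderOf_pos u
    have h1 : u ^ orderOf u = 1 := pow_orderOf_eq_one u
    have h2 : (x : A) ^ orderOf u = 1 := by
      have : ((u ^ orderOf u : Aˣ) : A) = 1 := by rw [h1]; rfl
      rw [Units.val_pow_eq_pow_val, hu] at this
      exact this
    refine IsUnit.of_mul_eq_one (x ^ (orderOf u - 1)) ?_
    apply Subtype.ext
    rw [← pow_succ']
    rw [Nat.sub_add_cancel hn]
    exact h2
  have hB : IsLocalRing B := RingHom.domain_isLocalRing (B.val : B →+* A)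
  refine ⟨hB, ?_, ?_, ?_⟩
  · refine ⟨fun a ha => ?_⟩
    have := hA.isLocalHom
    have : IsUnit (algebraMap 𝒪 A a) := ha.map (B.val : B →+* A)
    exact isUnit_of_map_unit (algebraMap 𝒪 A) a this
  · intro y
    obtain ⟨b, rfl⟩ := residue_surjective y
    obtain ⟨c, hc⟩ := hA.residue_surjective (residue A (b : A))
    refine ⟨c, ?_⟩
    simp only [Function.comp_apply] at hc ⊢
    rw [← sub_eq_zero, ← map_sub, residue_eq_zero_iff] at hc ⊢
    rw [mem_maximalIdeal, mem_nonunits_iff] at hc ⊢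
    intro hu
    exact hc (hu.map (B.val : B →+* A))
  · infer_instance

omit [IsLocalRing 𝒪] in
theorem quotient_test {A : Type} [CommRing A] [IsLocalRing A] [Algebra 𝒪 A]
    (hA : IsArtinianTestAlgebra 𝒪 A) (I : Ideal A) (hI : I ≠ ⊤) :
    ∃ _ : IsLocalRing (A ⧸ I), IsArtinianTestAlgebra 𝒪 (A ⧸ I) := by
  have : Nontrivial (A ⧸ I) := Ideal.Quotient.nontrivial_iff.2 hI
  have hQ : IsLocalRing (A ⧸ I) :=
    IsLocalRing.of_surjective' (Ideal.Quotient.mk I) Ideal.Quotient.mk_surjective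
  have hloc : IsLocalHom ((Ideal.Quotient.mkₐ 𝒪 I : A →ₐ[𝒪] A ⧸ I) : A →+* A ⧸ I) :=
    isLocalHom_of_artinian hA _
  have := hA.isArtinian
  refine ⟨hQ, ?_, ?_, ?_⟩
  · refine ⟨fun a ha => ?_⟩
    have := hA.isLocalHom
    have h1 : IsUnit (((Ideal.Quotient.mkₐ 𝒪 I : A →ₐ[𝒪] A ⧸ I) : A →+* A ⧸ I)
        (algebraMap 𝒪 A a)) := ha
    exact isUnit_of_map_unit (algebraMap 𝒪 A) a (isUnit_of_map_unit _ _ h1)
  · intro y
    obtain ⟨b, rfl⟩ := residue_surjective y
    obtain ⟨b, rfl⟩ := Ideal.Quotient.mk_surjective b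
    obtain ⟨c, hc⟩ := hA.residue_surjective (residue A b)
    refine ⟨c, ?_⟩
    simp only [Function.comp_apply] at hc ⊢
    rw [← sub_eq_zero, ← map_sub, residue_eq_zero_iff] at hc ⊢
    rw [mem_maximalIdeal, mem_nonunits_iff] at hc ⊢
    intro hu
    have h1 : IsUnit (((Ideal.Quotient.mkₐ 𝒪 I : A →ₐ[𝒪] A ⧸ I) : A →+* A ⧸ I)
        (algebraMap 𝒪 A c - b)) := by
      rw [map_sub]
      exact hu
    exact hc (isUnit_of_map_unit _ _ h1)
  · exact Ideal.Quotient.mk_surjective.isArtinianRing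

theorem exists_fibreProduct [Finite (ResidueField 𝒪)] {A B : Type} [CommRing A] [IsLocalRing A]
    [Algebra 𝒪 A] [CommRing B] [IsLocalRing B] [Algebra 𝒪 B]
    (hA : IsArtinianTestAlgebra 𝒪 A) (hB : IsArtinianTestAlgebra 𝒪 B) :
    ∃ (P : Type) (_ : CommRing P) (_ : IsLocalRing P) (_ : Algebra 𝒪 P) (pA : P →ₐ[𝒪] A)
      (pB : P →ₐ[𝒪] B) (f : A →ₐ[𝒪] ResidueField 𝒪) (g : B →ₐ[𝒪] ResidueField 𝒪),
      IsArtinianTestAlgebra 𝒪 P ∧ f.comp pA = g.comp pB ∧
        Function.Injective (fun x => (pA x, pB x)) ∧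
        (∀ a b, f a = g b → ∃ x, pA x = a ∧ pB x = b) := by
  have := finite_of_artinian hA
  have := finite_of_artinian hB
  set f := resHom hA with hf
  set g := resHom hB with hg
  set P : Subalgebra 𝒪 (A × B) :=
    AlgHom.equalizer (f.comp (AlgHom.fst 𝒪 A B)) (g.comp (AlgHom.snd 𝒪 A B)) with hP
  have hmem : ∀ x : A × B, x ∈ P ↔ f x.1 = g x.2 := fun x => Iff.rfl
  set π : P →ₐ[𝒪] ResidueField 𝒪 := (f.comp (AlgHom.fst 𝒪 A B)).comp P.val with hπ
  have hπ1 : ∀ x : P, π x = f (x : A × B).1 := fun x => rfl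
  have hπ2 : ∀ x : P, π x = g (x : A × B).2 := fun x => (hmem x).1 x.2
  have hloc : IsLocalHom (π : P →+* ResidueField 𝒪) := by
    refine ⟨fun x hx => ?_⟩
    have hx0 : π x ≠ 0 := hx.ne_zero
    have ha : IsUnit (x : A × B).1 := (resHom_ne_zero_iff hA _).1 (by rw [← hf, ← hπ1]; exact hx0)
    have hb : IsUnit (x : A × B).2 := (resHom_ne_zero_iff hB _).1 (by rw [← hg, ← hπ2]; exact hx0)
    obtain ⟨a', ha'⟩ := ha.exists_right_inv
    obtain ⟨b', hb'⟩ := hb.exists_right_inv
    have hy : ((a', b') : A × B) ∈ P := by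
      rw [hmem]
      have h1 : f (x : A × B).1 * f a' = 1 := by rw [← map_mul, ha', map_one]
      have h2 : g (x : A × B).2 * g b' = 1 := by rw [← map_mul, hb', map_one]
      rw [← hπ1] at h1
      rw [← hπ2] at h2
      exact mul_left_cancel₀ hx0 (h1.trans h2.symm)
    refine IsUnit.of_mul_eq_one ⟨(a', b'), hy⟩ ?_
    apply Subtype.ext
    exact Prod.ext ha' hb'
  have hPl : IsLocalRing P := RingHom.domain_isLocalRing (π : P →+* ResidueField 𝒪)
  refine ⟨P, inferInstance, hPl, inferInstance, (AlgHom.fst 𝒪 A B).comp P.val,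
    (AlgHom.snd 𝒪 A B).comp P.val, f, g, ⟨?_, ?_, ?_⟩, ?_, ?_, ?_⟩
  · refine ⟨fun a ha => ?_⟩
    have := hA.isLocalHom
    have : IsUnit (algebraMap 𝒪 A a) :=
      ha.map (((AlgHom.fst 𝒪 A B).comp P.val : P →ₐ[𝒪] A) : P →+* A)
    exact isUnit_of_map_unit (algebraMap 𝒪 A) a this
  · intro y
    obtain ⟨x, rfl⟩ := residue_surjective y
    obtain ⟨c, hc⟩ := residue_surjective (π x)
    refine ⟨c, ?_⟩
    simp only [Function.comp_apply]
    rw [← sub_eq_zero, ← map_sub, residue_eq_zero_iff, mem_maximalIdeal, mem_nonunits_iff]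
    intro hu
    have h1 : IsUnit ((π : P →+* ResidueField 𝒪) (algebraMap 𝒪 P c - x)) := hu.map _
    have h2 : (π : P →+* ResidueField 𝒪) (algebraMap 𝒪 P c - x) = 0 := by
      rw [map_sub]
      show π (algebraMap 𝒪 P c) - π x = 0
      rw [AlgHom.commutes, ResidueField.algebraMap_eq, hc, sub_self]
    rw [h2] at h1
    exact not_isUnit_zero h1
  · infer_instance
  · ext x
    exact (hmem x).1 x.2
  · intro x y hxy
    apply Subtype.ext
    exact hxy
  · intro a b hab
    exact ⟨⟨(a, b), (hmem _).2 hab⟩, rfl, rfl⟩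

end Fermat.Agent.S53
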