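import Mathlib
import Fermat.Prelude.Def_GaloisRep_DeformationRingData
import Fermat.Prelude.Def_GaloisRep_DeformationCondition

/-!
# S53: basic definitions (matrix lifts, frames, normalised lifts)
-/

set_option autoImplicit false

namespace Fermat.Agent.S53

open IsLocalRing

/-- The absolute Galois group of `ℚ`. -/
abbrev Gal : Type := AlgebraicClosure ℚ ≃ₐ[ℚ] AlgebraicClosure ℚ

/-- Two by two matrices. -/
abbrev M2 (A : Type) : Type := Matrix (Fin 2) (Fin 2) A

/-- Adic continuity of a matrix representation. -/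
def MatCont {A : Type} [CommRing A] [IsLocalRing A] (r : Gal →* M2 A) : Prop :=
  ∀ n : ℕ, ∃ L : IntermediateField ℚ (AlgebraicClosure ℚ), FiniteDimensional ℚ L ∧
    ∀ σ : Gal, (∀ x ∈ L, σ x = x) → ∀ i j, (r σ - 1) i j ∈ maximalIdeal A ^ n

theorem mem_smul_top_of_forall_mem {A : Type} [CommRing A] (I : Ideal A) (v : Fin 2 → A)
    (hv : ∀ i, v i ∈ I) : v ∈ I • (⊤ : Submodule A (Fin 2 → A)) := by
  have : v = ∑ i, v i • (Pi.single i (1 : A) : Fin 2 → A) := by
    ext j
    simp [Finset.sum_apply, Pi.single_apply]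
  rw [this]
  exact Submodule.sum_mem _ fun i _ => Submodule.smul_mem_smul (hv i) Submodule.mem_top

/-- The `GaloisRepAdic` attached to a continuous matrix representation. -/
noncomputable def toAdic {A : Type} [CommRing A] [IsLocalRing A] (r : Gal →* M2 A)
    (hr : MatCont r) : GaloisRepAdic A where
  V := Fin 2 → A
  finrank_eq := by simp
  ρ := { toFun := fun σ => (r σ).mulVecLin
         map_one' := by rw [map_one, Matrix.mulVecLin_one]; rfl
         map_mul' := fun σ τ => by rw [map_mul, Matrix.mulVecLin_mul]; rfl }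
  isAdicContinuous := by
    intro n
    obtain ⟨L, hL, h⟩ := hr n
    refine ⟨L, hL, fun σ hσ v => ?_⟩
    apply mem_smul_top_of_forall_mem
    intro i
    have h1 : (r σ).mulVecLin v - v = (r σ - 1).mulVec v := by
      simp [Matrix.sub_mulVec]
    rw [MonoidHom.coe_mk, OneHom.coe_mk, h1]
    simp only [Matrix.mulVec, dotProduct]
    exact Ideal.sum_mem _ fun j _ => Ideal.mul_mem_right _ _ (h σ hσ i j)

theorem toAdic_ρ_apply {A : Type} [CommRing A] [IsLocalRing A] (r : Gal →* M2 A)
    (hr : MatCont r) (σ : Gal) (v : Fin 2 → A) :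
    (toAdic r hr).ρ σ v = (r σ).mulVec v := rfl

/-- Push a matrix representation forward along a ring homomorphism. -/
noncomputable def mapRep {A B : Type} [CommRing A] [CommRing B] (φ : A →+* B) (r : Gal →* M2 A) :
    Gal →* M2 B :=
  (φ.mapMatrix : M2 A →+* M2 B).toMonoidHom.comp r

@[simp] theorem mapRep_apply {A B : Type} [CommRing A] [CommRing B] (φ : A →+* B)
    (r : Gal →* M2 A) (σ : Gal) (i j : Fin 2) : mapRep φ r σ i j = φ (r σ i j) := rfl

variable {𝒪 : Type} [CommRing 𝒪]

/-- The `𝒪`-linear extension of a matrix valued function to formal combinations of group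
elements. -/
noncomputable def ext {A : Type} [CommRing A] [Algebra 𝒪 A] (r : Gal → M2 A) (u : Gal →₀ 𝒪) :
    M2 A :=
  u.sum fun g a => a • r g

variable (𝒪) in
/-- Rigidification data: a set-theoretic lift `rtil` of the residual matrix representation and two
elements `u`, `v` of the group algebra acting residually as `E₁₁` and `E₂₁`. -/
structure MatFrame [IsLocalRing 𝒪] where
  rtil : Gal → M2 𝒪
  u : Gal →₀ 𝒪
  v : Gal →₀ 𝒪
  hu : (ext rtil u).map (residue 𝒪) = !![1, 0; 0, 0]
  hv : (ext rtil v).map (residue 𝒪) = !![0, 0; 1, 0]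

/-- A frame for `ρbar`: a basis in which `ρbar` is given by the reduction of `rtil`. -/
structure Frame [IsLocalRing 𝒪] (ρbar : ResidualGaloisRep (ResidueField 𝒪)) extends
    MatFrame 𝒪 where
  b : Module.Basis (Fin 2) (ResidueField 𝒪) ρbar.V
  rtil_spec : ∀ σ, (rtil σ).map (residue 𝒪) = LinearMap.toMatrix b b (ρbar.ρ σ)

variable [IsLocalRing 𝒪]

/-- `r` lifts the residual representation. -/
def IsLift (F : MatFrame 𝒪) {A : Type} [CommRing A] [IsLocalRing A] [Algebra 𝒪 A]
    (r : Gal →* M2 A) : Prop :=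
  ∀ σ i j, r σ i j - algebraMap 𝒪 A (F.rtil σ i j) ∈ maximalIdeal A

/-- `r` is in normal form with respect to the frame. -/
structure IsNormalized (F : MatFrame 𝒪) {A : Type} [CommRing A] [Algebra 𝒪 A]
    (r : Gal →* M2 A) : Prop where
  u10 : ext r F.u 1 0 = 0
  v00 : ext r F.v 0 0 = 0
  v10 : ext r F.v 1 0 = 1

/-- `r` is a continuous normalised lift of type `𝒟`. -/
structure IsDLift (F : MatFrame 𝒪)
    (𝒟 : ∀ ⦃A : Type⦄ [CommRing A] [IsLocalRing A] [Algebra 𝒪 A], GaloisRepAdic A → Prop)
    {A : Type} [CommRing A] [IsLocalRing A] [Algebra 𝒪 A] (r : Gal →* M2 A) : Prop where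
  cont : MatCont r
  lift : IsLift F r
  norm : IsNormalized F r
  type : 𝒟 (toAdic r cont)

end Fermat.Agent.S53
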