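import Fermat.Agent.S53.Defs

/-!
# S53: the dual numbers over the residue field as an `𝒪`-algebra
(with exactly the algebra structure used in `GaloisRep.TangentFinite`).
-/

set_option autoImplicit false

namespace Fermat.Agent.S53

open IsLocalRing

variable (𝒪 : Type) [CommRing 𝒪] [IsLocalRing 𝒪]

/-- The dual numbers `k[ε]`, as a type synonym carrying the `𝒪`-algebra structure used in
`GaloisRep.TangentFinite`. -/
def Dk : Type := DualNumber (ResidueField 𝒪)

noncomputable instance : CommRing (Dk 𝒪) := inferInstanceAs (CommRing (DualNumber (ResidueField 𝒪)))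

instance : IsLocalRing (Dk 𝒪) := inferInstanceAs (IsLocalRing (DualNumber (ResidueField 𝒪)))

noncomputable instance : Algebra 𝒪 (Dk 𝒪) :=
  ((algebraMap (ResidueField 𝒪) (DualNumber (ResidueField 𝒪))).comp
      (algebraMap 𝒪 (ResidueField 𝒪))).toAlgebra

theorem Dk.algebraMap_apply (a : 𝒪) :
    algebraMap 𝒪 (Dk 𝒪) a = (TrivSqZeroExt.inl (residue 𝒪 a) : DualNumber (ResidueField 𝒪)) := rfl

end Fermat.Agent.S53
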