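import Fermat.Agent.S53.Galois

/-!
# S53: from the abstract pro-representability lemma to `DeformationRingData`
-/

set_option autoImplicit false

namespace Fermat.Agent.S53

open IsLocalRing GaloisRep

variable {𝒪 : Type} [CommRing 𝒪] [IsLocalRing 𝒪]

/-- Any `𝒪`-algebra homomorphism to a local `𝒪`-algebra with residue field `k` is local. -/
theorem isLocalHom_of_residue_surjective {A B : Type} [CommRing A] [IsLocalRing A] [Algebra 𝒪 A]
    [CommRing B] [IsLocalRing B] [Algebra 𝒪 B] (hB1 : IsLocalHom (algebraMap 𝒪 B))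
    (hB2 : Function.Surjective (residue B ∘ algebraMap 𝒪 B)) (φ : A →ₐ[𝒪] B) :
    IsLocalHom (φ : A →+* B) := by
  refine ⟨fun x hx => ?_⟩
  by_contra hxu
  obtain ⟨b, hb⟩ := hB2 (residue B ((φ : A →+* B) x))
  have hμ : (φ : A →+* B) x - algebraMap 𝒪 B b ∈ maximalIdeal B := by
    rw [← residue_eq_zero_iff, map_sub, sub_eq_zero]
    exact hb.symm
  have hbu : IsUnit (algebraMap 𝒪 B b) := by
    by_contra h
    have h1 : (φ : A →+* B) x ∈ maximalIdeal B := by
      have := Ideal.add_mem _ hμ ((mem_maximalIdeal _).mpr h)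
      simpa using this
    exact h1 hx
  have hbu' : IsUnit b := hB1.map_nonunit b hbu
  have h2 : IsUnit (x - algebraMap 𝒪 A b) := by
    by_contra h
    have h3 : algebraMap 𝒪 A b ∈ maximalIdeal A := by
      have := Ideal.sub_mem _ ((mem_maximalIdeal _).mpr hxu) ((mem_maximalIdeal _).mpr h)
      simpa using this
    exact h3 (hbu'.map (algebraMap 𝒪 A))
  have h4 := h2.map (φ : A →+* B)
  rw [map_sub] at h4
  have h5 : (φ : A →+* B) (algebraMap 𝒪 A b) = algebraMap 𝒪 B b := by simp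
  rw [h5] at h4
  exact hμ h4

/-- A quotient of a Noetherian local `𝒪`-algebra with residue field `k` in which a power of the
maximal ideal dies is an Artinian test algebra. -/
theorem test_of_surjective {A B : Type} [CommRing A] [IsLocalRing A] [IsNoetherianRing A]
    [Algebra 𝒪 A] [CommRing B] [IsLocalRing B] [Algebra 𝒪 B]
    (h1 : IsLocalHom (algebraMap 𝒪 A))
    (h2 : Function.Surjective (residue A ∘ algebraMap 𝒪 A)) (q : A →ₐ[𝒪] B)
    (hq : Function.Surjective q) (n : ℕ) (hn : ∀ x ∈ maximalIdeal A ^ n, q x = 0) :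
    IsArtinianTestAlgebra 𝒪 B := by
  have hql : IsLocalHom (q : A →+* B) := IsLocalHom.of_surjective (q : A →+* B) hq
  refine ⟨⟨fun c hc => ?_⟩, fun y => ?_, ?_⟩
  · have : IsUnit ((q : A →+* B) (algebraMap 𝒪 A c)) := by simpa using hc
    exact h1.map_nonunit c (hql.map_nonunit _ this)
  · obtain ⟨b, rfl⟩ := residue_surjective y
    obtain ⟨a, rfl⟩ := hq b
    obtain ⟨c, hc⟩ := h2 (residue A a)
    refine ⟨c, ?_⟩
    have h3 : algebraMap 𝒪 A c - a ∈ maximalIdeal A := by
      rw [← residue_eq_zero_iff, map_sub, sub_eq_zero]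
      exact hc
    have h4 : (q : A →+* B) (algebraMap 𝒪 A c - a) ∈ maximalIdeal B :=
      map_nonunit (q : A →+* B) _ h3
    rw [← residue_eq_zero_iff, map_sub, map_sub, sub_eq_zero] at h4
    simpa using h4
  · have : IsNoetherianRing B := isNoetherianRing_of_surjective A B (q : A →+* B) hq
    rw [isArtinianRing_iff_isNilpotent_maximalIdeal]
    refine ⟨n, ?_⟩
    rw [← map_maximalIdeal_of_surjective (q : A →+* B) hq, ← Ideal.map_pow, Ideal.zero_eq_bot,
      Ideal.map_eq_bot_iff_le_ker]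
    exact fun x hx => hn x hx

section quot

variable (𝒪) (A : Type) [CommRing A] [IsLocalRing A] [Algebra 𝒪 A]

instance quotPow_nontrivial (n : ℕ) : Nontrivial (A ⧸ maximalIdeal A ^ (n + 1)) :=
  Ideal.Quotient.nontrivial_iff.mpr fun h =>
    (maximalIdeal.isMaximal A).ne_top (top_le_iff.mp (h ▸ Ideal.pow_le_self (Nat.succ_ne_zero n)))

instance quotPow_isLocalRing (n : ℕ) : IsLocalRing (A ⧸ maximalIdeal A ^ (n + 1)) :=
  IsLocalRing.of_surjective' (Ideal.Quotient.mk _) Ideal.Quotient.mk_surjective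

/-- The quotient map `A → A/m^(n+1)`. -/
noncomputable abbrev quotPow (n : ℕ) : A →ₐ[𝒪] A ⧸ maximalIdeal A ^ (n + 1) :=
  Ideal.Quotient.mkₐ 𝒪 _

variable {𝒪 A}

theorem quotPow_test [IsNoetherianRing A] (h1 : IsLocalHom (algebraMap 𝒪 A))
    (h2 : Function.Surjective (residue A ∘ algebraMap 𝒪 A)) (n : ℕ) :
    IsArtinianTestAlgebra 𝒪 (A ⧸ maximalIdeal A ^ (n + 1)) :=
  test_of_surjective h1 h2 (quotPow 𝒪 A n) Ideal.Quotient.mk_surjective (n + 1)
    fun _ hx => Ideal.Quotient.eq_zero_iff_mem.mpr hx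

theorem eq_of_forall_quotPow [IsHausdorff (maximalIdeal A) A] {x y : A}
    (h : ∀ n, quotPow 𝒪 A n x = quotPow 𝒪 A n y) : x = y := by
  rw [← sub_eq_zero]
  apply IsHausdorff.haus (I := maximalIdeal A) inferInstance
  intro n
  rw [SModEq.zero, smul_eq_mul, Ideal.mul_top]
  have h1 : x - y ∈ maximalIdeal A ^ (n + 1) := by
    rw [← Ideal.Quotient.eq]
    exact h n
  exact Ideal.pow_le_pow_right (Nat.le_succ n) h1

end quot

variable {𝒟 : ∀ ⦃A : Type⦄ [CommRing A] [IsLocalRing A] [Algebra 𝒪 A], GaloisRepAdic A → Prop}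

theorem spred_of_isDLift (h𝒟 : IsDeformationCondition 𝒪 𝒟) {F : MatFrame 𝒪} {A : Type}
    [CommRing A] [IsLocalRing A] [IsNoetherianRing A] [IsAdicComplete (maximalIdeal A) A]
    [Algebra 𝒪 A] (h1 : IsLocalHom (algebraMap 𝒪 A))
    (h2 : Function.Surjective (residue A ∘ algebraMap 𝒪 A)) {r : Gal →* M2 A}
    (hr : IsDLift F 𝒟 r) (B : Type) [CommRing B] [IsLocalRing B] [Algebra 𝒪 B]
    (hB : IsArtinianTestAlgebra 𝒪 B) (q : A →ₐ[𝒪] B) (hq : Function.Surjective q) :
    SPred F 𝒟 (q ∘ entries r) := by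
  have hql : IsLocalHom (q : A →+* B) := IsLocalHom.of_surjective (q : A →+* B) hq
  refine ⟨mapRep (q : A →+* B) r, rfl, hr.cont.map _ hql, hr.lift.map q hql, hr.norm.map q, ?_⟩
  exact h𝒟.of_isEquiv hB (baseChangeAlong_toAdic_isEquiv r hr.cont _ hql)
    ((h𝒟.iff_forall_surjective h1 h2 _).mp hr.type hB q hql hq)

theorem exists_isDLift_of_forall (h𝒟 : IsDeformationCondition 𝒪 𝒟) {F : MatFrame 𝒪} {A : Type}
    [CommRing A] [IsLocalRing A] [IsNoetherianRing A] [IsAdicComplete (maximalIdeal A) A]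
    [Algebra 𝒪 A] (h1 : IsLocalHom (algebraMap 𝒪 A))
    (h2 : Function.Surjective (residue A ∘ algebraMap 𝒪 A)) (f : Idx → A)
    (H : ∀ (B : Type) [CommRing B] [IsLocalRing B] [Algebra 𝒪 B], IsArtinianTestAlgebra 𝒪 B →
      ∀ q : A →ₐ[𝒪] B, Function.Surjective q → SPred F 𝒟 (q ∘ f)) :
    ∃ r : Gal →* M2 A, entries r = f ∧ IsDLift F 𝒟 r := by
  have Hn := fun n => H _ (quotPow_test h1 h2 n) (quotPow 𝒪 A n) Ideal.Quotient.mk_surjective
  choose rn hrn1 hrn2 using Hn
  have e : ∀ n σ i j, quotPow 𝒪 A n (f (σ, i, j)) = rn n σ i j :=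
    fun n σ i j => (congrFun (hrn1 n) (σ, i, j)).symm
  let r : Gal →* M2 A :=
    { toFun := fun σ => Matrix.of fun i j => f (σ, i, j)
      map_one' := by
        ext i j
        refine eq_of_forall_quotPow (𝒪 := 𝒪) fun n => ?_
        simp only [Matrix.of_apply, e, map_one, Matrix.one_apply]
        split_ifs <;> simp
      map_mul' := by
        intro σ τ
        ext i j
        refine eq_of_forall_quotPow (𝒪 := 𝒪) fun n => ?_
        simp only [Matrix.of_apply, e, map_mul, Matrix.mul_apply, map_sum] }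
  have hmap : ∀ n, mapRep (quotPow 𝒪 A n : A →+* _) r = rn n := by
    intro n
    ext σ i j
    exact e n σ i j
  have hc : MatCont r := by
    intro n
    cases n with
    | zero =>
      refine ⟨⊥, inferInstance, fun σ _ i j => ?_⟩
      simp
    | succ n =>
      obtain ⟨L, hL, k⟩ := (matCont_iff_of_nilpotent
        (isNilpotent_maximalIdeal_of_test (quotPow_test h1 h2 n)) _).mp (hrn2 n).cont
      refine ⟨L, hL, fun σ hσ i j => ?_⟩
      rw [← Ideal.Quotient.eq_zero_iff_mem, Matrix.sub_apply, map_sub, sub_eq_zero]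
      have := congrFun (congrFun (k σ hσ) i) j
      rw [← e n σ i j] at this
      change quotPow 𝒪 A n (f (σ, i, j)) = _
      rw [this, Matrix.one_apply, Matrix.one_apply]
      split_ifs <;> simp
  refine ⟨r, rfl, hc, ?_, ⟨?_, ?_, ?_⟩, ?_⟩
  · refine IsLift.of_map (quotPow 𝒪 A 0) ?_
    rw [hmap]
    exact (hrn2 0).lift
  · refine eq_of_forall_quotPow (𝒪 := 𝒪) fun n => ?_
    rw [← ext_mapRep, hmap, (hrn2 n).norm.u10, map_zero]
  · refine eq_of_forall_quotPow (𝒪 := 𝒪) fun n => ?_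
    rw [← ext_mapRep, hmap, (hrn2 n).norm.v00, map_zero]
  · refine eq_of_forall_quotPow (𝒪 := 𝒪) fun n => ?_
    rw [← ext_mapRep, hmap, (hrn2 n).norm.v10, map_one]
  · refine (h𝒟.iff_forall_surjective h1 h2 _).mpr ?_
    intro B _ _ _ hB q hql hq
    obtain ⟨rB, hB1, hB2⟩ := H B hB q hq
    have h3 : mapRep (q : A →+* B) r = rB := entries_injective hB1.symm
    refine h𝒟.of_isEquiv hB (IsEquiv.symm' (baseChangeAlong_toAdic_isEquiv r hc _ hql)) ?_
    have h4 := hB2.type
    subst h3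
    exact h4

end Fermat.Agent.S53
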