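import Fermat.Agent.S53.Dual

/-!
# S53: interface of the abstract pro-representability lemma
-/

set_option autoImplicit false

namespace Fermat.Agent.S53

open IsLocalRing GaloisRep

variable (𝒪 : Type) [CommRing 𝒪] [IsLocalRing 𝒪]

/-- Hypotheses of the abstract pro-representability lemma for a "functor of `X`-indexed families"
`S` on local `𝒪`-algebras. -/
structure ProRepHyp (X : Type)
    (S : ∀ ⦃A : Type⦄ [CommRing A] [IsLocalRing A] [Algebra 𝒪 A], (X → A) → Prop)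
    (c : X → 𝒪) : Prop where
  map : ∀ ⦃A B : Type⦄ [CommRing A] [IsLocalRing A] [Algebra 𝒪 A]
    [CommRing B] [IsLocalRing B] [Algebra 𝒪 B],
    IsArtinianTestAlgebra 𝒪 A → IsArtinianTestAlgebra 𝒪 B →
    ∀ (φ : A →ₐ[𝒪] B) ⦃f : X → A⦄, S f → S (φ ∘ f)
  inj : ∀ ⦃A B : Type⦄ [CommRing A] [IsLocalRing A] [Algebra 𝒪 A]
    [CommRing B] [IsLocalRing B] [Algebra 𝒪 B],
    IsArtinianTestAlgebra 𝒪 A → IsArtinianTestAlgebra 𝒪 B →
    ∀ (φ : A →ₐ[𝒪] B), Function.Injective φ → ∀ ⦃f : X → A⦄, S (φ ∘ f) → S f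
  fib : ∀ ⦃A B C P : Type⦄ [CommRing A] [IsLocalRing A] [Algebra 𝒪 A]
    [CommRing B] [IsLocalRing B] [Algebra 𝒪 B] [CommRing C] [IsLocalRing C] [Algebra 𝒪 C]
    [CommRing P] [IsLocalRing P] [Algebra 𝒪 P],
    IsArtinianTestAlgebra 𝒪 A → IsArtinianTestAlgebra 𝒪 B → IsArtinianTestAlgebra 𝒪 C →
    IsArtinianTestAlgebra 𝒪 P →
    ∀ (f : A →ₐ[𝒪] C) (g : B →ₐ[𝒪] C) (pA : P →ₐ[𝒪] A) (pB : P →ₐ[𝒪] B),
      f.comp pA = g.comp pB →
      Function.Injective (fun x => (pA x, pB x)) →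
      (∀ a b, f a = g b → ∃ x, pA x = a ∧ pB x = b) →
      ∀ ⦃h : X → P⦄, S (pA ∘ h) → S (pB ∘ h) → S h
  res : ∀ ⦃A : Type⦄ [CommRing A] [IsLocalRing A] [Algebra 𝒪 A],
    IsArtinianTestAlgebra 𝒪 A → ∀ ⦃f : X → A⦄, S f →
      ∀ x, f x - algebraMap 𝒪 A (c x) ∈ maximalIdeal A
  base : S (A := ResidueField 𝒪) (fun x => algebraMap 𝒪 (ResidueField 𝒪) (c x))
  tan : Finite {f : X → Dk 𝒪 // S f}

/-- Conclusion of the abstract pro-representability lemma. -/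
def ProRepConcl (X : Type)
    (S : ∀ ⦃A : Type⦄ [CommRing A] [IsLocalRing A] [Algebra 𝒪 A], (X → A) → Prop) : Prop :=
  ∃ (R : Type) (_ : CommRing R) (_ : IsLocalRing R) (_ : IsNoetherianRing R)
    (_ : IsAdicComplete (maximalIdeal R) R) (_ : Algebra 𝒪 R) (_ : IsLocalHom (algebraMap 𝒪 R))
    (fu : X → R),
    Function.Surjective (residue R ∘ algebraMap 𝒪 R) ∧
    (∀ (B : Type) [CommRing B] [IsLocalRing B] [Algebra 𝒪 B], IsArtinianTestAlgebra 𝒪 B →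
      ∀ q : R →ₐ[𝒪] B, Function.Surjective q → S (q ∘ fu)) ∧
    (∀ (A : Type) [CommRing A] [IsLocalRing A] [IsNoetherianRing A]
      [IsAdicComplete (maximalIdeal A) A] [Algebra 𝒪 A] [IsLocalHom (algebraMap 𝒪 A)],
      Function.Surjective (residue A ∘ algebraMap 𝒪 A) → ∀ f : X → A,
      (∀ (B : Type) [CommRing B] [IsLocalRing B] [Algebra 𝒪 B], IsArtinianTestAlgebra 𝒪 B →
        ∀ q : A →ₐ[𝒪] B, Function.Surjective q → S (q ∘ f)) →
      ∃! φ : R →ₐ[𝒪] A, φ ∘ fu = f)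

end Fermat.Agent.S53
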