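import Fermat.Agent.S53.Dual

/-!
# S53-T5: a proper subalgebra of an Artinian test algebra is not separated by maps to `k[ε]`
-/

set_option autoImplicit false

namespace Fermat.Agent.S53

open IsLocalRing GaloisRep

variable {𝒪 : Type} [CommRing 𝒪] [IsLocalRing 𝒪]

namespace Tangent

section DualAux

variable {k : Type} [Field k]

/-- Constructor for dual numbers. -/
def dmk (a b : k) : DualNumber k := TrivSqZeroExt.inl a + TrivSqZeroExt.inr b

theorem dmk_fst (a b : k) : (dmk a b).fst = a := by simp [dmk]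
theorem dmk_snd (a b : k) : (dmk a b).snd = b := by simp [dmk]

theorem dmk_mul (a b a' b' : k) : dmk a b * dmk a' b' = dmk (a * a') (a * b' + a' * b) := by
  apply TrivSqZeroExt.ext
  · rw [TrivSqZeroExt.fst_mul, dmk_fst, dmk_fst, dmk_fst]
  · rw [TrivSqZeroExt.snd_mul, dmk_fst, dmk_fst, dmk_snd, dmk_snd, dmk_snd]
    simp [mul_comm]

theorem dmk_add (a b a' b' : k) : dmk a b + dmk a' b' = dmk (a + a') (b + b') := by
  apply TrivSqZeroExt.ext
  · rw [TrivSqZeroExt.fst_add, dmk_fst, dmk_fst, dmk_fst]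
  · rw [TrivSqZeroExt.snd_add, dmk_snd, dmk_snd, dmk_snd]

theorem dmk_one : (dmk 1 0 : DualNumber k) = 1 := by
  apply TrivSqZeroExt.ext
  · rw [dmk_fst, TrivSqZeroExt.fst_one]
  · rw [dmk_snd, TrivSqZeroExt.snd_one]

theorem dmk_zero : (dmk 0 0 : DualNumber k) = 0 := by
  apply TrivSqZeroExt.ext
  · rw [dmk_fst, TrivSqZeroExt.fst_zero]
  · rw [dmk_snd, TrivSqZeroExt.snd_zero]

theorem dmk_inl (a : k) : (dmk a 0 : DualNumber k) = TrivSqZeroExt.inl a := by
  simp [dmk]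

theorem exists_dmk (z : DualNumber k) : ∃ a b, z = dmk a b :=
  ⟨z.fst, z.snd, (TrivSqZeroExt.inl_fst_add_inr_snd_eq z).symm⟩

end DualAux

/-- Constructor for elements of `Dk 𝒪`. -/
noncomputable def Dk.mk (a b : ResidueField 𝒪) : Dk 𝒪 := dmk a b

theorem Dk.mk_mul (a b a' b' : ResidueField 𝒪) :
    (Dk.mk a b * Dk.mk a' b' : Dk 𝒪) = Dk.mk (a * a') (a * b' + a' * b) := dmk_mul a b a' b'

theorem Dk.mk_add (a b a' b' : ResidueField 𝒪) :
    (Dk.mk a b + Dk.mk a' b' : Dk 𝒪) = Dk.mk (a + a') (b + b') := dmk_add a b a' b'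

theorem Dk.mk_one : (Dk.mk 1 0 : Dk 𝒪) = 1 := dmk_one

theorem Dk.mk_zero : (Dk.mk 0 0 : Dk 𝒪) = 0 := dmk_zero

theorem Dk.mk_inj {a b a' b' : ResidueField 𝒪} (h : (Dk.mk a b : Dk 𝒪) = Dk.mk a' b') :
    a = a' ∧ b = b' := by
  have h' : dmk a b = dmk a' b' := h
  exact ⟨by simpa [dmk_fst] using congrArg TrivSqZeroExt.fst h',
    by simpa [dmk_snd] using congrArg TrivSqZeroExt.snd h'⟩

theorem Dk.algebraMap_eq_mk (a : 𝒪) : algebraMap 𝒪 (Dk 𝒪) a = Dk.mk (residue 𝒪 a) 0 := by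
  rw [Dk.algebraMap_apply]
  exact (dmk_inl _).symm

theorem Dk.exists_mk (z : Dk 𝒪) : ∃ a b, z = Dk.mk a b := exists_dmk z


theorem Dk.isUnit_mk {a b : ResidueField 𝒪} : IsUnit (Dk.mk a b : Dk 𝒪) ↔ a ≠ 0 := by
  have h : IsUnit (dmk a b) ↔ IsUnit (dmk a b).fst := TrivSqZeroExt.isUnit_iff_isUnit_fst
  rw [dmk_fst, isUnit_iff_ne_zero] at h
  exact h

end Tangent

open Tangent

theorem Dk.isArtinianTestAlgebra : IsArtinianTestAlgebra 𝒪 (Dk 𝒪) where
  isLocalHom := by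
    constructor
    intro a ha
    rw [Dk.algebraMap_eq_mk, Dk.isUnit_mk] at ha
    by_contra hna
    exact ha ((residue_eq_zero_iff a).mpr hna)
  residue_surjective := by
    intro x
    obtain ⟨z, rfl⟩ := residue_surjective x
    obtain ⟨a, b, rfl⟩ := Dk.exists_mk z
    obtain ⟨c, rfl⟩ := residue_surjective a
    refine ⟨c, ?_⟩
    rw [Function.comp_apply, Dk.algebraMap_eq_mk, ← sub_eq_zero, ← map_sub,
      residue_eq_zero_iff, mem_maximalIdeal, mem_nonunits_iff]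
    have : (Dk.mk (residue 𝒪 c) 0 - Dk.mk (residue 𝒪 c) b : Dk 𝒪) = Dk.mk 0 (-b) := by
      rw [sub_eq_iff_eq_add, Dk.mk_add]
      simp
    rw [this, Dk.isUnit_mk]
    simp
  isArtinian := by
    have : Module.Finite (ResidueField 𝒪) (DualNumber (ResidueField 𝒪)) :=
      inferInstanceAs (Module.Finite (ResidueField 𝒪) (ResidueField 𝒪 × ResidueField 𝒪))
    exact (IsArtinianRing.of_finite (ResidueField 𝒪) (DualNumber (ResidueField 𝒪)) :)

variable {E : Type} [CommRing E] [IsLocalRing E] [Algebra 𝒪 E]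

namespace Tangent

theorem exists_sub_algebraMap_mem (hE : IsArtinianTestAlgebra 𝒪 E) (x : E) :
    ∃ a : 𝒪, x - algebraMap 𝒪 E a ∈ maximalIdeal E := by
  obtain ⟨a, ha⟩ := hE.residue_surjective (residue E x)
  refine ⟨a, ?_⟩
  rw [← residue_eq_zero_iff, map_sub, ← ha]
  simp

theorem subalgebra_approx_step (B : Subalgebra 𝒪 E)
    (h : ∀ x : E, ∃ b ∈ B, x - b ∈ maximalIdeal E ^ 2) (n : ℕ) :
    ∀ x ∈ maximalIdeal E ^ n, ∃ b ∈ B, x - b ∈ maximalIdeal E ^ (n + 1) := by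
  induction n with
  | zero =>
    intro x _
    obtain ⟨b, hb, hxb⟩ := h x
    exact ⟨b, hb, Ideal.pow_le_pow_right (by norm_num) hxb⟩
  | succ n ih =>
    intro x hx
    rw [pow_succ] at hx
    refine Submodule.mul_induction_on hx ?_ ?_
    · intro u hu v hv
      obtain ⟨bu, hbu, hu'⟩ := ih u hu
      obtain ⟨bv, hbv, hv'⟩ := h v
      refine ⟨bu * bv, B.mul_mem hbu hbv, ?_⟩
      have hbun : bu ∈ maximalIdeal E ^ n := by
        have : bu = u - (u - bu) := by ring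
        rw [this]
        exact Ideal.sub_mem _ hu (Ideal.pow_le_pow_right (Nat.le_succ n) hu')
      have e : u * v - bu * bv = (u - bu) * v + bu * (v - bv) := by ring
      rw [e]
      refine Ideal.add_mem _ ?_ ?_
      · rw [pow_succ (maximalIdeal E) (n + 1)]
        exact Ideal.mul_mem_mul hu' hv
      · have : maximalIdeal E ^ (n + 1 + 1) = maximalIdeal E ^ n * maximalIdeal E ^ 2 := by
          rw [← pow_add]
        rw [this]
        exact Ideal.mul_mem_mul hbun hv'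
    · rintro y z ⟨by', hby, hy⟩ ⟨bz, hbz, hz⟩
      refine ⟨by' + bz, B.add_mem hby hbz, ?_⟩
      have e : y + z - (by' + bz) = (y - by') + (z - bz) := by ring
      rw [e]
      exact Ideal.add_mem _ hy hz

theorem subalgebra_approx (B : Subalgebra 𝒪 E)
    (h : ∀ x : E, ∃ b ∈ B, x - b ∈ maximalIdeal E ^ 2) (n : ℕ) (x : E) :
    ∃ b ∈ B, x - b ∈ maximalIdeal E ^ n := by
  induction n with
  | zero => exact ⟨0, B.zero_mem, by simp⟩
  | succ n ih =>
    obtain ⟨b, hb, hxb⟩ := ih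
    obtain ⟨b', hb', hxb'⟩ := subalgebra_approx_step B h n _ hxb
    exact ⟨b + b', B.add_mem hb hb', by rwa [← sub_sub]⟩

theorem subalgebra_eq_top (hE : IsArtinianTestAlgebra 𝒪 E) (B : Subalgebra 𝒪 E)
    (h : ∀ x : E, ∃ b ∈ B, x - b ∈ maximalIdeal E ^ 2) : B = ⊤ := by
  have := hE.isArtinian
  obtain ⟨n, hn⟩ : IsNilpotent (maximalIdeal E) := by
    have := IsArtinianRing.isNilpotent_jacobson_bot (R := E)
    rwa [jacobson_eq_maximalIdeal _ bot_ne_top] at this
  rw [eq_top_iff]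
  intro x _
  obtain ⟨b, hb, hxb⟩ := subalgebra_approx B h n x
  rw [hn, Ideal.zero_eq_bot, Ideal.mem_bot, sub_eq_zero] at hxb
  rwa [hxb]

/-- The residue map of an Artinian test algebra, with values in the residue field of `𝒪`. -/
theorem exists_res (hE : IsArtinianTestAlgebra 𝒪 E) :
    ∃ res : E →+* ResidueField 𝒪, (∀ a : 𝒪, res (algebraMap 𝒪 E a) = residue 𝒪 a) ∧
      ∀ x ∈ maximalIdeal E, res x = 0 := by
  have := hE.isLocalHom
  have hbij : Function.Bijective (ResidueField.map (algebraMap 𝒪 E)) := by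
    refine ⟨(ResidueField.map (algebraMap 𝒪 E)).injective, fun y => ?_⟩
    obtain ⟨a, ha⟩ := hE.residue_surjective y
    exact ⟨residue 𝒪 a, by rw [ResidueField.map_residue]; exact ha⟩
  let e := RingEquiv.ofBijective _ hbij
  refine ⟨(e.symm : ResidueField E →+* ResidueField 𝒪).comp (residue E), fun a => ?_, fun x hx => ?_⟩
  · rw [RingHom.comp_apply, RingHom.coe_coe, RingEquiv.symm_apply_eq]
    exact (ResidueField.map_residue _ a).symm
  · rw [RingHom.comp_apply, (residue_eq_zero_iff x).mpr hx, map_zero]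

/-- A nonzero `𝒪`-linear functional killing `B` and `m²`. -/
theorem exists_functional (hE : IsArtinianTestAlgebra 𝒪 E) (B : Subalgebra 𝒪 E) (hB : B ≠ ⊤) :
    ∃ D : E →ₗ[𝒪] ResidueField 𝒪, D ≠ 0 ∧ (∀ b ∈ B, D b = 0) ∧
      ∀ y ∈ maximalIdeal E ^ 2, D y = 0 := by
  classical
  have := hE.isLocalHom
  let W : Submodule 𝒪 E := Subalgebra.toSubmodule B ⊔ (maximalIdeal E ^ 2).restrictScalars 𝒪
  have hBW : ∀ b ∈ B, b ∈ W := fun b hb =>
    (le_sup_left : Subalgebra.toSubmodule B ≤ W) hb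
  have hmW : ∀ y ∈ maximalIdeal E ^ 2, y ∈ W := fun y hy =>
    (le_sup_right : (maximalIdeal E ^ 2).restrictScalars 𝒪 ≤ W) hy
  have hW : W ≠ ⊤ := by
    intro hW
    apply hB
    apply subalgebra_eq_top hE
    intro x
    have hx : x ∈ W := hW ▸ Submodule.mem_top
    obtain ⟨b, hb, y, hy, rfl⟩ := Submodule.mem_sup.mp hx
    exact ⟨b, hb, by simpa using hy⟩
  have htors : Module.IsTorsionBySet 𝒪 (E ⧸ W) (maximalIdeal 𝒪 : Set 𝒪) := by
    intro q a
    obtain ⟨x, rfl⟩ := Submodule.mkQ_surjective W q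
    rw [← map_smul, Submodule.mkQ_apply, Submodule.Quotient.mk_eq_zero]
    obtain ⟨c, hc⟩ := exists_sub_algebraMap_mem hE x
    have e : (a : 𝒪) • x = algebraMap 𝒪 E ((a : 𝒪) * c) +
        algebraMap 𝒪 E (a : 𝒪) * (x - algebraMap 𝒪 E c) := by
      rw [Algebra.smul_def, map_mul]; ring
    rw [e]
    refine W.add_mem (hBW _ (B.algebraMap_mem _)) (hmW _ ?_)
    rw [pow_two]
    refine Ideal.mul_mem_mul ?_ hc
    exact map_nonunit (algebraMap 𝒪 E) _ a.2
  letI : Module (ResidueField 𝒪) (E ⧸ W) :=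
    (Module.IsTorsionBySet.module htors : Module (𝒪 ⧸ maximalIdeal 𝒪) (E ⧸ W))
  have hsmul : ∀ (a : 𝒪) (q : E ⧸ W), (residue 𝒪 a) • q = a • q := fun a q =>
    Module.IsTorsionBySet.mk_smul htors a q
  obtain ⟨x₀, hx₀⟩ : ∃ x₀ : E, x₀ ∉ W := by
    by_contra hcon
    push Not at hcon
    exact hW (eq_top_iff.mpr fun x _ => hcon x)
  have hq : W.mkQ x₀ ≠ 0 := by
    rwa [Submodule.mkQ_apply, Ne, Submodule.Quotient.mk_eq_zero]
  obtain ⟨φ, hφ⟩ : ∃ φ : Module.Dual (ResidueField 𝒪) (E ⧸ W), φ (W.mkQ x₀) ≠ 0 := by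
    by_contra hcon
    push Not at hcon
    exact hq ((Module.forall_dual_apply_eq_zero_iff (ResidueField 𝒪) _).mp hcon)
  refine ⟨{ toFun := fun x => φ (W.mkQ x)
            map_add' := fun x y => by rw [map_add, map_add]
            map_smul' := fun a x => by
              rw [map_smul, ← hsmul, map_smul, RingHom.id_apply, Algebra.smul_def]
              rfl }, ?_, ?_, ?_⟩
  · intro h0
    exact hφ (by simpa using LinearMap.congr_fun h0 x₀)
  · intro b hb
    show φ (W.mkQ b) = 0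
    rw [Submodule.mkQ_apply, (Submodule.Quotient.mk_eq_zero W).mpr (hBW b hb), map_zero]
  · intro y hy
    show φ (W.mkQ y) = 0
    rw [Submodule.mkQ_apply, (Submodule.Quotient.mk_eq_zero W).mpr (hmW y hy), map_zero]

end Tangent

theorem exists_dual_homs (hE : IsArtinianTestAlgebra 𝒪 E) (B : Subalgebra 𝒪 E) (hB : B ≠ ⊤) :
    ∃ l₁ l₂ : E →ₐ[𝒪] Dk 𝒪, l₁ ≠ l₂ ∧ ∀ b ∈ B, l₁ b = l₂ b := by
  obtain ⟨res, hres, hresm⟩ := exists_res hE
  obtain ⟨D, hD0, hDB, hDm⟩ := exists_functional hE B hB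
  have hD1 : D 1 = 0 := hDB 1 B.one_mem
  have hDalg : ∀ a : 𝒪, D (algebraMap 𝒪 E a) = 0 := fun a => hDB _ (B.algebraMap_mem a)
  have hDsmul : ∀ (a : 𝒪) (x : E), D (algebraMap 𝒪 E a * x) = residue 𝒪 a * D x := by
    intro a x
    rw [← Algebra.smul_def, map_smul, Algebra.smul_def]
    rfl
  have hDmul : ∀ x y : E, D (x * y) = res x * D y + res y * D x := by
    intro x y
    obtain ⟨a, ha⟩ := exists_sub_algebraMap_mem hE x
    obtain ⟨a', ha'⟩ := exists_sub_algebraMap_mem hE y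
    have hrx : res x = residue 𝒪 a := by
      have := hresm _ ha
      rwa [map_sub, hres, sub_eq_zero] at this
    have hry : res y = residue 𝒪 a' := by
      have := hresm _ ha'
      rwa [map_sub, hres, sub_eq_zero] at this
    have e : x * y = algebraMap 𝒪 E a * y + algebraMap 𝒪 E a' * x
        - algebraMap 𝒪 E (a * a') + (x - algebraMap 𝒪 E a) * (y - algebraMap 𝒪 E a') := by
      rw [map_mul]; ring
    have hprod : D ((x - algebraMap 𝒪 E a) * (y - algebraMap 𝒪 E a')) = 0 :=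
      hDm _ (by rw [pow_two]; exact Ideal.mul_mem_mul ha ha')
    rw [e, map_add, map_sub, map_add, hDsmul, hDsmul, hDalg, hprod, hrx, hry]
    ring
  let l₁ : E →ₐ[𝒪] Dk 𝒪 :=
    { toFun := fun x => Dk.mk (res x) (D x)
      map_one' := by rw [map_one, hD1, Dk.mk_one]
      map_mul' := fun x y => by rw [Dk.mk_mul, map_mul, hDmul]
      map_zero' := by rw [map_zero, map_zero, Dk.mk_zero]
      map_add' := fun x y => by rw [Dk.mk_add, map_add, map_add]
      commutes' := fun a => by rw [hres, hDalg, Dk.algebraMap_eq_mk] }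
  let l₂ : E →ₐ[𝒪] Dk 𝒪 :=
    { toFun := fun x => Dk.mk (res x) 0
      map_one' := by rw [map_one, Dk.mk_one]
      map_mul' := fun x y => by rw [Dk.mk_mul, map_mul]; simp
      map_zero' := by rw [map_zero, Dk.mk_zero]
      map_add' := fun x y => by rw [Dk.mk_add, map_add, add_zero]
      commutes' := fun a => by rw [hres, Dk.algebraMap_eq_mk] }
  refine ⟨l₁, l₂, fun h => hD0 ?_, fun b hb => ?_⟩
  · ext x
    have hx : Dk.mk (res x) (D x) = (Dk.mk (res x) 0 : Dk 𝒪) := AlgHom.congr_fun h x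
    exact (Dk.mk_inj hx).2
  · show Dk.mk (res b) (D b) = (Dk.mk (res b) 0 : Dk 𝒪)
    rw [hDB b hb]

end Fermat.Agent.S53
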