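import Fermat.Agent.S53.NormalForm
import Fermat.Agent.S53.AdicEquiv1
import Fermat.Agent.S53.Artin
import Fermat.Agent.S53.Tangent
import Fermat.Agent.S53.ProRepSpec

/-!
# S53: the functor of normalised lifts satisfies the hypotheses of the pro-representability lemma
-/

set_option autoImplicit false

namespace Fermat.Agent.S53

open IsLocalRing GaloisRep

/-- Index set of matrix entries. -/
abbrev Idx : Type := Gal × Fin 2 × Fin 2

/-- The family of matrix entries of a matrix valued map. -/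
noncomputable def entries {A : Type} [CommRing A] (r : Gal →* M2 A) : Idx → A := fun x => r x.1 x.2.1 x.2.2

theorem entries_injective {A : Type} [CommRing A] {r r' : Gal →* M2 A}
    (h : entries r = entries r') : r = r' := by
  ext σ i j
  exact congrFun h (σ, i, j)

theorem entries_mapRep {A B : Type} [CommRing A] [CommRing B] (φ : A →+* B) (r : Gal →* M2 A) :
    entries (mapRep φ r) = φ ∘ entries r := rfl

variable {𝒪 : Type} [CommRing 𝒪] [IsLocalRing 𝒪]

theorem IsLift.of_map {F : MatFrame 𝒪} {A B : Type} [CommRing A] [IsLocalRing A] [Algebra 𝒪 A]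
    [CommRing B] [IsLocalRing B] [Algebra 𝒪 B] (φ : A →ₐ[𝒪] B)
    {r : Gal →* M2 A} (h : IsLift F (mapRep (φ : A →+* B) r)) : IsLift F r := by
  intro σ i j
  have h1 : mapRep (φ : A →+* B) r σ i j - algebraMap 𝒪 B (F.rtil σ i j) =
      (φ : A →+* B) (r σ i j - algebraMap 𝒪 A (F.rtil σ i j)) := by
    rw [map_sub, mapRep_apply]
    simp
  have h2 := h σ i j
  rw [h1] at h2
  intro hu
  exact h2 (hu.map (φ : A →+* B))

/-- In an Artinian local ring continuity means factoring through a finite level. -/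
theorem matCont_iff_of_nilpotent {A : Type} [CommRing A] [IsLocalRing A]
    (hA : IsNilpotent (maximalIdeal A)) (r : Gal →* M2 A) :
    MatCont r ↔ GaloisFactorsThroughFiniteLevel r := by
  constructor
  · intro h
    obtain ⟨n, hn⟩ := hA
    obtain ⟨L, hL, h1⟩ := h n
    refine ⟨L, hL, fun σ hσ => ?_⟩
    ext i j
    have := h1 σ hσ i j
    rw [hn] at this
    have h0 : (r σ - 1) i j = 0 := this
    rw [Matrix.sub_apply, sub_eq_zero] at h0
    exact h0
  · rintro ⟨L, hL, h1⟩ n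
    refine ⟨L, hL, fun σ hσ i j => ?_⟩
    rw [h1 σ hσ, sub_self]
    exact Ideal.zero_mem _

theorem isNilpotent_maximalIdeal_of_test {A : Type} [CommRing A] [IsLocalRing A] [Algebra 𝒪 A]
    (hA : IsArtinianTestAlgebra 𝒪 A) : IsNilpotent (maximalIdeal A) := by
  have := hA.isArtinian
  exact (isArtinianRing_iff_isNilpotent_maximalIdeal A).mp hA.isArtinian

theorem MatCont.of_map_injective {A B : Type} [CommRing A] [IsLocalRing A] [CommRing B]
    [IsLocalRing B] (hB : IsNilpotent (maximalIdeal B)) (φ : A →+* B)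
    (hφ : Function.Injective φ) {r : Gal →* M2 A} (h : MatCont (mapRep φ r)) : MatCont r := by
  obtain ⟨L, hL, h1⟩ := (matCont_iff_of_nilpotent hB _).mp h
  intro n
  refine ⟨L, hL, fun σ hσ i j => ?_⟩
  have h2 : r σ = 1 := by
    ext i j
    apply hφ
    have := congrFun (congrFun (h1 σ hσ) i) j
    rw [mapRep_apply] at this
    rw [this, Matrix.one_apply, Matrix.one_apply]
    split_ifs <;> simp
  rw [h2, sub_self]
  exact Ideal.zero_mem _

variable {𝒟 : ∀ ⦃A : Type⦄ [CommRing A] [IsLocalRing A] [Algebra 𝒪 A], GaloisRepAdic A → Prop}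

theorem IsDLift.map (h𝒟 : IsDeformationCondition 𝒪 𝒟) {F : MatFrame 𝒪} {A B : Type} [CommRing A]
    [IsLocalRing A] [Algebra 𝒪 A] [CommRing B] [IsLocalRing B] [Algebra 𝒪 B]
    (hA : IsArtinianTestAlgebra 𝒪 A) (hB : IsArtinianTestAlgebra 𝒪 B) (φ : A →ₐ[𝒪] B)
    {r : Gal →* M2 A} (h : IsDLift F 𝒟 r) : IsDLift F 𝒟 (mapRep (φ : A →+* B) r) :=
  have hφ : IsLocalHom (φ : A →+* B) := isLocalHom_of_artinian hA φ
  { cont := h.cont.map _ hφ
    lift := h.lift.map φ hφ
    norm := h.norm.map φ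
    type := h𝒟.of_isEquiv hB (baseChangeAlong_toAdic_isEquiv r h.cont _ hφ)
      (h𝒟.baseChangeAlong hA hB φ hφ h.type) }

theorem IsDLift.of_map_injective (h𝒟 : IsDeformationCondition 𝒪 𝒟) {F : MatFrame 𝒪} {A B : Type}
    [CommRing A] [IsLocalRing A] [Algebra 𝒪 A] [CommRing B] [IsLocalRing B] [Algebra 𝒪 B]
    (hA : IsArtinianTestAlgebra 𝒪 A) (hB : IsArtinianTestAlgebra 𝒪 B) (φ : A →ₐ[𝒪] B)
    (hinj : Function.Injective φ)
    {r : Gal →* M2 A} (h : IsDLift F 𝒟 (mapRep (φ : A →+* B) r)) : IsDLift F 𝒟 r :=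
  have hφ : IsLocalHom (φ : A →+* B) := isLocalHom_of_artinian hA φ
  have hc : MatCont r :=
    MatCont.of_map_injective (isNilpotent_maximalIdeal_of_test hB) (φ : A →+* B) hinj h.cont
  { cont := hc
    lift := h.lift.of_map φ
    norm := IsNormalized.of_map_injective φ hinj h.norm
    type := h𝒟.of_baseChangeAlong_injective hA hB φ hφ hinj
      (h𝒟.of_isEquiv hB (IsEquiv.symm' (baseChangeAlong_toAdic_isEquiv r hc _ hφ)) h.type) }

/-- A family of entries which becomes multiplicative after applying a jointly injective pair of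
ring homomorphisms is multiplicative. -/
theorem exists_rep_of_jointly_injective {P A B : Type} [CommRing P] [CommRing A] [CommRing B]
    (pA : P →+* A) (pB : P →+* B) (hinj : Function.Injective fun x => (pA x, pB x))
    (h : Idx → P) (r₁ : Gal →* M2 A) (r₂ : Gal →* M2 B) (h₁ : pA ∘ h = entries r₁)
    (h₂ : pB ∘ h = entries r₂) :
    ∃ r : Gal →* M2 P, entries r = h ∧ mapRep pA r = r₁ ∧ mapRep pB r = r₂ := by
  have e₁ : ∀ σ i j, pA (h (σ, i, j)) = r₁ σ i j := fun σ i j => congrFun h₁ (σ, i, j)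
  have e₂ : ∀ σ i j, pB (h (σ, i, j)) = r₂ σ i j := fun σ i j => congrFun h₂ (σ, i, j)
  refine ⟨{ toFun := fun σ => Matrix.of fun i j => h (σ, i, j)
            map_one' := ?_
            map_mul' := ?_ }, rfl, ?_, ?_⟩
  · ext i j
    apply hinj
    refine Prod.ext ?_ ?_
    · simp only [Matrix.of_apply, e₁, map_one, Matrix.one_apply]
      split_ifs <;> simp
    · simp only [Matrix.of_apply, e₂, map_one, Matrix.one_apply]
      split_ifs <;> simp
  · intro σ τ
    ext i j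
    apply hinj
    refine Prod.ext ?_ ?_
    · simp only [Matrix.of_apply, e₁, map_mul, Matrix.mul_apply, map_sum]
    · simp only [Matrix.of_apply, e₂, map_mul, Matrix.mul_apply, map_sum]
  · ext σ i j
    exact e₁ σ i j
  · ext σ i j
    exact e₂ σ i j

theorem IsDLift.of_fibreProduct (h𝒟 : IsDeformationCondition 𝒪 𝒟) {F : MatFrame 𝒪}
    {A B C P : Type} [CommRing A] [IsLocalRing A] [Algebra 𝒪 A]
    [CommRing B] [IsLocalRing B] [Algebra 𝒪 B] [CommRing C] [IsLocalRing C] [Algebra 𝒪 C]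
    [CommRing P] [IsLocalRing P] [Algebra 𝒪 P]
    (hA : IsArtinianTestAlgebra 𝒪 A) (hB : IsArtinianTestAlgebra 𝒪 B)
    (hC : IsArtinianTestAlgebra 𝒪 C) (hP : IsArtinianTestAlgebra 𝒪 P)
    (f : A →ₐ[𝒪] C) (g : B →ₐ[𝒪] C) (pA : P →ₐ[𝒪] A) (pB : P →ₐ[𝒪] B)
    (hfg : f.comp pA = g.comp pB)
    (hinj : Function.Injective (fun x => (pA x, pB x)))
    (hsurj : ∀ a b, f a = g b → ∃ x, pA x = a ∧ pB x = b)
    {r : Gal →* M2 P} (h₁ : IsDLift F 𝒟 (mapRep (pA : P →+* A) r))
    (h₂ : IsDLift F 𝒟 (mapRep (pB : P →+* B) r)) : IsDLift F 𝒟 r := by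
  have hpA : IsLocalHom (pA : P →+* A) := isLocalHom_of_artinian hP pA
  have hpB : IsLocalHom (pB : P →+* B) := isLocalHom_of_artinian hP pB
  have hc : MatCont r := by
    obtain ⟨L₁, hL₁, k₁⟩ :=
      (matCont_iff_of_nilpotent (isNilpotent_maximalIdeal_of_test hA) _).mp h₁.cont
    obtain ⟨L₂, hL₂, k₂⟩ :=
      (matCont_iff_of_nilpotent (isNilpotent_maximalIdeal_of_test hB) _).mp h₂.cont
    refine (matCont_iff_of_nilpotent (isNilpotent_maximalIdeal_of_test hP) _).mpr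
      ⟨L₁ ⊔ L₂, IntermediateField.finiteDimensional_sup L₁ L₂, fun σ hσ => ?_⟩
    have a₁ := k₁ σ fun x hx => hσ x ((le_sup_left : L₁ ≤ L₁ ⊔ L₂) hx)
    have a₂ := k₂ σ fun x hx => hσ x ((le_sup_right : L₂ ≤ L₁ ⊔ L₂) hx)
    ext i j
    apply hinj
    refine Prod.ext ?_ ?_
    · have := congrFun (congrFun a₁ i) j
      rw [mapRep_apply] at this
      simp only [Matrix.one_apply] at this ⊢
      rw [← RingHom.coe_coe pA, this]
      split_ifs <;> simp
    · have := congrFun (congrFun a₂ i) j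
      rw [mapRep_apply] at this
      simp only [Matrix.one_apply] at this ⊢
      rw [← RingHom.coe_coe pB, this]
      split_ifs <;> simp
  refine ⟨hc, h₁.lift.of_map pA, ⟨?_, ?_, ?_⟩, ?_⟩
  · apply hinj
    refine Prod.ext ?_ ?_
    · simp only [← ext_mapRep, h₁.norm.u10, map_zero]
    · simp only [← ext_mapRep, h₂.norm.u10, map_zero]
  · apply hinj
    refine Prod.ext ?_ ?_
    · simp only [← ext_mapRep, h₁.norm.v00, map_zero]
    · simp only [← ext_mapRep, h₂.norm.v00, map_zero]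
  · apply hinj
    refine Prod.ext ?_ ?_
    · simp only [← ext_mapRep, h₁.norm.v10, map_one]
    · simp only [← ext_mapRep, h₂.norm.v10, map_one]
  · exact h𝒟.of_fibreProduct hA hB hC hP f g pA pB hpA hpB hfg hinj hsurj
      (h𝒟.of_isEquiv hA (IsEquiv.symm' (baseChangeAlong_toAdic_isEquiv r hc _ hpA)) h₁.type)
      (h𝒟.of_isEquiv hB (IsEquiv.symm' (baseChangeAlong_toAdic_isEquiv r hc _ hpB)) h₂.type)

/-- The predicate "`f` is the family of entries of a normalised lift of type `𝒟`". -/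
def SPred (F : MatFrame 𝒪)
    (𝒟 : ∀ ⦃A : Type⦄ [CommRing A] [IsLocalRing A] [Algebra 𝒪 A], GaloisRepAdic A → Prop)
    ⦃A : Type⦄ [CommRing A] [IsLocalRing A] [Algebra 𝒪 A] (f : Idx → A) : Prop :=
  ∃ r : Gal →* M2 A, entries r = f ∧ IsDLift F 𝒟 r

/-- The residual matrix representation is a normalised lift. -/
theorem isDLift_resMatOf (h𝒟 : IsDeformationCondition 𝒪 𝒟)
    {ρbar : ResidualGaloisRep (ResidueField 𝒪)} (F : Frame ρbar)
    (hbar : 𝒟 (GaloisRepAdic.ofResidualGaloisRep ρbar)) :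
    IsDLift F.toMatFrame 𝒟 (resMatOf ρbar F.b) := by
  have hent : ∀ σ i j, resMatOf ρbar F.b σ i j = residue 𝒪 (F.rtil σ i j) := by
    intro σ i j
    rw [resMatOf_apply, ← F.rtil_spec σ]
    rfl
  have hext : ∀ (w : Gal →₀ 𝒪) i j, ext (resMatOf ρbar F.b) w i j =
      ((ext F.rtil w).map (residue 𝒪)) i j := by
    intro w i j
    rw [Matrix.map_apply, ext_apply, ext_apply, Finsupp.sum, Finsupp.sum, map_sum]
    refine Finset.sum_congr rfl fun g _ => ?_
    rw [hent, smul_eq_mul, map_mul, Algebra.smul_def]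
    rfl
  have hc : MatCont (resMatOf ρbar F.b) := by
    obtain ⟨L, hL, h1⟩ := resMatOf_factors ρbar F.b
    intro n
    refine ⟨L, hL, fun σ hσ i j => ?_⟩
    rw [h1 σ hσ, sub_self]
    exact Ideal.zero_mem _
  refine ⟨hc, ?_, ⟨?_, ?_, ?_⟩, ?_⟩
  · intro σ i j
    rw [hent]
    have : residue 𝒪 (F.rtil σ i j) - algebraMap 𝒪 (ResidueField 𝒪) (F.rtil σ i j) = 0 :=
      sub_self _
    rw [this]
    exact Ideal.zero_mem _
  · rw [hext, F.hu]; rfl
  · rw [hext, F.hv]; rfl
  · rw [hext, F.hv]; rfl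
  · exact h𝒟.of_isEquiv residueField_test
      (isEquiv_toAdic_matOf (GaloisRepAdic.ofResidualGaloisRep ρbar) F.b) hbar

theorem residueField_map_Dk (h : IsLocalHom (algebraMap 𝒪 (Dk 𝒪))) :
    ResidueField.map (algebraMap 𝒪 (Dk 𝒪)) =
      (IsLocalRing.residue (DualNumber (ResidueField 𝒪))).comp
        (algebraMap (ResidueField 𝒪) (DualNumber (ResidueField 𝒪))) := by
  ext x
  obtain ⟨a, rfl⟩ := residue_surjective x
  rfl

theorem finite_spred {ρbar : ResidualGaloisRep (ResidueField 𝒪)} (F : Frame ρbar)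
    (hfin : TangentFinite 𝒪 ρbar 𝒟) : Finite {f : Idx → Dk 𝒪 // SPred F.toMatFrame 𝒟 f} := by
  unfold TangentFinite at hfin
  have hloc : IsLocalHom (algebraMap 𝒪 (Dk 𝒪)) := Dk.isArtinianTestAlgebra.isLocalHom
  have key : ∀ f : {f : Idx → Dk 𝒪 // SPred F.toMatFrame 𝒟 f},
      ∃ r : Gal →* M2 (Dk 𝒪), entries r = f.1 ∧ IsDLift F.toMatFrame 𝒟 r := fun f => f.2
  choose r hr1 hr2 using key
  have hres : ∀ f, (toAdic (r f) (hr2 f).cont).residual.IsEquiv
      (ρbar.baseChangeAlong ((IsLocalRing.residue (DualNumber (ResidueField 𝒪))).comp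
        (algebraMap (ResidueField 𝒪) (DualNumber (ResidueField 𝒪))))) := by
    intro f
    have := residual_isEquiv_of_isLift F (r f) (hr2 f).cont (hr2 f).lift
    rw [residueField_map_Dk hloc] at this
    exact this
  refine @Finite.of_injective _ _ hfin
    (fun f => Quotient.mk _ ⟨toAdic (r f) (hr2 f).cont, (hr2 f).type, hres f⟩) ?_
  intro f g hfg
  have h1 : (toAdic (r f) (hr2 f).cont).IsEquiv (toAdic (r g) (hr2 g).cont) := Quotient.exact hfg
  obtain ⟨M, hM⟩ := (toAdic_isEquiv_iff _ _ _ _).mp h1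
  have h2 : r f = r g := normalized_unique F.toMatFrame (r f) (r g) (hr2 f).lift (hr2 g).lift
    (hr2 f).norm (hr2 g).norm M M.isUnit hM
  apply Subtype.ext
  rw [← hr1 f, ← hr1 g, h2]

/-- The functor of normalised lifts satisfies the hypotheses of the pro-representability lemma. -/
theorem proRepHyp (h𝒟 : IsDeformationCondition 𝒪 𝒟)
    {ρbar : ResidualGaloisRep (ResidueField 𝒪)} (F : Frame ρbar)
    (hbar : 𝒟 (GaloisRepAdic.ofResidualGaloisRep ρbar)) (hfin : TangentFinite 𝒪 ρbar 𝒟) :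
    ProRepHyp 𝒪 Idx (SPred F.toMatFrame 𝒟) (fun x => F.rtil x.1 x.2.1 x.2.2) where
  map := by
    rintro A B _ _ _ _ _ _ hA hB φ f ⟨r, rfl, hr⟩
    exact ⟨mapRep (φ : A →+* B) r, rfl, hr.map h𝒟 hA hB φ⟩
  inj := by
    rintro A B _ _ _ _ _ _ hA hB φ hφ f ⟨r, hrf, hr⟩
    obtain ⟨r', h1, h2, -⟩ := exists_rep_of_jointly_injective (φ : A →+* B) (φ : A →+* B)
      (fun x y hxy => hφ (congrArg Prod.fst hxy)) f r r hrf.symm hrf.symm
    refine ⟨r', h1, IsDLift.of_map_injective h𝒟 hA hB φ hφ ?_⟩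
    rw [h2]
    exact hr
  fib := by
    rintro A B C P _ _ _ _ _ _ _ _ _ _ _ _ hA hB hC hP f g pA pB hfg hinj hsurj h
      ⟨r₁, hr₁, hd₁⟩ ⟨r₂, hr₂, hd₂⟩
    obtain ⟨r', h1, h2, h3⟩ := exists_rep_of_jointly_injective (pA : P →+* A) (pB : P →+* B)
      hinj h r₁ r₂ hr₁.symm hr₂.symm
    refine ⟨r', h1, IsDLift.of_fibreProduct h𝒟 hA hB hC hP f g pA pB hfg hinj hsurj ?_ ?_⟩
    · rw [h2]; exact hd₁
    · rw [h3]; exact hd₂
  res := by
    rintro A _ _ _ hA f ⟨r, rfl, hr⟩ x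
    exact hr.lift x.1 x.2.1 x.2.2
  base := by
    refine ⟨resMatOf ρbar F.b, ?_, isDLift_resMatOf h𝒟 F hbar⟩
    funext x
    change resMatOf ρbar F.b x.1 x.2.1 x.2.2 = _
    rw [resMatOf_apply, ← F.rtil_spec x.1]
    rfl
  tan := finite_spred F hfin

end Fermat.Agent.S53
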