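import Fermat.Agent.S53.Defs

/-!
# S53: dictionary between `GaloisRepAdic` / `ResidualGaloisRep` and matrix representations
-/

set_option autoImplicit false

namespace Fermat.Agent.S53

open scoped TensorProduct
open Module

section generic

variable {B V₁ V₂ : Type*} [CommRing B] [AddCommGroup V₁] [Module B V₁]
  [AddCommGroup V₂] [Module B V₂]

lemma equiv_comm_of_toMatrix_eq (b₁ : Basis (Fin 2) B V₁) (b₂ : Basis (Fin 2) B V₂)
    (f₁ : V₁ →ₗ[B] V₁) (f₂ : V₂ →ₗ[B] V₂)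
    (h : LinearMap.toMatrix b₁ b₁ f₁ = LinearMap.toMatrix b₂ b₂ f₂) (x : V₁) :
    (b₁.equiv b₂ (Equiv.refl _)) (f₁ x) = f₂ ((b₁.equiv b₂ (Equiv.refl _)) x) := by
  have key : ((b₁.equiv b₂ (Equiv.refl _)).toLinearMap ∘ₗ f₁) =
      f₂ ∘ₗ (b₁.equiv b₂ (Equiv.refl _)).toLinearMap := by
    refine b₁.ext fun j => ?_
    simp only [LinearMap.comp_apply, LinearEquiv.coe_coe, Basis.equiv_apply, Equiv.refl_apply]
    rw [← b₁.sum_repr (f₁ (b₁ j)), ← b₂.sum_repr (f₂ (b₂ j)), map_sum]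
    refine Finset.sum_congr rfl fun i _ => ?_
    rw [map_smul, Basis.equiv_apply, Equiv.refl_apply]
    congr 1
    have := congrFun (congrFun h i) j
    simpa [LinearMap.toMatrix_apply] using this
  exact LinearMap.congr_fun key x

lemma mem_smul_top_pi (I : Ideal B) (v : Fin 2 → B) :
    v ∈ I • (⊤ : Submodule B (Fin 2 → B)) ↔ ∀ i, v i ∈ I := by
  constructor
  · intro hv i
    refine Submodule.smul_induction_on hv ?_ ?_
    · intro a ha w _
      simpa using I.mul_mem_right (w i) ha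
    · intro x y hx hy
      simpa using I.add_mem hx hy
  · intro hv
    have : v = ∑ i, v i • (Pi.single i (1 : B) : Fin 2 → B) := by
      ext j
      simp [Finset.sum_apply, Pi.single_apply]
    rw [this]
    exact Submodule.sum_mem _ fun i _ => Submodule.smul_mem_smul (hv i) Submodule.mem_top

end generic

section adic

variable {A : Type} [CommRing A] [IsLocalRing A]

lemma toAdic_ρ (r : Gal →* M2 A) (hr : MatCont r) (σ : Gal) :
    (toAdic r hr).ρ σ = Matrix.toLin' (r σ) := rfl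

/-- The matrix valued homomorphism attached to a representation and a basis. -/
noncomputable def matOf (ρ : GaloisRepAdic A) (b : Basis (Fin 2) A ρ.V) : Gal →* M2 A where
  toFun σ := LinearMap.toMatrix b b (ρ.ρ σ)
  map_one' := by rw [map_one]; exact LinearMap.toMatrix_one b
  map_mul' σ τ := by rw [map_mul]; exact LinearMap.toMatrix_mul b _ _

@[simp] lemma matOf_apply (ρ : GaloisRepAdic A) (b : Basis (Fin 2) A ρ.V) (σ : Gal) :
    matOf ρ b σ = LinearMap.toMatrix b b (ρ.ρ σ) := rfl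

omit [IsLocalRing A] in
lemma repr_mem_of_mem_smul_top {V : Type} [AddCommGroup V] [Module A V] (b : Basis (Fin 2) A V)
    (I : Ideal A) {v : V} (hv : v ∈ I • (⊤ : Submodule A V)) (i : Fin 2) : b.repr v i ∈ I := by
  refine Submodule.smul_induction_on hv ?_ ?_
  · intro a ha w _
    simpa using I.mul_mem_right (b.repr w i) ha
  · intro x y hx hy
    simpa using I.add_mem hx hy

lemma matOf_cont (ρ : GaloisRepAdic A) (b : Basis (Fin 2) A ρ.V) : MatCont (matOf ρ b) := by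
  intro n
  obtain ⟨L, hL, h⟩ := ρ.isAdicContinuous n
  refine ⟨L, hL, fun σ hσ i j => ?_⟩
  have h1 := repr_mem_of_mem_smul_top b _ (h σ hσ (b j)) i
  have h2 : (matOf ρ b σ - 1) i j = b.repr (ρ.ρ σ (b j) - b j) i := by
    simp [LinearMap.toMatrix_apply, Matrix.one_apply, Finsupp.single_apply, eq_comm]
  rw [h2]; exact h1

lemma isEquiv_of_matOf_eq {ρ₁ ρ₂ : GaloisRepAdic A} (b₁ : Basis (Fin 2) A ρ₁.V)
    (b₂ : Basis (Fin 2) A ρ₂.V) (h : matOf ρ₁ b₁ = matOf ρ₂ b₂) : ρ₁.IsEquiv ρ₂ :=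
  ⟨{ toLinearEquiv := b₁.equiv b₂ (Equiv.refl _)
     map_apply := fun σ x =>
      equiv_comm_of_toMatrix_eq b₁ b₂ _ _ (DFunLike.congr_fun h σ) x }⟩

lemma matOf_toAdic (r : Gal →* M2 A) (hr : MatCont r) :
    matOf (toAdic r hr) (Pi.basisFun A (Fin 2)) = r := by
  ext σ : 1
  exact LinearMap.toMatrix'_toLin' (r σ)

lemma isEquiv_toAdic_matOf (ρ : GaloisRepAdic A) (b : Basis (Fin 2) A ρ.V) :
    ρ.IsEquiv (toAdic (matOf ρ b) (matOf_cont ρ b)) :=
  isEquiv_of_matOf_eq b (Pi.basisFun A (Fin 2)) (matOf_toAdic _ _).symm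

/-- Every adic representation is equivalent to a matrix one. -/
lemma exists_isEquiv_toAdic (ρ : GaloisRepAdic A) :
    ∃ (r : Gal →* M2 A) (hr : MatCont r), ρ.IsEquiv (toAdic r hr) :=
  ⟨_, _, isEquiv_toAdic_matOf ρ (Module.finBasisOfFinrankEq A ρ.V ρ.finrank_eq)⟩

lemma IsEquiv.symm' {ρ₁ ρ₂ : GaloisRepAdic A} (h : ρ₁.IsEquiv ρ₂) : ρ₂.IsEquiv ρ₁ :=
  h.elim fun e => ⟨e.symm⟩

lemma IsEquiv.trans' {ρ₁ ρ₂ ρ₃ : GaloisRepAdic A} (h : ρ₁.IsEquiv ρ₂) (h' : ρ₂.IsEquiv ρ₃) :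
    ρ₁.IsEquiv ρ₃ :=
  h.elim fun e => h'.elim fun e' => ⟨e.trans e'⟩

lemma IsEquiv.refl' (ρ : GaloisRepAdic A) : ρ.IsEquiv ρ := ⟨GaloisRepAdic.Equiv.refl ρ⟩

/-- Equivalence of matrix representations is conjugacy. -/
lemma toAdic_isEquiv_iff (r r' : Gal →* M2 A) (hr : MatCont r) (hr' : MatCont r') :
    (toAdic r hr).IsEquiv (toAdic r' hr') ↔
      ∃ M : (M2 A)ˣ, ∀ σ, (M : M2 A) * r σ = r' σ * M := by
  constructor
  · rintro ⟨e⟩
    let E : (Fin 2 → A) ≃ₗ[A] (Fin 2 → A) := e.toLinearEquiv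
    refine ⟨⟨LinearMap.toMatrix' E.toLinearMap, LinearMap.toMatrix' E.symm.toLinearMap, ?_, ?_⟩,
      fun σ => ?_⟩
    · rw [← LinearMap.toMatrix'_comp]; simp
    · rw [← LinearMap.toMatrix'_comp]; simp
    · have h1 : E.toLinearMap ∘ₗ Matrix.toLin' (r σ) = Matrix.toLin' (r' σ) ∘ₗ E.toLinearMap :=
        LinearMap.ext fun x => e.map_apply σ x
      have h2 := congrArg LinearMap.toMatrix' h1
      rw [LinearMap.toMatrix'_comp, LinearMap.toMatrix'_comp, LinearMap.toMatrix'_toLin',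
        LinearMap.toMatrix'_toLin'] at h2
      exact h2
  · rintro ⟨M, hM⟩
    refine ⟨{ toLinearEquiv := Matrix.toLin'OfInv (M' := (M : M2 A)) (M := ((M⁻¹ : (M2 A)ˣ) : M2 A))
                (by simp) (by simp)
              map_apply := fun σ (x : Fin 2 → A) => ?_ }⟩
    change Matrix.toLin' (M : M2 A) (Matrix.toLin' (r σ) x) =
      Matrix.toLin' (r' σ) (Matrix.toLin' (M : M2 A) x)
    rw [← Matrix.toLin'_mul_apply, ← Matrix.toLin'_mul_apply, hM σ]

end adic

section map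

variable {A B : Type} [CommRing A] [CommRing B]

lemma mapRep_apply' (φ : A →+* B) (r : Gal →* M2 A) (σ : Gal) :
    mapRep φ r σ = (r σ).map φ := rfl

lemma mapRep_comp {C : Type} [CommRing C] (ψ : B →+* C) (φ : A →+* B) (r : Gal →* M2 A) :
    mapRep ψ (mapRep φ r) = mapRep (ψ.comp φ) r := by
  ext σ i j; rfl

lemma mapRep_id (r : Gal →* M2 A) : mapRep (RingHom.id A) r = r := by
  ext σ i j; rfl

variable [IsLocalRing A] [IsLocalRing B]

lemma MatCont.map {r : Gal →* M2 A} (hr : MatCont r) (φ : A →+* B) (hφ : IsLocalHom φ) :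
    MatCont (mapRep φ r) := by
  intro n
  obtain ⟨L, hL, h⟩ := hr n
  refine ⟨L, hL, fun σ hσ i j => ?_⟩
  have hmap : (IsLocalRing.maximalIdeal A ^ n).map φ ≤ IsLocalRing.maximalIdeal B ^ n := by
    rw [Ideal.map_pow]
    exact Ideal.pow_right_mono (Ideal.map_le_iff_le_comap.mpr fun a ha =>
      Ideal.mem_comap.mpr (haveI := hφ; map_nonunit φ a ha)) n
  have h1 : (mapRep φ r σ - 1) i j = φ ((r σ - 1) i j) := by
    simp only [Matrix.sub_apply, mapRep_apply, map_sub, Matrix.one_apply]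
    split_ifs <;> simp
  rw [h1]
  exact hmap (Ideal.mem_map_of_mem φ (h σ hσ i j))

lemma matOf_baseChangeAlong (ρ : GaloisRepAdic A) (b : Basis (Fin 2) A ρ.V) (φ : A →+* B)
    (hφ : IsLocalHom φ) :
    letI : Algebra A B := φ.toAlgebra
    matOf (ρ.baseChangeAlong φ hφ) (Algebra.TensorProduct.basis B b) = mapRep φ (matOf ρ b) := by
  let _ : Algebra A B := φ.toAlgebra
  ext σ : 1
  exact LinearMap.toMatrix_baseChange B (ρ.ρ σ) b b

/-- Base change of a matrix representation is the matrix representation of the push forward. -/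
lemma baseChangeAlong_toAdic_isEquiv (r : Gal →* M2 A) (hr : MatCont r) (φ : A →+* B)
    (hφ : IsLocalHom φ) :
    ((toAdic r hr).baseChangeAlong φ hφ).IsEquiv (toAdic (mapRep φ r) (hr.map φ hφ)) := by
  let _ : Algebra A B := φ.toAlgebra
  refine isEquiv_of_matOf_eq
    (Algebra.TensorProduct.basis B (Pi.basisFun A (Fin 2) : Basis (Fin 2) A (toAdic r hr).V))
    (Pi.basisFun B (Fin 2)) ?_
  rw [matOf_toAdic]
  have := matOf_baseChangeAlong (toAdic r hr) (Pi.basisFun A (Fin 2)) φ hφ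
  rw [matOf_toAdic] at this
  exact this

end map

section residual

variable {k : Type} [Field k]

/-- The residual representation on `k²` given by a matrix valued homomorphism. -/
noncomputable def toRes (s : Gal →* M2 k) (hs : GaloisFactorsThroughFiniteLevel s) :
    ResidualGaloisRep k where
  V := Fin 2 → k
  finrank_eq := Module.finrank_fin_fun k
  ρ :=
    { toFun := fun σ => Matrix.toLin' (s σ)
      map_one' := by rw [map_one, Matrix.toLin'_one]; rfl
      map_mul' := fun σ τ => by rw [map_mul, Matrix.toLin'_mul]; rfl }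
  factorsThroughFiniteLevel := by
    obtain ⟨L, hL, h⟩ := hs
    refine ⟨L, hL, fun σ hσ => ?_⟩
    change Matrix.toLin' (s σ) = 1
    rw [h σ hσ, Matrix.toLin'_one]; rfl

/-- The matrix valued homomorphism attached to a residual representation and a basis. -/
noncomputable def resMatOf (ρ : ResidualGaloisRep k) (b : Basis (Fin 2) k ρ.V) : Gal →* M2 k where
  toFun σ := LinearMap.toMatrix b b (ρ.ρ σ)
  map_one' := by rw [map_one]; exact LinearMap.toMatrix_one b
  map_mul' σ τ := by rw [map_mul]; exact LinearMap.toMatrix_mul b _ _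

@[simp] lemma resMatOf_apply (ρ : ResidualGaloisRep k) (b : Basis (Fin 2) k ρ.V) (σ : Gal) :
    resMatOf ρ b σ = LinearMap.toMatrix b b (ρ.ρ σ) := rfl

lemma resMatOf_factors (ρ : ResidualGaloisRep k) (b : Basis (Fin 2) k ρ.V) :
    GaloisFactorsThroughFiniteLevel (resMatOf ρ b) := by
  obtain ⟨L, hL, h⟩ := ρ.factorsThroughFiniteLevel
  refine ⟨L, hL, fun σ hσ => ?_⟩
  rw [resMatOf_apply, h σ hσ]
  exact LinearMap.toMatrix_one b

lemma res_isEquiv_of_resMatOf_eq {ρ₁ ρ₂ : ResidualGaloisRep k} (b₁ : Basis (Fin 2) k ρ₁.V)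
    (b₂ : Basis (Fin 2) k ρ₂.V) (h : resMatOf ρ₁ b₁ = resMatOf ρ₂ b₂) : ρ₁.IsEquiv ρ₂ :=
  ⟨{ toLinearEquiv := b₁.equiv b₂ (Equiv.refl _)
     map_apply := fun σ x =>
      equiv_comm_of_toMatrix_eq b₁ b₂ _ _ (DFunLike.congr_fun h σ) x }⟩

lemma resMatOf_toRes (s : Gal →* M2 k) (hs : GaloisFactorsThroughFiniteLevel s) :
    resMatOf (toRes s hs) (Pi.basisFun k (Fin 2)) = s := by
  ext σ : 1
  exact LinearMap.toMatrix'_toLin' (s σ)

lemma res_isEquiv_toRes_resMatOf (ρ : ResidualGaloisRep k) (b : Basis (Fin 2) k ρ.V) :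
    ρ.IsEquiv (toRes (resMatOf ρ b) (resMatOf_factors ρ b)) :=
  res_isEquiv_of_resMatOf_eq b (Pi.basisFun k (Fin 2)) (resMatOf_toRes _ _).symm

lemma ResIsEquiv.symm' {ρ₁ ρ₂ : ResidualGaloisRep k} (h : ρ₁.IsEquiv ρ₂) : ρ₂.IsEquiv ρ₁ :=
  h.elim fun e => ⟨e.symm⟩

lemma ResIsEquiv.trans' {ρ₁ ρ₂ ρ₃ : ResidualGaloisRep k} (h : ρ₁.IsEquiv ρ₂)
    (h' : ρ₂.IsEquiv ρ₃) : ρ₁.IsEquiv ρ₃ :=
  h.elim fun e => h'.elim fun e' => ⟨e.trans e'⟩

lemma ResIsEquiv.refl' (ρ : ResidualGaloisRep k) : ρ.IsEquiv ρ := ⟨ResidualGaloisRep.Equiv.refl ρ⟩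

/-- Equivalence of residual matrix representations is conjugacy. -/
lemma toRes_isEquiv_iff (s s' : Gal →* M2 k) (hs : GaloisFactorsThroughFiniteLevel s)
    (hs' : GaloisFactorsThroughFiniteLevel s') :
    (toRes s hs).IsEquiv (toRes s' hs') ↔
      ∃ M : (M2 k)ˣ, ∀ σ, (M : M2 k) * s σ = s' σ * M := by
  constructor
  · rintro ⟨e⟩
    let E : (Fin 2 → k) ≃ₗ[k] (Fin 2 → k) := e.toLinearEquiv
    refine ⟨⟨LinearMap.toMatrix' E.toLinearMap, LinearMap.toMatrix' E.symm.toLinearMap, ?_, ?_⟩,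
      fun σ => ?_⟩
    · rw [← LinearMap.toMatrix'_comp]; simp
    · rw [← LinearMap.toMatrix'_comp]; simp
    · have h1 : E.toLinearMap ∘ₗ Matrix.toLin' (s σ) = Matrix.toLin' (s' σ) ∘ₗ E.toLinearMap :=
        LinearMap.ext fun x => e.map_apply σ x
      have h2 := congrArg LinearMap.toMatrix' h1
      rw [LinearMap.toMatrix'_comp, LinearMap.toMatrix'_comp, LinearMap.toMatrix'_toLin',
        LinearMap.toMatrix'_toLin'] at h2
      exact h2
  · rintro ⟨M, hM⟩
    refine ⟨{ toLinearEquiv := Matrix.toLin'OfInv (M' := (M : M2 k)) (M := ((M⁻¹ : (M2 k)ˣ) : M2 k))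
                (by simp) (by simp)
              map_apply := fun σ (x : Fin 2 → k) => ?_ }⟩
    change Matrix.toLin' (M : M2 k) (Matrix.toLin' (s σ) x) =
      Matrix.toLin' (s' σ) (Matrix.toLin' (M : M2 k) x)
    rw [← Matrix.toLin'_mul_apply, ← Matrix.toLin'_mul_apply, hM σ]

lemma factors_mapRep {A B : Type} [CommRing A] [CommRing B] (ψ : A →+* B) {s : Gal →* M2 A}
    (hs : GaloisFactorsThroughFiniteLevel s) : GaloisFactorsThroughFiniteLevel (mapRep ψ s) := by
  obtain ⟨L, hL, h⟩ := hs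
  refine ⟨L, hL, fun σ hσ => ?_⟩
  rw [mapRep_apply', h σ hσ]
  exact (ψ.mapMatrix : M2 A →+* M2 B).map_one

variable {k' : Type} [Field k']

lemma resMatOf_baseChangeAlong (ρ : ResidualGaloisRep k) (b : Basis (Fin 2) k ρ.V)
    (ψ : k →+* k') :
    letI : Algebra k k' := ψ.toAlgebra
    resMatOf (ρ.baseChangeAlong ψ) (Algebra.TensorProduct.basis k' b) =
      mapRep ψ (resMatOf ρ b) := by
  let _ : Algebra k k' := ψ.toAlgebra
  ext σ : 1
  exact LinearMap.toMatrix_baseChange k' (ρ.ρ σ) b b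

lemma baseChangeAlong_isEquiv_toRes (ρ : ResidualGaloisRep k) (b : Basis (Fin 2) k ρ.V)
    (ψ : k →+* k') :
    (ρ.baseChangeAlong ψ).IsEquiv
      (toRes (mapRep ψ (resMatOf ρ b)) (factors_mapRep ψ (resMatOf_factors ρ b))) := by
  let _ : Algebra k k' := ψ.toAlgebra
  refine res_isEquiv_of_resMatOf_eq (ρ₁ := ρ.baseChangeAlong ψ)
    (Algebra.TensorProduct.basis k' b) (Pi.basisFun k' (Fin 2)) ?_
  rw [resMatOf_toRes]
  exact resMatOf_baseChangeAlong ρ b ψ

end residual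

section residualAdic

variable {A : Type} [CommRing A] [IsLocalRing A]

lemma MatCont.factors_residue {r : Gal →* M2 A} (hr : MatCont r) :
    GaloisFactorsThroughFiniteLevel (mapRep (IsLocalRing.residue A) r) := by
  obtain ⟨L, hL, h⟩ := hr 1
  refine ⟨L, hL, fun σ hσ => ?_⟩
  ext i j
  have h1 := h σ hσ i j
  rw [pow_one, ← IsLocalRing.residue_eq_zero_iff, Matrix.sub_apply, map_sub, sub_eq_zero] at h1
  rw [mapRep_apply, h1, Matrix.one_apply, Matrix.one_apply]
  split_ifs <;> simp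

lemma resMatOf_residual (ρ : GaloisRepAdic A) (b : Basis (Fin 2) A ρ.V) :
    resMatOf ρ.residual (Algebra.TensorProduct.basis (IsLocalRing.ResidueField A) b) =
      mapRep (IsLocalRing.residue A) (matOf ρ b) := by
  ext σ : 1
  exact LinearMap.toMatrix_baseChange (IsLocalRing.ResidueField A) (ρ.ρ σ) b b

/-- The residual representation of a matrix representation. -/
lemma residual_toAdic_isEquiv (r : Gal →* M2 A) (hr : MatCont r) :
    (toAdic r hr).residual.IsEquiv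
      (toRes (mapRep (IsLocalRing.residue A) r) hr.factors_residue) := by
  refine res_isEquiv_of_resMatOf_eq (ρ₁ := (toAdic r hr).residual)
    (Algebra.TensorProduct.basis (IsLocalRing.ResidueField A)
      (Pi.basisFun A (Fin 2) : Basis (Fin 2) A (toAdic r hr).V))
    (Pi.basisFun _ (Fin 2)) ?_
  rw [resMatOf_toRes]
  have := resMatOf_residual (toAdic r hr) (Pi.basisFun A (Fin 2))
  rw [matOf_toAdic] at this
  exact this

/-- Conjugation of a matrix valued homomorphism by an invertible matrix. -/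
noncomputable def conjMat {A : Type} [CommRing A] (M : (M2 A)ˣ) (r : Gal →* M2 A) : Gal →* M2 A where
  toFun σ := (M : M2 A) * r σ * ((M⁻¹ : (M2 A)ˣ) : M2 A)
  map_one' := by simp
  map_mul' σ τ := by
    rw [map_mul]
    have h : ((M⁻¹ : (M2 A)ˣ) : M2 A) * (M : M2 A) = 1 := by simp
    calc (M : M2 A) * (r σ * r τ) * ((M⁻¹ : (M2 A)ˣ) : M2 A)
        = (M : M2 A) * r σ * (1 : M2 A) * r τ * ((M⁻¹ : (M2 A)ˣ) : M2 A) := by
          simp [mul_assoc]
      _ = _ := by rw [← h]; simp only [mul_assoc]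

@[simp] lemma conjMat_apply {A : Type} [CommRing A] (M : (M2 A)ˣ) (r : Gal →* M2 A) (σ : Gal) :
    conjMat M r σ = (M : M2 A) * r σ * ((M⁻¹ : (M2 A)ˣ) : M2 A) := rfl

lemma conjMat_intertwine {A : Type} [CommRing A] (M : (M2 A)ˣ) (r : Gal →* M2 A) (σ : Gal) :
    (M : M2 A) * r σ = conjMat M r σ * M := by
  simp [mul_assoc]

lemma MatCont.conj {r : Gal →* M2 A} (hr : MatCont r) (M : (M2 A)ˣ) : MatCont (conjMat M r) := by
  intro n
  obtain ⟨L, hL, h⟩ := hr n
  refine ⟨L, hL, fun σ hσ i j => ?_⟩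
  have h1 : conjMat M r σ - 1 = (M : M2 A) * (r σ - 1) * ((M⁻¹ : (M2 A)ˣ) : M2 A) := by
    simp [mul_sub, sub_mul]
  rw [h1, Matrix.mul_apply]
  refine Ideal.sum_mem _ fun a _ => Ideal.mul_mem_right _ _ ?_
  rw [Matrix.mul_apply]
  exact Ideal.sum_mem _ fun b _ => Ideal.mul_mem_left _ _ (h σ hσ b a)

lemma toAdic_isEquiv_conj (r : Gal →* M2 A) (hr : MatCont r) (M : (M2 A)ˣ) :
    (toAdic r hr).IsEquiv (toAdic (conjMat M r) (hr.conj M)) :=
  (toAdic_isEquiv_iff _ _ _ _).mpr ⟨M, conjMat_intertwine M r⟩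

lemma mapRep_conjMat {A B : Type} [CommRing A] [CommRing B] (φ : A →+* B) (M : (M2 A)ˣ)
    (r : Gal →* M2 A) :
    mapRep φ (conjMat M r) = conjMat (Units.map (φ.mapMatrix : M2 A →+* M2 B).toMonoidHom M)
      (mapRep φ r) := by
  ext σ : 1
  change (φ.mapMatrix : M2 A →+* M2 B) ((M : M2 A) * r σ * ((M⁻¹ : (M2 A)ˣ) : M2 A)) = _
  rw [map_mul, map_mul]
  rfl

/-- Invertible matrices over the residue field lift to invertible matrices. -/
lemma exists_unit_lift (Mbar : (M2 (IsLocalRing.ResidueField A))ˣ) :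
    ∃ M : (M2 A)ˣ, Units.map
      ((IsLocalRing.residue A).mapMatrix : M2 A →+* M2 (IsLocalRing.ResidueField A)).toMonoidHom M
        = Mbar := by
  choose f hf using fun i j => IsLocalRing.residue_surjective (R := A)
    ((Mbar : M2 (IsLocalRing.ResidueField A)) i j)
  let N : M2 A := Matrix.of f
  have hN : ((IsLocalRing.residue A).mapMatrix : M2 A →+* M2 _) N = (Mbar : M2 _) := by
    ext i j; exact hf i j
  have hdet : IsUnit N.det := by
    have h1 : IsLocalRing.residue A N.det = (Mbar : M2 _).det := by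
      rw [← hN, RingHom.map_det]
    have h2 : IsUnit ((Mbar : M2 (IsLocalRing.ResidueField A)).det) :=
      (Matrix.isUnit_iff_isUnit_det (Mbar : M2 (IsLocalRing.ResidueField A))).mp Mbar.isUnit
    rw [← h1] at h2
    exact isUnit_of_map_unit (IsLocalRing.residue A) _ h2
  obtain ⟨M, hM⟩ := (Matrix.isUnit_iff_isUnit_det N).mpr hdet
  refine ⟨M, Units.ext ?_⟩
  rw [Units.coe_map, hM]
  exact hN

/-- A representation whose residual representation is a given matrix representation has a matrix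
form lifting it exactly. -/
lemma exists_toAdic_lift (ρ : GaloisRepAdic A) (s : Gal →* M2 (IsLocalRing.ResidueField A))
    (hs : GaloisFactorsThroughFiniteLevel s) (h : ρ.residual.IsEquiv (toRes s hs)) :
    ∃ (r : Gal →* M2 A) (hr : MatCont r), ρ.IsEquiv (toAdic r hr) ∧
      mapRep (IsLocalRing.residue A) r = s := by
  obtain ⟨r₀, hr₀, ⟨e⟩⟩ := exists_isEquiv_toAdic ρ
  have h1 : (toRes (mapRep (IsLocalRing.residue A) r₀) hr₀.factors_residue).IsEquiv
      (toRes s hs) :=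
    ResIsEquiv.trans' (ResIsEquiv.symm' (residual_toAdic_isEquiv r₀ hr₀))
      (ResIsEquiv.trans' (ResIsEquiv.symm' ⟨e.residual⟩) h)
  obtain ⟨Mbar, hMbar⟩ := (toRes_isEquiv_iff _ _ _ _).mp h1
  obtain ⟨M, hM⟩ := exists_unit_lift Mbar
  refine ⟨conjMat M r₀, hr₀.conj M, IsEquiv.trans' ⟨e⟩ (toAdic_isEquiv_conj r₀ hr₀ M), ?_⟩
  rw [mapRep_conjMat, hM]
  ext σ : 1
  rw [conjMat_apply, hMbar σ, mul_assoc]
  simp

lemma residual_toAdic_isEquiv_of_eq (r : Gal →* M2 A) (hr : MatCont r)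
    (s : Gal →* M2 (IsLocalRing.ResidueField A)) (hs : GaloisFactorsThroughFiniteLevel s)
    (h : mapRep (IsLocalRing.residue A) r = s) :
    (toAdic r hr).residual.IsEquiv (toRes s hs) := by
  subst h
  exact residual_toAdic_isEquiv r hr

end residualAdic

end Fermat.Agent.S53
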