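import Fermat.Agent.S53.AdicEquiv2

/-!
# S53: normal forms of matrix lifts (uniqueness and existence)
-/

set_option autoImplicit false

namespace Fermat.Agent.S53

open IsLocalRing

section ext

variable {𝒪 : Type} [CommRing 𝒪] {A : Type} [CommRing A] [Algebra 𝒪 A]

lemma ext_apply (r : Gal → M2 A) (u : Gal →₀ 𝒪) (i j : Fin 2) :
    ext r u i j = u.sum fun g a => a • r g i j := by
  unfold ext Finsupp.sum
  rw [Matrix.sum_apply]
  rfl

lemma ext_mul_left (M : M2 A) (r : Gal → M2 A) (u : Gal →₀ 𝒪) :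
    M * ext r u = ext (fun g => M * r g) u := by
  unfold ext Finsupp.sum
  rw [Finset.mul_sum]
  exact Finset.sum_congr rfl fun g _ => by rw [mul_smul_comm]

lemma ext_mul_right (M : M2 A) (r : Gal → M2 A) (u : Gal →₀ 𝒪) :
    ext r u * M = ext (fun g => r g * M) u := by
  unfold ext Finsupp.sum
  rw [Finset.sum_mul]
  exact Finset.sum_congr rfl fun g _ => by rw [smul_mul_assoc]

lemma ext_intertwine {r r' : Gal → M2 A} {M : M2 A} (h : ∀ σ, M * r σ = r' σ * M)
    (u : Gal →₀ 𝒪) : M * ext r u = ext r' u * M := by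
  rw [ext_mul_left, ext_mul_right]
  congr 1
  funext g
  exact h g

lemma ext_conjMat (M : (M2 A)ˣ) (r : Gal →* M2 A) (u : Gal →₀ 𝒪) :
    ext (conjMat M r) u = (M : M2 A) * ext r u * ((M⁻¹ : (M2 A)ˣ) : M2 A) := by
  rw [ext_mul_left, ext_mul_right]
  rfl

lemma ext_mapRep {B : Type} [CommRing B] [Algebra 𝒪 B] (φ : A →ₐ[𝒪] B) (r : Gal →* M2 A)
    (u : Gal →₀ 𝒪) (i j : Fin 2) :
    ext (mapRep (φ : A →+* B) r) u i j = φ (ext r u i j) := by
  rw [ext_apply, ext_apply]
  unfold Finsupp.sum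
  rw [map_sum]
  refine Finset.sum_congr rfl fun g _ => ?_
  rw [map_smul]
  rfl

end ext

section lift

variable {𝒪 : Type} [CommRing 𝒪] [IsLocalRing 𝒪] {A : Type} [CommRing A] [IsLocalRing A]
  [Algebra 𝒪 A]

lemma IsLift.ext_sub_mem {F : MatFrame 𝒪} {r : Gal →* M2 A} (h : IsLift F r) (u : Gal →₀ 𝒪)
    (i j : Fin 2) :
    ext r u i j - algebraMap 𝒪 A (ext F.rtil u i j) ∈ maximalIdeal A := by
  rw [ext_apply, ext_apply]
  unfold Finsupp.sum
  rw [map_sum, ← Finset.sum_sub_distrib]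
  refine Ideal.sum_mem _ fun g _ => ?_
  have h1 : (u g • r g i j - algebraMap 𝒪 A (u g • F.rtil g i j)) =
      algebraMap 𝒪 A (u g) * (r g i j - algebraMap 𝒪 A (F.rtil g i j)) := by
    rw [smul_eq_mul, map_mul, Algebra.smul_def, ← mul_sub]
  change (u g • r g i j - algebraMap 𝒪 A (u g • F.rtil g i j)) ∈ _
  rw [h1]
  exact Ideal.mul_mem_left _ _ (h g i j)

variable [IsLocalHom (algebraMap 𝒪 A)]

lemma algebraMap_sub_mem_of_residue_eq {x : 𝒪} {n : ℤ} (h : residue 𝒪 x = (n : ResidueField 𝒪)) :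
    algebraMap 𝒪 A x - (n : A) ∈ maximalIdeal A := by
  have h1 : x - (n : 𝒪) ∈ maximalIdeal 𝒪 := by
    rw [← residue_eq_zero_iff, map_sub, h, map_intCast, sub_self]
  have h2 : algebraMap 𝒪 A (x - (n : 𝒪)) ∈ maximalIdeal A := map_nonunit _ _ h1
  simpa using h2

lemma IsLift.extU {F : MatFrame 𝒪} {r : Gal →* M2 A} (h : IsLift F r) :
    ext r F.u 0 0 - 1 ∈ maximalIdeal A ∧ ext r F.u 0 1 ∈ maximalIdeal A ∧
      ext r F.u 1 0 ∈ maximalIdeal A ∧ ext r F.u 1 1 ∈ maximalIdeal A := by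
  have key : ∀ i j (n : ℤ), (!![1, 0; 0, 0] : M2 (ResidueField 𝒪)) i j = (n : ResidueField 𝒪) →
      ext r F.u i j - (n : A) ∈ maximalIdeal A := by
    intro i j n hn
    have h1 : residue 𝒪 (ext F.rtil F.u i j) = (n : ResidueField 𝒪) := by
      rw [← hn, ← F.hu]; rfl
    have h2 := Ideal.add_mem _ (h.ext_sub_mem F.u i j)
      (algebraMap_sub_mem_of_residue_eq (A := A) h1)
    simpa using h2
  refine ⟨?_, ?_, ?_, ?_⟩
  · simpa using key 0 0 1 (by simp)
  · simpa using key 0 1 0 (by simp)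
  · simpa using key 1 0 0 (by simp)
  · simpa using key 1 1 0 (by simp)

lemma IsLift.extV {F : MatFrame 𝒪} {r : Gal →* M2 A} (h : IsLift F r) :
    ext r F.v 0 0 ∈ maximalIdeal A ∧ ext r F.v 0 1 ∈ maximalIdeal A ∧
      ext r F.v 1 0 - 1 ∈ maximalIdeal A ∧ ext r F.v 1 1 ∈ maximalIdeal A := by
  have key : ∀ i j (n : ℤ), (!![0, 0; 1, 0] : M2 (ResidueField 𝒪)) i j = (n : ResidueField 𝒪) →
      ext r F.v i j - (n : A) ∈ maximalIdeal A := by
    intro i j n hn
    have h1 : residue 𝒪 (ext F.rtil F.v i j) = (n : ResidueField 𝒪) := by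
      rw [← hn, ← F.hv]; rfl
    have h2 := Ideal.add_mem _ (h.ext_sub_mem F.v i j)
      (algebraMap_sub_mem_of_residue_eq (A := A) h1)
    simpa using h2
  refine ⟨?_, ?_, ?_, ?_⟩
  · simpa using key 0 0 0 (by simp)
  · simpa using key 0 1 0 (by simp)
  · simpa using key 1 0 1 (by simp)
  · simpa using key 1 1 0 (by simp)

/-- **Uniqueness of normal forms**: two conjugate normalised lifts are equal. -/
theorem eq_of_intertwine {F : MatFrame 𝒪} {r r' : Gal →* M2 A} (hl : IsLift F r)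
    (hl' : IsLift F r') (hn : IsNormalized F r) (hn' : IsNormalized F r') (M : (M2 A)ˣ)
    (hM : ∀ σ, (M : M2 A) * r σ = r' σ * M) : r = r' := by
  have HU := ext_intertwine (𝒪 := 𝒪) hM F.u
  have HV := ext_intertwine (𝒪 := 𝒪) hM F.v
  set N : M2 A := (M : M2 A) with hN
  -- `M 1 0 = 0`
  have h10 : N 1 0 = 0 := by
    have h1 := congrFun (congrFun HU 1) 0
    rw [Matrix.mul_apply, Matrix.mul_apply, Fin.sum_univ_two, Fin.sum_univ_two, hn.u10,
      hn'.u10] at h1
    have h2 : (ext r F.u 0 0 - ext r' F.u 1 1) * N 1 0 = 0 := by linear_combination h1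
    have h3 : IsUnit (ext r F.u 0 0 - ext r' F.u 1 1) := by
      by_contra hcon
      have h4 : ext r F.u 0 0 - ext r' F.u 1 1 ∈ maximalIdeal A := hcon
      have h5 : (1 : A) ∈ maximalIdeal A := by
        have := Ideal.sub_mem _ (Ideal.add_mem _ h4 hl'.extU.2.2.2) hl.extU.1
        simp at this
      exact (Ideal.ne_top_iff_one _).mp (Ideal.IsPrime.ne_top inferInstance) h5
    exact (h3.mul_right_eq_zero).mp h2
  have h01 : N 0 1 = 0 := by
    have h1 := congrFun (congrFun HV 0) 0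
    rw [Matrix.mul_apply, Matrix.mul_apply, Fin.sum_univ_two, Fin.sum_univ_two, hn.v00, hn.v10,
      hn'.v00, h10] at h1
    simpa using h1
  have h11 : N 1 1 = N 0 0 := by
    have h1 := congrFun (congrFun HV 1) 0
    rw [Matrix.mul_apply, Matrix.mul_apply, Fin.sum_univ_two, Fin.sum_univ_two, hn.v00, hn.v10,
      hn'.v10, h10] at h1
    simpa using h1
  have hscal : N = N 0 0 • (1 : M2 A) := by
    ext i j
    fin_cases i <;> fin_cases j <;> simp [h10, h01, h11]
  have hunit : IsUnit (N 0 0) := by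
    have h1 : N * ((M⁻¹ : (M2 A)ˣ) : M2 A) = 1 := by simp [hN]
    have h2 := congrFun (congrFun h1 0) 0
    rw [Matrix.mul_apply, Fin.sum_univ_two, h01] at h2
    exact IsUnit.of_mul_eq_one _ (by simpa using h2)
  ext σ i j
  have h1 := congrFun (congrFun (hM σ) i) j
  rw [hscal] at h1
  simp only [Matrix.smul_mul, Matrix.mul_smul, Matrix.one_mul, Matrix.mul_one, Matrix.smul_apply,
    smul_eq_mul] at h1
  exact hunit.mul_left_cancel h1

omit [IsLocalHom (algebraMap 𝒪 A)] in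
lemma isLift_iff {F : MatFrame 𝒪} {r : Gal →* M2 A} :
    IsLift F r ↔ ∀ σ i j, residue A (r σ i j) = residue A (algebraMap 𝒪 A (F.rtil σ i j)) := by
  unfold IsLift
  simp only [← residue_eq_zero_iff, map_sub, sub_eq_zero]

omit [IsLocalHom (algebraMap 𝒪 A)] in
lemma conjMat_one {B : Type} [CommRing B] (r : Gal →* M2 B) : conjMat 1 r = r := by
  ext σ : 1
  simp

omit [IsLocalHom (algebraMap 𝒪 A)] in
lemma IsLift.conj {F : MatFrame 𝒪} {r : Gal →* M2 A} (h : IsLift F r) (M : (M2 A)ˣ)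
    (hM : Units.map ((residue A).mapMatrix : M2 A →+* M2 (ResidueField A)).toMonoidHom M = 1) :
    IsLift F (conjMat M r) := by
  rw [isLift_iff] at h ⊢
  intro σ i j
  rw [← h σ i j, ← mapRep_apply, ← mapRep_apply, mapRep_conjMat, hM, conjMat_one]

omit [Algebra 𝒪 A] [IsLocalHom (algebraMap 𝒪 A)] in
lemma isUnit_of_sub_one_mem {x : A} (h : x - 1 ∈ maximalIdeal A) : IsUnit x := by
  by_contra hcon
  have h4 : x ∈ maximalIdeal A := hcon
  have h5 : (1 : A) ∈ maximalIdeal A := by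
    have := Ideal.sub_mem _ h4 h
    simp at this
  exact (Ideal.ne_top_iff_one _).mp (Ideal.IsPrime.ne_top inferInstance) h5

omit [IsLocalRing A] [Algebra 𝒪 A] [IsLocalHom (algebraMap 𝒪 A)] in
lemma conj_col {Ninv N P : M2 A} (hN : Ninv * N = 1) {c : A} {j : Fin 2}
    (h : ∀ k, (P * N) k 0 = c * N k j) (i : Fin 2) :
    (Ninv * P * N) i 0 = c * (1 : M2 A) i j := by
  rw [mul_assoc, Matrix.mul_apply, ← hN, Matrix.mul_apply, Finset.mul_sum]
  refine Finset.sum_congr rfl fun k _ => ?_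
  rw [h k]; ring

/-- **Existence of normal forms** over a complete local ring. -/
theorem exists_normalized_conj [IsAdicComplete (maximalIdeal A) A] {F : MatFrame 𝒪} {r : Gal →* M2 A}
    (hl : IsLift F r) :
    ∃ M : (M2 A)ˣ, IsLift F (conjMat M r) ∧ IsNormalized F (conjMat M r) := by
  classical
  set U : M2 A := ext r F.u with hU
  set V : M2 A := ext r F.v with hV
  obtain ⟨ha, hb, hc, hd⟩ := hl.extU
  obtain ⟨hp, hq, hs, ht⟩ := hl.extV
  rw [← hU] at ha hb hc hd
  rw [← hV] at hp hq hs ht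
  -- Hensel
  have hev : ∀ x : A, U.charpoly.eval x = x ^ 2 - (U 0 0 + U 1 1) * x +
      (U 0 0 * U 1 1 - U 0 1 * U 1 0) := by
    intro x
    rw [Matrix.charpoly_fin_two, Matrix.trace_fin_two, Matrix.det_fin_two]
    simp
  have hder : U.charpoly.derivative.eval 1 = 2 - (U 0 0 + U 1 1) := by
    rw [Matrix.charpoly_fin_two, Matrix.trace_fin_two, Matrix.det_fin_two]
    simp
    norm_num
  obtain ⟨α, hα, hα1⟩ := HenselianRing.is_henselian (R := A) (I := maximalIdeal A) U.charpoly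
    (Matrix.charpoly_monic U) 1
    (by
      rw [hev]
      have h1 : (1 : A) ^ 2 - (U 0 0 + U 1 1) * 1 + (U 0 0 * U 1 1 - U 0 1 * U 1 0) =
          (U 0 0 - 1) * (U 1 1 - 1) - U 0 1 * U 1 0 := by ring
      rw [h1]
      exact Ideal.sub_mem _ (Ideal.mul_mem_right _ _ ha) (Ideal.mul_mem_right _ _ hb))
    (by
      rw [hder]
      refine IsUnit.map _ (isUnit_of_sub_one_mem ?_)
      have h1 : (2 : A) - (U 0 0 + U 1 1) - 1 = -(U 0 0 - 1) - U 1 1 := by ring
      rw [h1]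
      exact Ideal.sub_mem _ (Ideal.neg_mem_iff _ |>.mpr ha) hd)
  rw [Polynomial.IsRoot.def, hev] at hα
  have hunit : IsUnit (α - U 1 1) := isUnit_of_sub_one_mem (by
    have h1 : α - U 1 1 - 1 = (α - 1) - U 1 1 := by ring
    rw [h1]; exact Ideal.sub_mem _ hα1 hd)
  obtain ⟨e, he⟩ := hunit
  set y : A := U 1 0 * ((e⁻¹ : Aˣ) : A) with hy
  have hye : (α - U 1 1) * y = U 1 0 := by
    rw [hy, ← he]; simp [mul_comm]
  have hym : y ∈ maximalIdeal A := Ideal.mul_mem_right _ _ hc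
  have hby : U 0 1 * y = α - U 0 0 := by
    have h1 : (e : A) * (U 0 1 * y) = (e : A) * (α - U 0 0) := by
      rw [he]; linear_combination U 0 1 * hye - hα
    exact e.isUnit.mul_left_cancel h1
  set N : M2 A := !![1, V 0 0 + V 0 1 * y; y, V 1 0 + V 1 1 * y] with hNdef
  have hNdet : IsUnit N.det := by
    refine isUnit_of_sub_one_mem ?_
    rw [Matrix.det_fin_two]
    have h1 : N 0 0 * N 1 1 - N 0 1 * N 1 0 - 1 =
        (V 1 0 - 1) + V 1 1 * y - (V 0 0 + V 0 1 * y) * y := by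
      simp [hNdef]; ring
    rw [h1]
    exact Ideal.sub_mem _ (Ideal.add_mem _ hs (Ideal.mul_mem_left _ _ hym))
      (Ideal.mul_mem_left _ _ hym)
  obtain ⟨Nu, hNu⟩ := (Matrix.isUnit_iff_isUnit_det N).mpr hNdet
  have hinv : ((Nu⁻¹ : (M2 A)ˣ) : M2 A) * N = 1 := by rw [← hNu]; simp
  refine ⟨Nu⁻¹, hl.conj _ ?_, ?_⟩
  · rw [map_inv, inv_eq_one]
    refine Units.ext ?_
    rw [Units.coe_map, hNu]
    ext i j
    have h01 : residue A (V 0 0 + V 0 1 * y) = 0 :=
      (residue_eq_zero_iff _).mpr (Ideal.add_mem _ hp (Ideal.mul_mem_left _ _ hym))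
    have h11 : residue A (V 1 0 + V 1 1 * y) = 1 := by
      have : residue A (V 1 0 + V 1 1 * y - 1) = 0 := (residue_eq_zero_iff _).mpr (by
        have h1 : V 1 0 + V 1 1 * y - 1 = (V 1 0 - 1) + V 1 1 * y := by ring
        rw [h1]; exact Ideal.add_mem _ hs (Ideal.mul_mem_left _ _ hym))
      rwa [map_sub, map_one, sub_eq_zero] at this
    have h10 : residue A y = 0 := (residue_eq_zero_iff _).mpr hym
    fin_cases i <;> fin_cases j <;> simp [hNdef, h01, h11, h10]
  · have hUc : ∀ k, (U * N) k 0 = α * N k 0 := by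
      intro k
      rw [Matrix.mul_apply, Fin.sum_univ_two]
      fin_cases k
      · simp [hNdef]; linear_combination hby
      · simp [hNdef]; linear_combination -hye
    have hVc : ∀ k, (V * N) k 0 = 1 * N k 1 := by
      intro k
      rw [Matrix.mul_apply, Fin.sum_univ_two]
      fin_cases k <;> simp [hNdef]
    have hextU : ext (conjMat Nu⁻¹ r) F.u = ((Nu⁻¹ : (M2 A)ˣ) : M2 A) * U * N := by
      rw [ext_conjMat, inv_inv, hNu]
    have hextV : ext (conjMat Nu⁻¹ r) F.v = ((Nu⁻¹ : (M2 A)ˣ) : M2 A) * V * N := by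
      rw [ext_conjMat, inv_inv, hNu]
    refine ⟨?_, ?_, ?_⟩
    · rw [hextU, conj_col hinv hUc]; simp
    · rw [hextV, conj_col hinv hVc]; simp
    · rw [hextV, conj_col hinv hVc]; simp

/-- Existence of the normalised conjugate (captain's interface T4). -/
theorem exists_normalized (F : MatFrame 𝒪) [IsAdicComplete (maximalIdeal A) A] (r : Gal →* M2 A)
    (hl : IsLift F r) :
    ∃ (M : M2 A) (r' : Gal →* M2 A), IsUnit M ∧ (∀ σ, M * r σ = r' σ * M) ∧ IsLift F r' ∧
      IsNormalized F r' ∧ (MatCont r → MatCont r') := by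
  obtain ⟨M, h1, h2⟩ := exists_normalized_conj hl
  exact ⟨M, conjMat M r, M.isUnit, conjMat_intertwine M r, h1, h2, fun h => h.conj M⟩

/-- Uniqueness of the normalised conjugate (captain's interface T4). -/
theorem normalized_unique (F : MatFrame 𝒪) (r r' : Gal →* M2 A) (hl : IsLift F r)
    (hl' : IsLift F r') (hn : IsNormalized F r) (hn' : IsNormalized F r') (M : M2 A)
    (hM : IsUnit M) (h : ∀ σ, M * r σ = r' σ * M) : r = r' := by
  obtain ⟨M', rfl⟩ := hM
  exact eq_of_intertwine hl hl' hn hn' M' h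

end lift

section frame

variable {𝒪 : Type} [CommRing 𝒪] [IsLocalRing 𝒪] {ρbar : ResidualGaloisRep (ResidueField 𝒪)}
  (F : Frame ρbar) {A : Type} [CommRing A] [IsLocalRing A] [Algebra 𝒪 A]
  [IsLocalHom (algebraMap 𝒪 A)]

/-- Every deformation of `ρbar` to a complete local ring has a normalised matrix form. -/
theorem exists_normalized_of_residual [IsAdicComplete (maximalIdeal A) A] (ρ : GaloisRepAdic A)
    (h : ρ.residual.IsEquiv (ρbar.baseChangeAlong (ResidueField.map (algebraMap 𝒪 A)))) :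
    ∃ (r : Gal →* M2 A) (hr : MatCont r), ρ.IsEquiv (toAdic r hr) ∧ IsLift F.toMatFrame r ∧
      IsNormalized F.toMatFrame r := by
  obtain ⟨r, hr, h2, h1⟩ := exists_lift_of_residual_isEquiv F ρ h
  obtain ⟨M, h3, h4⟩ := exists_normalized_conj h2
  exact ⟨conjMat M r, hr.conj M,
    IsEquiv.trans' (IsEquiv.symm' h1) (toAdic_isEquiv_conj r hr M), h3, h4⟩

/-- Equivalent normalised lifts are equal. -/
theorem eq_of_isEquiv {G : MatFrame 𝒪} {r r' : Gal →* M2 A} (hr : MatCont r) (hr' : MatCont r')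
    (hl : IsLift G r) (hl' : IsLift G r') (hn : IsNormalized G r) (hn' : IsNormalized G r')
    (h : (toAdic r hr).IsEquiv (toAdic r' hr')) : r = r' := by
  obtain ⟨M, hM⟩ := (toAdic_isEquiv_iff _ _ _ _).mp h
  exact eq_of_intertwine hl hl' hn hn' M hM

end frame

section functoriality

variable {𝒪 : Type} [CommRing 𝒪] [IsLocalRing 𝒪] {A B : Type} [CommRing A] [IsLocalRing A]
  [Algebra 𝒪 A] [CommRing B] [IsLocalRing B] [Algebra 𝒪 B]

lemma IsLift.map {F : MatFrame 𝒪} {r : Gal →* M2 A} (h : IsLift F r) (φ : A →ₐ[𝒪] B)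
    (hφ : IsLocalHom (φ : A →+* B)) : IsLift F (mapRep (φ : A →+* B) r) := by
  intro σ i j
  have h1 : mapRep (φ : A →+* B) r σ i j - algebraMap 𝒪 B (F.rtil σ i j) =
      (φ : A →+* B) (r σ i j - algebraMap 𝒪 A (F.rtil σ i j)) := by
    rw [mapRep_apply, map_sub]
    simp
  rw [h1]
  exact map_nonunit (φ : A →+* B) _ (h σ i j)

omit [IsLocalRing A] [IsLocalRing B] in
lemma IsNormalized.map {F : MatFrame 𝒪} {r : Gal →* M2 A} (h : IsNormalized F r)
    (φ : A →ₐ[𝒪] B) : IsNormalized F (mapRep (φ : A →+* B) r) :=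
  ⟨by rw [ext_mapRep, h.u10, map_zero], by rw [ext_mapRep, h.v00, map_zero],
    by rw [ext_mapRep, h.v10, map_one]⟩

omit [IsLocalRing A] [IsLocalRing B] in
lemma IsNormalized.of_map_injective {F : MatFrame 𝒪} {r : Gal →* M2 A} (φ : A →ₐ[𝒪] B)
    (hφ : Function.Injective φ) (h : IsNormalized F (mapRep (φ : A →+* B) r)) :
    IsNormalized F r :=
  ⟨hφ (by rw [← ext_mapRep, h.u10, map_zero]), hφ (by rw [← ext_mapRep, h.v00, map_zero]),
    hφ (by rw [← ext_mapRep, h.v10, map_one])⟩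

end functoriality

end Fermat.Agent.S53
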