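import Mathlib

/-!
# `MvPowerSeries σ 𝒪` is complete for its maximal ideal

Owner: helper293.
-/

set_option autoImplicit false

namespace Fermat.Agent.S53.PSC

open IsLocalRing MvPowerSeries Finsupp

set_option linter.unusedSectionVars false

variable {𝒪 : Type*} [CommRing 𝒪] {σ : Type*} [Finite σ]

/-- A power series all of whose coefficients of degree `< n` vanish lies in `(X)^n`. -/
theorem mem_span_X_pow (f : MvPowerSeries σ 𝒪) (n : ℕ)
    (h : ∀ α : σ →₀ ℕ, degree α < n → coeff α f = 0) :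
    f ∈ (Ideal.span (Set.range (X : σ → MvPowerSeries σ 𝒪))) ^ n := by
  classical
  set I := MvPolynomial.idealOfVars σ 𝒪 with hI
  set e := toAdicCompletionAlgEquiv σ 𝒪 with he
  have htr : truncTotal n f = 0 := by
    ext α
    rw [coeff_truncTotal_eq_ite]
    split_ifs with hα
    · rw [h α hα]; simp
    · simp
  have hker : e f ∈ (AdicCompletion.eval I (MvPolynomial σ 𝒪) n).ker := by
    rw [LinearMap.mem_ker]
    change (toAdicCompletion σ 𝒪 f).val n = 0
    rw [toAdicCompletion_apply_eq_mk_truncTotal, htr]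
    simp
  rw [← AdicCompletion.pow_smul_top_eq_ker_eval (MvPolynomial.idealOfVars_fg σ 𝒪)] at hker
  have h2 : f ∈ (I ^ n • ⊤ : Submodule (MvPolynomial σ 𝒪) (MvPowerSeries σ 𝒪)) := by
    have := Submodule.mem_map_of_mem (f := e.symm.toLinearMap) hker
    rw [Submodule.map_smul''] at this
    simp only [AlgEquiv.toLinearMap_apply, AlgEquiv.symm_apply_apply] at this
    exact Submodule.smul_mono le_rfl le_top this
  rw [Ideal.smul_top_eq_map, Submodule.restrictScalars_mem, Ideal.map_pow] at h2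
  have h3 : Ideal.map (algebraMap (MvPolynomial σ 𝒪) (MvPowerSeries σ 𝒪)) I =
      Ideal.span (Set.range (X : σ → MvPowerSeries σ 𝒪)) := by
    rw [hI, MvPolynomial.idealOfVars, Ideal.map_span, ← Set.range_comp]
    congr 2
    ext1 i
    simp [MvPowerSeries.algebraMap_apply']
  rwa [h3] at h2


section Local

variable [IsLocalRing 𝒪]

theorem mem_maximalIdeal_iff (f : MvPowerSeries σ 𝒪) :
    f ∈ maximalIdeal (MvPowerSeries σ 𝒪) ↔ constantCoeff f ∈ maximalIdeal 𝒪 := by
  rw [mem_maximalIdeal, mem_maximalIdeal, mem_nonunits_iff, mem_nonunits_iff,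
    isUnit_iff_constantCoeff]

theorem span_X_le : Ideal.span (Set.range (X : σ → MvPowerSeries σ 𝒪)) ≤
    maximalIdeal (MvPowerSeries σ 𝒪) := by
  rw [Ideal.span_le]
  rintro _ ⟨i, rfl⟩
  simp only [SetLike.mem_coe, mem_maximalIdeal_iff, constantCoeff_X, zero_mem]

theorem C_mem_pow {c : 𝒪} {k : ℕ} (hc : c ∈ maximalIdeal 𝒪 ^ k) :
    (C c : MvPowerSeries σ 𝒪) ∈ maximalIdeal (MvPowerSeries σ 𝒪) ^ k := by
  have h1 : Ideal.map (C : 𝒪 →+* MvPowerSeries σ 𝒪) (maximalIdeal 𝒪) ≤
      maximalIdeal (MvPowerSeries σ 𝒪) := by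
    rw [Ideal.map_le_iff_le_comap]
    intro x hx
    rw [Ideal.mem_comap, mem_maximalIdeal_iff, constantCoeff_C]
    exact hx
  have h2 := Ideal.mem_map_of_mem (C : 𝒪 →+* MvPowerSeries σ 𝒪) hc
  rw [Ideal.map_pow] at h2
  exact Ideal.pow_right_mono h1 k h2

theorem monomial_mem_pow (α : σ →₀ ℕ) {c : 𝒪} {k : ℕ} (hc : c ∈ maximalIdeal 𝒪 ^ k) :
    (monomial α c : MvPowerSeries σ 𝒪) ∈ maximalIdeal (MvPowerSeries σ 𝒪) ^ (k + degree α) := by
  classical
  have h1 : (monomial α c : MvPowerSeries σ 𝒪) = C c * monomial α 1 := by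
    rw [← smul_eq_C_mul, ← map_smul, smul_eq_mul, mul_one]
  rw [h1, pow_add]
  refine Ideal.mul_mem_mul (C_mem_pow hc) (Ideal.pow_right_mono span_X_le _ ?_)
  refine mem_span_X_pow _ _ fun β hβ => ?_
  rw [coeff_monomial, if_neg]
  rintro rfl
  exact lt_irrefl _ hβ

/-- The explicit filtration computing the powers of the maximal ideal. -/
def filt (σ : Type*) (𝒪 : Type*) [CommRing 𝒪] [IsLocalRing 𝒪] (n : ℕ) :
    Ideal (MvPowerSeries σ 𝒪) where
  carrier := {f | ∀ α : σ →₀ ℕ, coeff α f ∈ maximalIdeal 𝒪 ^ (n - degree α)}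
  add_mem' := fun {f g} hf hg α => by
    rw [map_add]; exact Ideal.add_mem _ (hf α) (hg α)
  zero_mem' := fun α => by rw [map_zero]; exact Ideal.zero_mem _
  smul_mem' := fun c f hf α => by
    classical
    rw [smul_eq_mul, coeff_mul]
    refine Ideal.sum_mem _ fun p hp => ?_
    refine Ideal.mul_mem_left _ _ ?_
    refine Ideal.pow_le_pow_right ?_ (hf p.2)
    have : p.1 + p.2 = α := by simpa using hp
    rw [← this, map_add]
    omega

theorem mem_filt {n : ℕ} {f : MvPowerSeries σ 𝒪} :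
    f ∈ filt σ 𝒪 n ↔ ∀ α : σ →₀ ℕ, coeff α f ∈ maximalIdeal 𝒪 ^ (n - degree α) := Iff.rfl

theorem filt_mul_le (a b : ℕ) : filt σ 𝒪 a * filt σ 𝒪 b ≤ filt σ 𝒪 (a + b) := by
  classical
  rw [Ideal.mul_le]
  intro f hf g hg α
  rw [coeff_mul]
  refine Ideal.sum_mem _ fun p hp => ?_
  have h1 := Ideal.mul_mem_mul (hf p.1) (hg p.2)
  rw [← pow_add] at h1
  refine Ideal.pow_le_pow_right ?_ h1
  have : p.1 + p.2 = α := by simpa using hp
  rw [← this, map_add]
  omega

theorem maximalIdeal_le_filt_one : maximalIdeal (MvPowerSeries σ 𝒪) ≤ filt σ 𝒪 1 := by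
  intro f hf α
  by_cases hα : α = 0
  · subst hα
    rw [mem_maximalIdeal_iff] at hf
    simpa using hf
  · have : 1 - degree α = 0 := by
      have : degree α ≠ 0 := by
        simpa [Finsupp.degree_eq_zero_iff] using hα
      omega
    rw [this, pow_zero, Ideal.one_eq_top]
    exact Submodule.mem_top

theorem pow_le_filt (n : ℕ) : maximalIdeal (MvPowerSeries σ 𝒪) ^ n ≤ filt σ 𝒪 n := by
  induction n with
  | zero =>
    intro f _ α
    simp
  | succ n ih =>
    rw [pow_succ]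
    exact (Ideal.mul_mono ih maximalIdeal_le_filt_one).trans (filt_mul_le n 1)

theorem filt_le_pow (n : ℕ) : filt σ 𝒪 n ≤ maximalIdeal (MvPowerSeries σ 𝒪) ^ n := by
  classical
  intro f hf
  have h1 : f = (f - ((truncTotal n f : MvPolynomial σ 𝒪) : MvPowerSeries σ 𝒪)) +
      ((truncTotal n f : MvPolynomial σ 𝒪) : MvPowerSeries σ 𝒪) := by ring
  rw [h1]
  refine Ideal.add_mem _ (Ideal.pow_right_mono span_X_le _ (mem_span_X_pow _ _ ?_)) ?_
  · intro α hα
    rw [map_sub, MvPolynomial.coeff_coe, coeff_truncTotal _ hα, sub_self]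
  · rw [(truncTotal n f).as_sum]
    rw [← MvPolynomial.coeToMvPowerSeries.ringHom_apply, map_sum]
    refine Ideal.sum_mem _ fun α _ => ?_
    rw [MvPolynomial.coeToMvPowerSeries.ringHom_apply, MvPolynomial.coe_monomial,
      coeff_truncTotal_eq_ite]
    split_ifs with hα
    · have := monomial_mem_pow α (hf α)
      rwa [Nat.sub_add_cancel hα.le] at this
    · rw [map_zero]; exact Ideal.zero_mem _

theorem pow_eq_filt (n : ℕ) : maximalIdeal (MvPowerSeries σ 𝒪) ^ n = filt σ 𝒪 n :=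
  le_antisymm (pow_le_filt n) (filt_le_pow n)

theorem isPrecomplete [IsPrecomplete (maximalIdeal 𝒪) 𝒪] :
    IsPrecomplete (maximalIdeal (MvPowerSeries σ 𝒪)) (MvPowerSeries σ 𝒪) := by
  refine ⟨fun f hf => ?_⟩
  -- coefficientwise limits
  have hc : ∀ α : σ →₀ ℕ, ∃ L : 𝒪, ∀ n : ℕ,
      coeff α (f (n + degree α)) ≡ L [SMOD (maximalIdeal 𝒪 ^ n • ⊤ : Submodule 𝒪 𝒪)] := by
    intro α
    refine IsPrecomplete.prec ‹_› (f := fun n => coeff α (f (n + degree α))) ?_
    intro m n hmn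
    have h1 := hf (show m + degree α ≤ n + degree α by omega)
    rw [SModEq.sub_mem, smul_eq_mul, Ideal.mul_top, pow_eq_filt] at h1
    have h2 := h1 α
    rw [map_sub, Nat.add_sub_cancel] at h2
    rw [SModEq.sub_mem, smul_eq_mul, Ideal.mul_top]
    exact h2
  choose L hL using hc
  refine ⟨(show MvPowerSeries σ 𝒪 from fun α => L α), fun n => ?_⟩
  rw [SModEq.sub_mem, smul_eq_mul, Ideal.mul_top, pow_eq_filt]
  intro α
  by_cases hα : degree α ≤ n
  · have h1 := hL α (n - degree α)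
    rw [Nat.sub_add_cancel hα, SModEq.sub_mem, smul_eq_mul, Ideal.mul_top] at h1
    rw [map_sub]
    exact h1
  · have : n - degree α = 0 := by omega
    rw [this, pow_zero, Ideal.one_eq_top]
    exact Submodule.mem_top

/-- `𝒪⟦X₁,…,X_d⟧` is complete for its maximal ideal. -/
theorem isAdicComplete [IsNoetherianRing 𝒪] [IsAdicComplete (maximalIdeal 𝒪) 𝒪] :
    IsAdicComplete (maximalIdeal (MvPowerSeries σ 𝒪)) (MvPowerSeries σ 𝒪) :=
  { toIsHausdorff := inferInstance
    toIsPrecomplete := isPrecomplete }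

end Local

end Fermat.Agent.S53.PSC
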