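import Mathlib
import Fermat.Agent.S53.PowerSeriesComplete

/-!
# S53-T1: `MvPowerSeries (Fin d) 𝒪` is complete for its maximal ideal (wrapper)

Owner: helper293.
-/

set_option autoImplicit false

namespace Fermat.Agent.S53

open IsLocalRing

theorem isAdicComplete_mvPowerSeries (𝒪 : Type) [CommRing 𝒪] [IsNoetherianRing 𝒪] [IsLocalRing 𝒪]
    [IsAdicComplete (maximalIdeal 𝒪) 𝒪] (d : ℕ) :
    IsAdicComplete (maximalIdeal (MvPowerSeries (Fin d) 𝒪)) (MvPowerSeries (Fin d) 𝒪) :=
  PSC.isAdicComplete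

theorem maximalIdeal_mvPowerSeries_eq (𝒪 : Type) [CommRing 𝒪] [IsLocalRing 𝒪] (d : ℕ) :
    maximalIdeal (MvPowerSeries (Fin d) 𝒪) =
      Ideal.span (Set.range (MvPowerSeries.X : Fin d → MvPowerSeries (Fin d) 𝒪)) ⊔
        (maximalIdeal 𝒪).map (MvPowerSeries.C : 𝒪 →+* MvPowerSeries (Fin d) 𝒪) := by
  apply le_antisymm
  · intro f hf
    rw [PSC.mem_maximalIdeal_iff] at hf
    have h1 : f = (f - MvPowerSeries.C (MvPowerSeries.constantCoeff f)) +
        MvPowerSeries.C (MvPowerSeries.constantCoeff f) := by ring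
    rw [h1]
    refine Ideal.add_mem _ (Ideal.mem_sup_left ?_)
      (Ideal.mem_sup_right (Ideal.mem_map_of_mem _ hf))
    have h2 : f - MvPowerSeries.C (MvPowerSeries.constantCoeff f) ∈
        (Ideal.span (Set.range (MvPowerSeries.X : Fin d → MvPowerSeries (Fin d) 𝒪))) ^ 1 := by
      refine PSC.mem_span_X_pow _ _ fun α hα => ?_
      have : α = 0 := by
        rw [← Finsupp.degree_eq_zero_iff]; omega
      subst this
      simp
    simpa using h2
  · refine sup_le PSC.span_X_le ?_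
    rw [Ideal.map_le_iff_le_comap]
    intro x hx
    rw [Ideal.mem_comap, PSC.mem_maximalIdeal_iff, MvPowerSeries.constantCoeff_C]
    exact hx

end Fermat.Agent.S53
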