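/-
S53 helper (T2): evaluation homomorphisms out of `MvPowerSeries (Fin d) 𝒪` into complete local rings.
-/
import Mathlib

set_option autoImplicit false

open IsLocalRing

namespace Fermat.Agent.S53

section Aux

variable {𝒪 : Type} [CommRing 𝒪] {d : ℕ}

theorem constantCoeff_eq_zero_of_mem_span_X {s : MvPowerSeries (Fin d) 𝒪}
    (hs : s ∈ Ideal.span (Set.range (MvPowerSeries.X : Fin d → MvPowerSeries (Fin d) 𝒪))) :
    MvPowerSeries.constantCoeff s = 0 := by
  have hle : Ideal.span (Set.range (MvPowerSeries.X : Fin d → MvPowerSeries (Fin d) 𝒪)) ≤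
      RingHom.ker (MvPowerSeries.constantCoeff (σ := Fin d) (R := 𝒪)) := by
    rw [Ideal.span_le]
    rintro _ ⟨i, rfl⟩
    simp
  exact hle hs

theorem coeff_eq_zero_of_mem_span_X_pow (n : ℕ) {s : MvPowerSeries (Fin d) 𝒪}
    (hs : s ∈ Ideal.span (Set.range (MvPowerSeries.X : Fin d → MvPowerSeries (Fin d) 𝒪)) ^ n)
    (x : Fin d →₀ ℕ) (hx : x.degree < n) : MvPowerSeries.coeff x s = 0 := by
  induction n generalizing s x with
  | zero => omega
  | succ n ih =>
    rw [pow_succ'] at hs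
    induction hs using Submodule.mul_induction_on' with
    | mem_mul_mem a ha b hb =>
      classical
      rw [MvPowerSeries.coeff_mul]
      refine Finset.sum_eq_zero ?_
      rintro ⟨u, v⟩ huv
      replace huv : u + v = x := Finset.HasAntidiagonal.mem_antidiagonal.mp huv
      by_cases hu : u = 0
      · subst hu
        have := constantCoeff_eq_zero_of_mem_span_X ha
        rw [← MvPowerSeries.coeff_zero_eq_constantCoeff_apply] at this
        simp [this]
      · have hdeg : v.degree < n := by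
          have h1 : u.degree + v.degree = x.degree := by
            rw [← huv, map_add]
          have h2 : u.degree ≠ 0 := by
            simpa [Finsupp.degree_eq_zero_iff] using hu
          omega
        simp [ih hb v hdeg]
    | add a _ b _ ha hb => rw [map_add, ha, hb, add_zero]

theorem coe_mem_span_X_pow_of_mem (n : ℕ) {p : MvPolynomial (Fin d) 𝒪}
    (hp : p ∈ MvPolynomial.idealOfVars (Fin d) 𝒪 ^ n) :
    (p : MvPowerSeries (Fin d) 𝒪) ∈
      Ideal.span (Set.range (MvPowerSeries.X : Fin d → MvPowerSeries (Fin d) 𝒪)) ^ n := by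
  have h1 : (MvPolynomial.idealOfVars (Fin d) 𝒪).map MvPolynomial.coeToMvPowerSeries.ringHom ≤
      Ideal.span (Set.range (MvPowerSeries.X : Fin d → MvPowerSeries (Fin d) 𝒪)) := by
    rw [MvPolynomial.idealOfVars, Ideal.map_span, Ideal.span_le]
    rintro _ ⟨_, ⟨i, rfl⟩, rfl⟩
    exact Ideal.subset_span ⟨i, by simp⟩
  have h2 := Ideal.mem_map_of_mem MvPolynomial.coeToMvPowerSeries.ringHom hp
  rw [Ideal.map_pow] at h2
  exact Ideal.pow_right_mono h1 n h2

/-- A power series differs from its truncation at total degree `n` by an element of the `n`-th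
power of the ideal generated by the variables. -/
theorem sub_truncTotal_mem_span_X_pow (n : ℕ) (s : MvPowerSeries (Fin d) 𝒪) :
    s - ((MvPowerSeries.truncTotal n s : MvPolynomial (Fin d) 𝒪) : MvPowerSeries (Fin d) 𝒪) ∈
      Ideal.span (Set.range (MvPowerSeries.X : Fin d → MvPowerSeries (Fin d) 𝒪)) ^ n := by
  set I := Ideal.span (Set.range (MvPowerSeries.X : Fin d → MvPowerSeries (Fin d) 𝒪)) with hI
  have hprec : IsPrecomplete I (MvPowerSeries (Fin d) 𝒪) := inferInstance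
  obtain ⟨L, hL⟩ := hprec.prec
    (f := fun m => ((MvPowerSeries.truncTotal m s : MvPolynomial (Fin d) 𝒪) :
      MvPowerSeries (Fin d) 𝒪)) (by
    intro m k hmk
    rw [SModEq.sub_mem, smul_eq_mul, Ideal.mul_top]
    have h0 := coe_mem_span_X_pow_of_mem m
      (MvPowerSeries.truncTotal_sub_truncTotal_mem_pow_idealOfVars le_rfl hmk s)
    have h1 : ((MvPowerSeries.truncTotal m s - MvPowerSeries.truncTotal k s :
        MvPolynomial (Fin d) 𝒪) : MvPowerSeries (Fin d) 𝒪) =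
        ((MvPowerSeries.truncTotal m s : MvPolynomial (Fin d) 𝒪) : MvPowerSeries (Fin d) 𝒪) -
        ((MvPowerSeries.truncTotal k s : MvPolynomial (Fin d) 𝒪) : MvPowerSeries (Fin d) 𝒪) :=
      map_sub (MvPolynomial.coeToMvPowerSeries.ringHom (σ := Fin d) (R := 𝒪))
        (MvPowerSeries.truncTotal m s) (MvPowerSeries.truncTotal k s)
    rw [← h1]
    exact h0)
  have hLs : L = s := by
    ext x
    have h1 := hL (x.degree + 1)
    rw [SModEq.sub_mem, smul_eq_mul, Ideal.mul_top] at h1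
    have h2 := coeff_eq_zero_of_mem_span_X_pow _ h1 x (Nat.lt_succ_self _)
    rw [map_sub, MvPolynomial.coeff_coe, MvPowerSeries.coeff_truncTotal _ (Nat.lt_succ_self _),
      sub_eq_zero] at h2
    exact h2.symm
  have h3 := hL n
  rw [SModEq.sub_mem, smul_eq_mul, Ideal.mul_top, hLs] at h3
  rw [← neg_sub]
  exact neg_mem h3

theorem map_mem_pow_of_mem_span_X_pow {A : Type} [CommRing A] [IsLocalRing A] [Algebra 𝒪 A]
    (φ : MvPowerSeries (Fin d) 𝒪 →ₐ[𝒪] A) (hφ : ∀ l, φ (MvPowerSeries.X l) ∈ maximalIdeal A)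
    (n : ℕ) {s : MvPowerSeries (Fin d) 𝒪}
    (hs : s ∈ Ideal.span (Set.range (MvPowerSeries.X : Fin d → MvPowerSeries (Fin d) 𝒪)) ^ n) :
    φ s ∈ maximalIdeal A ^ n := by
  have h1 : (Ideal.span (Set.range (MvPowerSeries.X : Fin d → MvPowerSeries (Fin d) 𝒪))).map
      (φ : MvPowerSeries (Fin d) 𝒪 →+* A) ≤ maximalIdeal A := by
    rw [Ideal.map_span, Ideal.span_le]
    rintro _ ⟨_, ⟨l, rfl⟩, rfl⟩
    exact hφ l
  have h2 := Ideal.mem_map_of_mem (φ : MvPowerSeries (Fin d) 𝒪 →+* A) hs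
  rw [Ideal.map_pow] at h2
  exact Ideal.pow_right_mono h1 n h2

theorem apply_coe_eq_aeval {A : Type} [CommRing A] [Algebra 𝒪 A]
    (φ : MvPowerSeries (Fin d) 𝒪 →ₐ[𝒪] A) (p : MvPolynomial (Fin d) 𝒪) :
    φ (p : MvPowerSeries (Fin d) 𝒪) = MvPolynomial.aeval (fun l => φ (MvPowerSeries.X l)) p := by
  have h : φ.comp (MvPolynomial.coeToMvPowerSeries.algHom 𝒪) =
      MvPolynomial.aeval (fun l => φ (MvPowerSeries.X l)) := by
    apply MvPolynomial.algHom_ext
    intro l
    simp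
  exact DFunLike.congr_fun h p

end Aux

theorem exists_eval {𝒪 A : Type} [CommRing 𝒪] [CommRing A] [IsLocalRing A] [Algebra 𝒪 A]
    [IsAdicComplete (maximalIdeal A) A] {d : ℕ} (a : Fin d → A) (ha : ∀ l, a l ∈ maximalIdeal A) :
    ∃ φ : MvPowerSeries (Fin d) 𝒪 →ₐ[𝒪] A, ∀ l, φ (MvPowerSeries.X l) = a l := by
  let ev : MvPolynomial (Fin d) 𝒪 →ₐ[𝒪] A := MvPolynomial.aeval a
  have hev : ∀ n, MvPolynomial.idealOfVars (Fin d) 𝒪 ^ n ≤ (maximalIdeal A ^ n).comap ev := by
    intro n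
    have h1 : (MvPolynomial.idealOfVars (Fin d) 𝒪).map ev ≤ maximalIdeal A := by
      rw [MvPolynomial.idealOfVars, Ideal.map_span, Ideal.span_le]
      rintro _ ⟨_, ⟨l, rfl⟩, rfl⟩
      simpa [ev] using ha l
    rw [← Ideal.map_le_iff_le_comap, Ideal.map_pow]
    exact Ideal.pow_right_mono h1 n
  let f : (n : ℕ) → MvPowerSeries (Fin d) 𝒪 →ₐ[𝒪] A ⧸ maximalIdeal A ^ n := fun n =>
    (Ideal.quotientMapₐ (maximalIdeal A ^ n) ev (hev n)).comp
      ((MvPowerSeries.truncTotalAlgHom (Fin d) 𝒪 n).restrictScalars 𝒪)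
  have hfapp : ∀ n s, f n s = Ideal.Quotient.mk (maximalIdeal A ^ n)
      (ev (MvPowerSeries.truncTotal n s)) := fun n s => rfl
  have hf : ∀ {m n : ℕ} (hle : m ≤ n),
      (Ideal.Quotient.factorₐ 𝒪 (Ideal.pow_le_pow_right hle)).comp (f n) = f m := by
    intro m n hle
    ext s
    rw [AlgHom.comp_apply, hfapp, hfapp, Ideal.Quotient.factorₐ_apply_mk, Ideal.Quotient.eq,
      ← map_sub]
    exact hev m (MvPowerSeries.truncTotal_sub_truncTotal_mem_pow_idealOfVars hle le_rfl s)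
  refine ⟨IsAdicComplete.liftAlgHom (maximalIdeal A) f hf, fun l => ?_⟩
  rw [← sub_eq_zero]
  refine IsHausdorff.haus (I := maximalIdeal A) inferInstance _ fun n => ?_
  rw [SModEq.zero, smul_eq_mul, Ideal.mul_top, ← Ideal.Quotient.eq,
    IsAdicComplete.mk_liftAlgHom, hfapp]
  have h1 : (MvPowerSeries.X l : MvPowerSeries (Fin d) 𝒪) =
      ((MvPolynomial.X l : MvPolynomial (Fin d) 𝒪) : MvPowerSeries (Fin d) 𝒪) := by simp
  have h2 : MvPowerSeries.truncTotal n (MvPowerSeries.X l : MvPowerSeries (Fin d) 𝒪) -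
      MvPolynomial.X l ∈ MvPolynomial.idealOfVars (Fin d) 𝒪 ^ n := by
    rw [MvPolynomial.mem_pow_idealOfVars_iff']
    intro x hx
    rw [MvPolynomial.coeff_sub, MvPowerSeries.coeff_truncTotal _ hx, h1, MvPolynomial.coeff_coe,
      sub_self]
  have h3 := hev n h2
  rw [Ideal.mem_comap, map_sub] at h3
  rw [Ideal.Quotient.eq]
  simpa [ev] using h3

theorem eval_ext {𝒪 A : Type} [CommRing 𝒪] [CommRing A] [IsLocalRing A] [Algebra 𝒪 A]
    [IsHausdorff (maximalIdeal A) A] {d : ℕ} (φ ψ : MvPowerSeries (Fin d) 𝒪 →ₐ[𝒪] A)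
    (hφ : ∀ l, φ (MvPowerSeries.X l) ∈ maximalIdeal A)
    (h : ∀ l, φ (MvPowerSeries.X l) = ψ (MvPowerSeries.X l)) : φ = ψ := by
  have hψ : ∀ l, ψ (MvPowerSeries.X l) ∈ maximalIdeal A := fun l => h l ▸ hφ l
  ext s
  rw [← sub_eq_zero]
  refine IsHausdorff.haus (I := maximalIdeal A) inferInstance _ fun n => ?_
  rw [SModEq.zero, smul_eq_mul, Ideal.mul_top]
  have hs := sub_truncTotal_mem_span_X_pow n s
  have h1 := map_mem_pow_of_mem_span_X_pow φ hφ n hs
  have h2 := map_mem_pow_of_mem_span_X_pow ψ hψ n hs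
  rw [map_sub, apply_coe_eq_aeval] at h1 h2
  have h3 : (fun l => φ (MvPowerSeries.X l)) = fun l => ψ (MvPowerSeries.X l) := funext h
  rw [h3] at h1
  have h4 := sub_mem h1 h2
  simpa using h4

theorem eval_range {𝒪 A : Type} [CommRing 𝒪] [CommRing A] [IsLocalRing A] [Algebra 𝒪 A]
    (hnil : IsNilpotent (maximalIdeal A)) {d : ℕ} (φ : MvPowerSeries (Fin d) 𝒪 →ₐ[𝒪] A)
    (hφ : ∀ l, φ (MvPowerSeries.X l) ∈ maximalIdeal A) :
    φ.range = Algebra.adjoin 𝒪 (Set.range fun l => φ (MvPowerSeries.X l)) := by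
  obtain ⟨n, hn⟩ := hnil
  apply le_antisymm
  · rintro _ ⟨s, rfl⟩
    have hs := sub_truncTotal_mem_span_X_pow n s
    have h1 := map_mem_pow_of_mem_span_X_pow φ hφ n hs
    rw [hn, Ideal.zero_eq_bot, Ideal.mem_bot, map_sub, sub_eq_zero, apply_coe_eq_aeval] at h1
    show φ s ∈ _
    rw [h1, Algebra.adjoin_range_eq_range_aeval]
    exact ⟨_, rfl⟩
  · rw [Algebra.adjoin_le_iff]
    rintro _ ⟨l, rfl⟩
    exact ⟨_, rfl⟩

end Fermat.Agent.S53
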