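import Mathlib
import Fermat.Agent.S53.PowerSeriesComplete

/-!
# Evaluation homomorphisms out of `MvPowerSeries σ 𝒪` into adically complete algebras

Owner: helper293.
-/

set_option autoImplicit false

namespace Fermat.Agent.S53.PSC

open IsLocalRing MvPowerSeries Finsupp

set_option linter.unusedSectionVars false

variable {𝒪 : Type*} [CommRing 𝒪] {σ : Type*} [Finite σ]
variable {A : Type*} [CommRing A] [Algebra 𝒪 A]

/-- Any `𝒪`-algebra hom out of the power series ring agrees with `aeval` on polynomials. -/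
theorem algHom_coe (φ : MvPowerSeries σ 𝒪 →ₐ[𝒪] A) (p : MvPolynomial σ 𝒪) :
    φ (p : MvPowerSeries σ 𝒪) = MvPolynomial.aeval (fun i => φ (X i)) p := by
  have : φ.comp (MvPolynomial.coeToMvPowerSeries.algHom (σ := σ) (R := 𝒪) 𝒪) =
      MvPolynomial.aeval (fun i => φ (X i)) := by
    apply MvPolynomial.algHom_ext
    intro i
    simp
  have h2 := congrArg (fun ψ => ψ p) this
  simpa using h2

theorem algHom_C (φ : MvPowerSeries σ 𝒪 →ₐ[𝒪] A) (c : 𝒪) : φ (C c) = algebraMap 𝒪 A c := by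
  rw [c_eq_algebraMap, AlgHom.commutes]

theorem algHom_mem_pow (I : Ideal A) (φ : MvPowerSeries σ 𝒪 →ₐ[𝒪] A) (hφ : ∀ i, φ (X i) ∈ I)
    (n : ℕ) {f : MvPowerSeries σ 𝒪}
    (hf : f ∈ (Ideal.span (Set.range (X : σ → MvPowerSeries σ 𝒪))) ^ n) : φ f ∈ I ^ n := by
  have h1 : Ideal.map (φ : MvPowerSeries σ 𝒪 →+* A)
      (Ideal.span (Set.range (X : σ → MvPowerSeries σ 𝒪))) ≤ I := by
    rw [Ideal.map_span, Ideal.span_le]
    rintro _ ⟨_, ⟨i, rfl⟩, rfl⟩
    exact hφ i
  have h2 := Ideal.mem_map_of_mem (φ : MvPowerSeries σ 𝒪 →+* A) hf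
  rw [Ideal.map_pow] at h2
  exact Ideal.pow_right_mono h1 n h2

theorem sub_truncTotal_mem (f : MvPowerSeries σ 𝒪) (n : ℕ) :
    f - ((truncTotal n f : MvPolynomial σ 𝒪) : MvPowerSeries σ 𝒪) ∈
      (Ideal.span (Set.range (X : σ → MvPowerSeries σ 𝒪))) ^ n := by
  refine mem_span_X_pow _ _ fun α hα => ?_
  rw [map_sub, MvPolynomial.coeff_coe, coeff_truncTotal _ hα, sub_self]

/-- Two `𝒪`-algebra homs into an `I`-adically separated algebra which agree on the variables,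
and send them into `I`, are equal. -/
theorem algHom_ext' (I : Ideal A) [IsHausdorff I A] {φ ψ : MvPowerSeries σ 𝒪 →ₐ[𝒪] A}
    (hφ : ∀ i, φ (X i) ∈ I) (h : ∀ i, φ (X i) = ψ (X i)) : φ = ψ := by
  ext1 f
  rw [← sub_eq_zero]
  refine IsHausdorff.haus ‹_› _ fun n => ?_
  rw [SModEq.zero, smul_eq_mul, Ideal.mul_top]
  have h1 := algHom_mem_pow I φ hφ n (sub_truncTotal_mem f n)
  have h2 := algHom_mem_pow I ψ (fun i => h i ▸ hφ i) n (sub_truncTotal_mem f n)
  rw [map_sub, algHom_coe] at h1 h2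
  have h3 : (fun i => φ (X i)) = fun i => ψ (X i) := funext h
  rw [h3] at h1
  have := Ideal.sub_mem _ h1 h2
  simpa using this

section Eval

variable (I : Ideal A) (z : σ → A) (hz : ∀ i, z i ∈ I)

include hz in
theorem aeval_mem_pow (n : ℕ) {p : MvPolynomial σ 𝒪}
    (hp : p ∈ MvPolynomial.idealOfVars σ 𝒪 ^ n) : MvPolynomial.aeval z p ∈ I ^ n := by
  have h1 : Ideal.map (MvPolynomial.aeval z : MvPolynomial σ 𝒪 →ₐ[𝒪] A).toRingHom
      (MvPolynomial.idealOfVars σ 𝒪) ≤ I := by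
    rw [MvPolynomial.idealOfVars, Ideal.map_span, Ideal.span_le]
    rintro _ ⟨_, ⟨i, rfl⟩, rfl⟩
    simpa using hz i
  have h2 := Ideal.mem_map_of_mem (MvPolynomial.aeval z : MvPolynomial σ 𝒪 →ₐ[𝒪] A).toRingHom hp
  rw [Ideal.map_pow] at h2
  exact Ideal.pow_right_mono h1 n h2

/-- The level-`n` evaluation map. -/
noncomputable def evalLevel (n : ℕ) : MvPowerSeries σ 𝒪 →ₐ[𝒪] A ⧸ I ^ n :=
  (Ideal.Quotient.liftₐ (MvPolynomial.idealOfVars σ 𝒪 ^ n)
    ((Ideal.Quotient.mkₐ 𝒪 (I ^ n)).comp (MvPolynomial.aeval z))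
    (fun p hp => by
      rw [AlgHom.comp_apply, Ideal.Quotient.mkₐ_eq_mk, Ideal.Quotient.eq_zero_iff_mem]
      exact aeval_mem_pow I z hz n hp)).comp
  ((truncTotalAlgHom σ 𝒪 n).restrictScalars 𝒪)

theorem evalLevel_apply (n : ℕ) (f : MvPowerSeries σ 𝒪) :
    evalLevel I z hz n f = Ideal.Quotient.mk (I ^ n) (MvPolynomial.aeval z (truncTotal n f)) := by
  rfl

theorem evalLevel_compat {m n : ℕ} (hle : m ≤ n) :
    (Ideal.Quotient.factorₐ 𝒪 (Ideal.pow_le_pow_right hle)).comp (evalLevel I z hz n) =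
      evalLevel I z hz m := by
  ext1 f
  simp only [AlgHom.comp_apply, evalLevel_apply]
  rw [Ideal.Quotient.factorₐ_apply_mk, Ideal.Quotient.eq, ← map_sub]
  exact aeval_mem_pow I z hz m (truncTotal_sub_truncTotal_mem_pow_idealOfVars hle le_rfl f)

variable [IsAdicComplete I A]

/-- Evaluation of power series at a family of elements of `I` in an `I`-adically complete
algebra. -/
noncomputable def evalHom : MvPowerSeries σ 𝒪 →ₐ[𝒪] A :=
  IsAdicComplete.liftAlgHom I (evalLevel I z hz) (evalLevel_compat I z hz)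

theorem mk_evalHom (n : ℕ) (f : MvPowerSeries σ 𝒪) :
    Ideal.Quotient.mk (I ^ n) (evalHom I z hz f) =
      Ideal.Quotient.mk (I ^ n) (MvPolynomial.aeval z (truncTotal n f)) := by
  rw [evalHom, IsAdicComplete.mk_liftAlgHom _ _ (evalLevel_compat I z hz), evalLevel_apply]

theorem evalHom_coe (p : MvPolynomial σ 𝒪) :
    evalHom I z hz (p : MvPowerSeries σ 𝒪) = MvPolynomial.aeval z p := by
  rw [← sub_eq_zero]
  refine IsHausdorff.haus (I := I) inferInstance _ fun n => ?_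
  rw [SModEq.zero, smul_eq_mul, Ideal.mul_top, ← Ideal.Quotient.eq, mk_evalHom,
    Ideal.Quotient.eq, ← map_sub]
  refine aeval_mem_pow I z hz n ?_
  refine (MvPolynomial.mem_pow_idealOfVars_iff' ..).mpr fun x hx => ?_
  simp [coeff_truncTotal _ hx]

@[simp]
theorem evalHom_X (i : σ) : evalHom I z hz (X i : MvPowerSeries σ 𝒪) = z i := by
  have := evalHom_coe I z hz (MvPolynomial.X i : MvPolynomial σ 𝒪)
  simpa using this

end Eval

section LocalHom

variable [IsLocalRing 𝒪] [IsLocalRing A] [IsLocalHom (algebraMap 𝒪 A)]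

/-- An algebra hom sending the variables into the maximal ideal maps the maximal ideal
into the maximal ideal. -/
theorem algHom_mem_maximalIdeal (φ : MvPowerSeries σ 𝒪 →ₐ[𝒪] A)
    (hφ : ∀ i, φ (X i) ∈ maximalIdeal A) {f : MvPowerSeries σ 𝒪}
    (hf : f ∈ maximalIdeal (MvPowerSeries σ 𝒪)) : φ f ∈ maximalIdeal A := by
  rw [mem_maximalIdeal_iff] at hf
  have h1 : f = (f - C (constantCoeff f)) + C (constantCoeff f) := by ring
  rw [h1, map_add]
  refine Ideal.add_mem _ ?_ ?_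
  · have h2 : f - C (constantCoeff f) ∈
        (Ideal.span (Set.range (X : σ → MvPowerSeries σ 𝒪))) ^ 1 := by
      refine mem_span_X_pow _ _ fun α hα => ?_
      have : α = 0 := by
        rw [← Finsupp.degree_eq_zero_iff]; omega
      subst this
      simp
    simpa using algHom_mem_pow (maximalIdeal A) φ hφ 1 h2
  · rw [algHom_C]
    exact map_nonunit (algebraMap 𝒪 A) _ hf

theorem algHom_isLocalHom (φ : MvPowerSeries σ 𝒪 →ₐ[𝒪] A)
    (hφ : ∀ i, φ (X i) ∈ maximalIdeal A) : IsLocalHom (φ : MvPowerSeries σ 𝒪 →+* A) := by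
  refine ⟨fun f hf => ?_⟩
  by_contra hcon
  exact (algHom_mem_maximalIdeal φ hφ ((mem_maximalIdeal f).mpr hcon)) hf

theorem algHom_map_pow_le (φ : MvPowerSeries σ 𝒪 →ₐ[𝒪] A)
    (hφ : ∀ i, φ (X i) ∈ maximalIdeal A) (n : ℕ) {f : MvPowerSeries σ 𝒪}
    (hf : f ∈ maximalIdeal (MvPowerSeries σ 𝒪) ^ n) : φ f ∈ maximalIdeal A ^ n := by
  have h1 : Ideal.map (φ : MvPowerSeries σ 𝒪 →+* A) (maximalIdeal (MvPowerSeries σ 𝒪)) ≤
      maximalIdeal A := by
    rw [Ideal.map_le_iff_le_comap]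
    intro x hx
    exact algHom_mem_maximalIdeal φ hφ hx
  have h2 := Ideal.mem_map_of_mem (φ : MvPowerSeries σ 𝒪 →+* A) hf
  rw [Ideal.map_pow] at h2
  exact Ideal.pow_right_mono h1 n h2

/-- Surjectivity criterion: residue fields agree and the maximal ideal of the target is
generated by the image of the maximal ideal of `𝒪` and the images of the variables. -/
theorem algHom_surjective [IsPrecomplete (maximalIdeal 𝒪) 𝒪] [IsHausdorff (maximalIdeal A) A]
    (φ : MvPowerSeries σ 𝒪 →ₐ[𝒪] A) (hφ : ∀ i, φ (X i) ∈ maximalIdeal A)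
    (hres : Function.Surjective (IsLocalRing.residue A ∘ algebraMap 𝒪 A))
    (hgen : maximalIdeal A ≤ Ideal.map (algebraMap 𝒪 A) (maximalIdeal 𝒪) ⊔
      Ideal.span (Set.range fun i => φ (X i))) :
    Function.Surjective φ := by
  have := isPrecomplete (σ := σ) (𝒪 := 𝒪)
  have hle : maximalIdeal A ≤
      Ideal.map (φ : MvPowerSeries σ 𝒪 →+* A) (maximalIdeal (MvPowerSeries σ 𝒪)) := by
    refine hgen.trans (sup_le ?_ ?_)
    · rw [Ideal.map_le_iff_le_comap]
      intro c hc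
      rw [Ideal.mem_comap]
      have : algebraMap 𝒪 A c = (φ : MvPowerSeries σ 𝒪 →+* A) (C c) := (algHom_C φ c).symm
      rw [this]
      refine Ideal.mem_map_of_mem _ ?_
      rw [mem_maximalIdeal_iff, constantCoeff_C]
      exact hc
    · rw [Ideal.span_le]
      rintro _ ⟨i, rfl⟩
      refine Ideal.mem_map_of_mem (φ : MvPowerSeries σ 𝒪 →+* A) ?_
      exact span_X_le (Ideal.subset_span ⟨i, rfl⟩)
  have heq : Ideal.map (φ : MvPowerSeries σ 𝒪 →+* A)
      (maximalIdeal (MvPowerSeries σ 𝒪)) = maximalIdeal A := by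
    refine le_antisymm ?_ hle
    rw [Ideal.map_le_iff_le_comap]
    intro x hx
    exact algHom_mem_maximalIdeal φ hφ hx
  have : IsHausdorff (Ideal.map (φ : MvPowerSeries σ 𝒪 →+* A)
      (maximalIdeal (MvPowerSeries σ 𝒪))) A := by rw [heq]; infer_instance
  refine surjective_of_mk_map_comp_surjective (I := maximalIdeal (MvPowerSeries σ 𝒪))
    (φ : MvPowerSeries σ 𝒪 →+* A) ?_
  rw [heq]
  intro y
  obtain ⟨c, hc⟩ := hres y
  refine ⟨C c, ?_⟩
  rw [← hc]
  change Ideal.Quotient.mk _ (φ (C c)) = _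
  rw [algHom_C]
  rfl

end LocalHom

end Fermat.Agent.S53.PSC
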