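import Mathlib
import Fermat.Prelude.Thm_IsLocalRing_isAdicComplete_of_module_finite
import Fermat.Agent.S53.PowerSeriesEval

/-!
# S53: commutative algebra lemmas for the abstract pro-representability lemma

Owner: helper293.
-/

set_option autoImplicit false

namespace Fermat.Agent.S53.ProRepAlg

open IsLocalRing

section ML

variable {P : Type*} [CommRing P]

/-- Mittag-Leffler type lemma: a decreasing chain of open ideals `K n ⊇ m ^ n` in an `m`-adically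
precomplete ring with `K n = K (n+1) + m ^ n` satisfies `K n = (⨅ j, K j) + m ^ n`. -/
theorem eq_iInf_sup_pow (m : Ideal P) [IsPrecomplete m P] (K : ℕ → Ideal P)
    (h1 : ∀ n, m ^ n ≤ K n) (h2 : ∀ n, K (n + 1) ≤ K n)
    (h3 : ∀ n, K n ≤ K (n + 1) ⊔ m ^ n) (n : ℕ) :
    K n = (⨅ j, K j) ⊔ m ^ n := by
  have hanti : Antitone K := antitone_nat_of_succ_le h2
  apply le_antisymm
  · intro x hx
    -- build the sequence
    have step : ∀ (j : ℕ) (y : {y : P // y ∈ K (n + j)}),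
        ∃ y' : {y : P // y ∈ K (n + (j + 1))}, (y : P) - y' ∈ m ^ (n + j) := by
      rintro j ⟨y, hy⟩
      obtain ⟨a, ha, b, hb, hab⟩ := Submodule.mem_sup.mp (h3 (n + j) hy)
      exact ⟨⟨a, ha⟩, by simpa [← hab] using hb⟩
    choose nxt hnxt using step
    let y : (j : ℕ) → {y : P // y ∈ K (n + j)} := fun j =>
      Nat.rec (motive := fun j => {y : P // y ∈ K (n + j)}) ⟨x, hx⟩ (fun j yj => nxt j yj) j
    have hy0 : (y 0 : P) = x := rfl
    have hys : ∀ j, (y j : P) - y (j + 1) ∈ m ^ (n + j) := fun j => hnxt j (y j)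
    have hyx : ∀ j, (y j : P) - x ∈ m ^ n := by
      intro j
      induction j with
      | zero => simp [hy0]
      | succ j ih =>
        have h4 : (y (j + 1) : P) - x = ((y j : P) - x) - ((y j : P) - y (j + 1)) := by ring
        rw [h4]
        exact Ideal.sub_mem _ ih (Ideal.pow_le_pow_right (Nat.le_add_right n j) (hys j))
    have hcauchy : AdicCompletion.IsAdicCauchy m P (fun j => (y j : P)) := by
      rw [AdicCompletion.isAdicCauchy_iff]
      intro j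
      rw [SModEq.sub_mem, smul_eq_mul, Ideal.mul_top]
      exact Ideal.pow_le_pow_right (Nat.le_add_left j n) (hys j)
    obtain ⟨L, hL⟩ := IsPrecomplete.prec ‹_› hcauchy
    have hL' : ∀ j, (y j : P) - L ∈ m ^ j := by
      intro j
      have := hL j
      rwa [SModEq.sub_mem, smul_eq_mul, Ideal.mul_top] at this
    have hLK : L ∈ ⨅ j, K j := by
      rw [Ideal.mem_iInf]
      intro j
      have h5 : L = (y j : P) - ((y j : P) - L) := by ring
      rw [h5]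
      exact Ideal.sub_mem _ (hanti (Nat.le_add_left j n) (y j).2) (h1 j (hL' j))
    have h6 : x = L + (((y n : P) - L) - ((y n : P) - x)) := by ring
    rw [h6]
    exact Ideal.add_mem _ (Ideal.mem_sup_left hLK)
      (Ideal.mem_sup_right (Ideal.sub_mem _ (hL' n) (hyx n)))
  · exact sup_le (iInf_le K n) (h1 n)

theorem le_iInf_sup_pow (m : Ideal P) [IsPrecomplete m P] (K : ℕ → Ideal P)
    (h1 : ∀ n, m ^ n ≤ K n) (h2 : ∀ n, K (n + 1) ≤ K n)
    (h3 : ∀ n, K n ≤ K (n + 1) ⊔ m ^ n) (n : ℕ) :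
    K n ≤ (⨅ i, K i) ⊔ m ^ n :=
  (eq_iInf_sup_pow m K h1 h2 h3 n).le

/-- Compatible families modulo `K n` come from an element. -/
theorem exists_limit (m : Ideal P) [IsPrecomplete m P] (K : ℕ → Ideal P)
    (h1 : ∀ n, m ^ n ≤ K n) (h3 : ∀ n, K n ≤ K (n + 1) ⊔ m ^ n) (p : ℕ → P)
    (hp : ∀ n, p (n + 1) - p n ∈ K n) : ∃ q, ∀ n, q - p n ∈ K n := by
  have step : ∀ (n : ℕ) (y : {y : P // y - p n ∈ K n}),
      ∃ y' : {y : P // y - p (n + 1) ∈ K (n + 1)}, (y : P) - y' ∈ m ^ n := by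
    rintro n ⟨y, hy⟩
    have h4 : y - p (n + 1) ∈ K n := by
      have : y - p (n + 1) = (y - p n) - (p (n + 1) - p n) := by ring
      rw [this]
      exact Ideal.sub_mem _ hy (hp n)
    obtain ⟨a, ha, b, hb, hab⟩ := Submodule.mem_sup.mp (h3 n h4)
    refine ⟨⟨y - b, ?_⟩, by simpa using hb⟩
    have : y - b - p (n + 1) = a := by linear_combination -hab
    rw [this]
    exact ha
  choose nxt hnxt using step
  let y : (j : ℕ) → {y : P // y - p j ∈ K j} := fun j =>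
    Nat.rec (motive := fun j => {y : P // y - p j ∈ K j}) ⟨p 0, by simp⟩
      (fun j yj => nxt j yj) j
  have hys : ∀ j, (y j).1 - (y (j + 1)).1 ∈ m ^ j := fun j => hnxt j (y j)
  have hcauchy : AdicCompletion.IsAdicCauchy m P (fun j => (y j).1) := by
    rw [AdicCompletion.isAdicCauchy_iff]
    intro j
    rw [SModEq.sub_mem, smul_eq_mul, Ideal.mul_top]
    exact hys j
  obtain ⟨L, hL⟩ := IsPrecomplete.prec ‹_› hcauchy
  refine ⟨L, fun n => ?_⟩
  have h5 := hL n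
  rw [SModEq.sub_mem, smul_eq_mul, Ideal.mul_top] at h5
  have h6 : L - p n = ((y n).1 - p n) - ((y n).1 - L) := by ring
  rw [h6]
  exact Ideal.sub_mem _ (y n).2 (h1 n h5)

/-- A nonempty family of ideals, closed under binary intersection, all containing an ideal
with Artinian quotient, has a least element. -/
theorem exists_least_ideal (𝔞 : Ideal P) [IsArtinianRing (P ⧸ 𝔞)] (𝓕 : Set (Ideal P))
    (hne : 𝓕.Nonempty) (hinf : ∀ I ∈ 𝓕, ∀ J ∈ 𝓕, I ⊓ J ∈ 𝓕) (hle : ∀ I ∈ 𝓕, 𝔞 ≤ I) :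
    ∃ I ∈ 𝓕, ∀ J ∈ 𝓕, I ≤ J := by
  have hcm : ∀ I : Ideal P, 𝔞 ≤ I →
      Ideal.comap (Ideal.Quotient.mk 𝔞) (Ideal.map (Ideal.Quotient.mk 𝔞) I) = I := by
    intro I hI
    rw [Ideal.comap_map_of_surjective _ Ideal.Quotient.mk_surjective, ← RingHom.ker_eq_comap_bot,
      Ideal.mk_ker, sup_eq_left]
    exact hI
  obtain ⟨_, ⟨I, hI, rfl⟩, hmin⟩ := IsArtinian.set_has_minimal
    (R := P ⧸ 𝔞) (M := P ⧸ 𝔞) ((Ideal.map (Ideal.Quotient.mk 𝔞)) '' 𝓕) (hne.image _)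
  refine ⟨I, hI, fun J hJ => ?_⟩
  have h1 : ¬ Ideal.map (Ideal.Quotient.mk 𝔞) (I ⊓ J) < Ideal.map (Ideal.Quotient.mk 𝔞) I :=
    hmin _ ⟨I ⊓ J, hinf I hI J hJ, rfl⟩
  have h2 : Ideal.map (Ideal.Quotient.mk 𝔞) (I ⊓ J) = Ideal.map (Ideal.Quotient.mk 𝔞) I :=
    eq_of_le_of_not_lt (Ideal.map_mono inf_le_left) h1
  have h3 := congrArg (Ideal.comap (Ideal.Quotient.mk 𝔞)) h2
  rw [hcm _ (hle _ (hinf I hI J hJ)), hcm _ (hle _ hI)] at h3
  exact inf_eq_left.mp h3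

end ML


section Quot

variable {P : Type*} [CommRing P] [IsLocalRing P] (K : Ideal P)

theorem isLocalRing_quot (hK : K ≠ ⊤) : IsLocalRing (P ⧸ K) :=
  have : Nontrivial (P ⧸ K) := Ideal.Quotient.nontrivial_iff.2 hK
  IsLocalRing.of_surjective' (Ideal.Quotient.mk K) Ideal.Quotient.mk_surjective

variable [IsLocalRing (P ⧸ K)]

theorem isLocalHom_mk : IsLocalHom (Ideal.Quotient.mk K) :=
  IsLocalHom.of_surjective _ Ideal.Quotient.mk_surjective

theorem mk_mem_maximalIdeal_iff (x : P) :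
    Ideal.Quotient.mk K x ∈ maximalIdeal (P ⧸ K) ↔ x ∈ maximalIdeal P := by
  have := isLocalHom_mk K
  rw [mem_maximalIdeal, mem_maximalIdeal, mem_nonunits_iff, mem_nonunits_iff,
    isUnit_map_iff]

theorem maximalIdeal_quot_eq :
    maximalIdeal (P ⧸ K) = Ideal.map (Ideal.Quotient.mk K) (maximalIdeal P) := by
  apply le_antisymm
  · intro y hy
    obtain ⟨x, rfl⟩ := Ideal.Quotient.mk_surjective y
    exact Ideal.mem_map_of_mem _ ((mk_mem_maximalIdeal_iff K x).mp hy)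
  · rw [Ideal.map_le_iff_le_comap]
    intro x hx
    exact (mk_mem_maximalIdeal_iff K x).mpr hx

theorem maximalIdeal_quot_pow_eq (n : ℕ) :
    maximalIdeal (P ⧸ K) ^ n = Ideal.map (Ideal.Quotient.mk K) (maximalIdeal P ^ n) := by
  rw [maximalIdeal_quot_eq, Ideal.map_pow]

theorem comap_maximalIdeal_quot_pow (n : ℕ) :
    Ideal.comap (Ideal.Quotient.mk K) (maximalIdeal (P ⧸ K) ^ n) = maximalIdeal P ^ n ⊔ K := by
  rw [maximalIdeal_quot_pow_eq, Ideal.comap_map_of_surjective _ Ideal.Quotient.mk_surjective,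
    ← RingHom.ker_eq_comap_bot, Ideal.mk_ker]

theorem mk_mem_maximalIdeal_pow_iff (n : ℕ) (x : P) :
    Ideal.Quotient.mk K x ∈ maximalIdeal (P ⧸ K) ^ n ↔ x ∈ maximalIdeal P ^ n ⊔ K := by
  rw [← comap_maximalIdeal_quot_pow, Ideal.mem_comap]

theorem isAdicComplete_quot [IsNoetherianRing P] [IsAdicComplete (maximalIdeal P) P] :
    IsAdicComplete (maximalIdeal (P ⧸ K)) (P ⧸ K) := by
  have : IsLocalHom (algebraMap P (P ⧸ K)) := isLocalHom_mk K
  exact IsLocalRing.isAdicComplete_of_module_finite (𝒪 := P) (T := P ⧸ K)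

variable {𝒪 : Type*} [CommRing 𝒪] [Algebra 𝒪 P]

theorem isLocalHom_algebraMap_quot [IsLocalHom (algebraMap 𝒪 P)] :
    IsLocalHom (algebraMap 𝒪 (P ⧸ K)) := by
  have := isLocalHom_mk K
  have h : algebraMap 𝒪 (P ⧸ K) = (Ideal.Quotient.mk K).comp (algebraMap 𝒪 P) := rfl
  rw [h]
  exact RingHom.isLocalHom_comp _ _

theorem residue_surjective_quot
    (h : Function.Surjective (residue P ∘ algebraMap 𝒪 P)) :
    Function.Surjective (residue (P ⧸ K) ∘ algebraMap 𝒪 (P ⧸ K)) := by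
  intro y
  obtain ⟨y, rfl⟩ := residue_surjective y
  obtain ⟨x, rfl⟩ := Ideal.Quotient.mk_surjective y
  obtain ⟨c, hc⟩ := h (residue P x)
  refine ⟨c, ?_⟩
  simp only [Function.comp_apply] at hc ⊢
  rw [← sub_eq_zero, ← map_sub, residue_eq_zero_iff] at hc ⊢
  have h2 : algebraMap 𝒪 (P ⧸ K) c - Ideal.Quotient.mk K x =
      Ideal.Quotient.mk K (algebraMap 𝒪 P c - x) := by
    rw [map_sub]; rfl
  rw [h2, mk_mem_maximalIdeal_iff]
  exact hc

end Quot

section PS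

variable {𝒪 : Type*} [CommRing 𝒪] [IsLocalRing 𝒪] {σ : Type*}

omit [IsLocalRing 𝒪] in
theorem isLocalHom_algebraMap_ps : IsLocalHom (algebraMap 𝒪 (MvPowerSeries σ 𝒪)) := by
  refine ⟨fun a ha => ?_⟩
  rw [← MvPowerSeries.c_eq_algebraMap, MvPowerSeries.isUnit_iff_constantCoeff,
    MvPowerSeries.constantCoeff_C] at ha
  exact ha

theorem residue_surjective_ps :
    Function.Surjective (residue (MvPowerSeries σ 𝒪) ∘ algebraMap 𝒪 (MvPowerSeries σ 𝒪)) := by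
  intro y
  obtain ⟨f, rfl⟩ := residue_surjective y
  refine ⟨MvPowerSeries.constantCoeff f, ?_⟩
  simp only [Function.comp_apply]
  rw [← sub_eq_zero, ← map_sub, residue_eq_zero_iff, mem_maximalIdeal, mem_nonunits_iff,
    MvPowerSeries.isUnit_iff_constantCoeff, ← MvPowerSeries.c_eq_algebraMap, map_sub,
    MvPowerSeries.constantCoeff_C, sub_self]
  exact not_isUnit_zero

theorem finite_quot_pow_ps [Finite σ] [IsNoetherianRing 𝒪] [Finite (ResidueField 𝒪)] (n : ℕ) :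
    Finite (MvPowerSeries σ 𝒪 ⧸ maximalIdeal (MvPowerSeries σ 𝒪) ^ n) := by
  have := isLocalHom_algebraMap_ps (σ := σ) (𝒪 := 𝒪)
  have : Finite (ResidueField (MvPowerSeries σ 𝒪)) := by
    refine Finite.of_surjective (ResidueField.map (algebraMap 𝒪 (MvPowerSeries σ 𝒪))) ?_
    intro y
    obtain ⟨c, hc⟩ := residue_surjective_ps (σ := σ) (𝒪 := 𝒪) y
    exact ⟨residue 𝒪 c, by rw [ResidueField.map_residue]; exact hc⟩
  have : Finite (MvPowerSeries σ 𝒪 ⧸ maximalIdeal (MvPowerSeries σ 𝒪)) := this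
  exact Ideal.finite_quotient_pow (IsNoetherian.noetherian _) n

end PS


section Requested

theorem cnl_quotient {𝒪 : Type} [CommRing 𝒪] [IsDomain 𝒪] [IsDiscreteValuationRing 𝒪]
    [IsAdicComplete (maximalIdeal 𝒪) 𝒪] {d : ℕ} (K : Ideal (MvPowerSeries (Fin d) 𝒪))
    (hK : K ≠ ⊤) :
    ∃ (_ : IsLocalRing (MvPowerSeries (Fin d) 𝒪 ⧸ K)),
      IsNoetherianRing (MvPowerSeries (Fin d) 𝒪 ⧸ K) ∧
      IsAdicComplete (maximalIdeal (MvPowerSeries (Fin d) 𝒪 ⧸ K))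
        (MvPowerSeries (Fin d) 𝒪 ⧸ K) ∧
      IsLocalHom (algebraMap 𝒪 (MvPowerSeries (Fin d) 𝒪 ⧸ K)) ∧
      Function.Surjective (residue (MvPowerSeries (Fin d) 𝒪 ⧸ K) ∘
        algebraMap 𝒪 (MvPowerSeries (Fin d) 𝒪 ⧸ K)) := by
  have hloc := isLocalRing_quot K hK
  have := PSC.isAdicComplete (σ := Fin d) (𝒪 := 𝒪)
  have := isLocalHom_algebraMap_ps (σ := Fin d) (𝒪 := 𝒪)
  exact ⟨hloc, inferInstance, isAdicComplete_quot K, isLocalHom_algebraMap_quot K,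
    residue_surjective_quot K residue_surjective_ps⟩

theorem finite_quotient_pow {𝒪 : Type} [CommRing 𝒪] [IsLocalRing 𝒪] [IsNoetherianRing 𝒪]
    [Finite (ResidueField 𝒪)] (d n : ℕ) :
    Finite (MvPowerSeries (Fin d) 𝒪 ⧸ maximalIdeal (MvPowerSeries (Fin d) 𝒪) ^ n) :=
  finite_quot_pow_ps n

section Square

variable {𝒪 F : Type*} [CommRing 𝒪] [CommRing F] [Algebra 𝒪 F] (J₁ J₂ : Ideal F)

theorem factor_square :
    (Ideal.Quotient.factorₐ 𝒪 (le_sup_left : J₁ ≤ J₁ ⊔ J₂)).comp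
        (Ideal.Quotient.factorₐ 𝒪 (inf_le_left : J₁ ⊓ J₂ ≤ J₁)) =
      (Ideal.Quotient.factorₐ 𝒪 (le_sup_right : J₂ ≤ J₁ ⊔ J₂)).comp
        (Ideal.Quotient.factorₐ 𝒪 (inf_le_right : J₁ ⊓ J₂ ≤ J₂)) := by
  ext x
  obtain ⟨x, rfl⟩ := Ideal.Quotient.mk_surjective x
  simp

theorem factor_injective :
    Function.Injective (fun x : F ⧸ (J₁ ⊓ J₂) =>
      (Ideal.Quotient.factorₐ 𝒪 (inf_le_left : J₁ ⊓ J₂ ≤ J₁) x,
        Ideal.Quotient.factorₐ 𝒪 (inf_le_right : J₁ ⊓ J₂ ≤ J₂) x)) := by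
  intro x y hxy
  obtain ⟨x, rfl⟩ := Ideal.Quotient.mk_surjective x
  obtain ⟨y, rfl⟩ := Ideal.Quotient.mk_surjective y
  simp only [Ideal.Quotient.factorₐ_apply_mk, Prod.mk.injEq, Ideal.Quotient.eq] at hxy
  rw [Ideal.Quotient.eq]
  exact ⟨hxy.1, hxy.2⟩

theorem factor_exists (a : F ⧸ J₁) (b : F ⧸ J₂)
    (h : Ideal.Quotient.factorₐ 𝒪 (le_sup_left : J₁ ≤ J₁ ⊔ J₂) a =
      Ideal.Quotient.factorₐ 𝒪 (le_sup_right : J₂ ≤ J₁ ⊔ J₂) b) :
    ∃ x : F ⧸ (J₁ ⊓ J₂), Ideal.Quotient.factorₐ 𝒪 (inf_le_left : J₁ ⊓ J₂ ≤ J₁) x = a ∧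
      Ideal.Quotient.factorₐ 𝒪 (inf_le_right : J₁ ⊓ J₂ ≤ J₂) x = b := by
  obtain ⟨a, rfl⟩ := Ideal.Quotient.mk_surjective a
  obtain ⟨b, rfl⟩ := Ideal.Quotient.mk_surjective b
  simp only [Ideal.Quotient.factorₐ_apply_mk, Ideal.Quotient.eq] at h
  obtain ⟨u, hu, v, hv, huv⟩ := Submodule.mem_sup.mp h
  refine ⟨Ideal.Quotient.mk _ (a - u), ?_, ?_⟩
  · simp only [Ideal.Quotient.factorₐ_apply_mk, Ideal.Quotient.eq]
    simpa using J₁.neg_mem hu
  · simp only [Ideal.Quotient.factorₐ_apply_mk, Ideal.Quotient.eq]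
    have : a - u - b = v := by linear_combination -huv
    rw [this]
    exact hv

end Square

theorem exists_separating {X D : Type} (T : Set (X → D)) (hT : T.Finite) :
    ∃ (d : ℕ) (ξ : Fin d → X), ∀ t ∈ T, ∀ t' ∈ T, (∀ i, t (ξ i) = t' (ξ i)) → t = t' := by
  classical
  have := hT.to_subtype
  let ι := {p : T × T // (p.1 : X → D) ≠ p.2}
  have hι : Finite ι := inferInstance
  have hch : ∀ p : ι, ∃ x : X, (p.1.1 : X → D) x ≠ (p.1.2 : X → D) x :=
    fun p => Function.ne_iff.mp p.2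
  choose ξ₀ hξ₀ using hch
  obtain ⟨d, ⟨e⟩⟩ := Finite.exists_equiv_fin ι
  refine ⟨d, fun i => ξ₀ (e.symm i), fun t ht t' ht' h => ?_⟩
  by_contra hne
  have := h (e ⟨(⟨t, ht⟩, ⟨t', ht'⟩), hne⟩)
  simp only [Equiv.symm_apply_apply] at this
  exact hξ₀ ⟨(⟨t, ht⟩, ⟨t', ht'⟩), hne⟩ this

end Requested

end Fermat.Agent.S53.ProRepAlg
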