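import Fermat.Agent.S53.ProRepSpec
import Fermat.Agent.S53.Tangent
import Fermat.Agent.S53.Artin
import Fermat.Agent.S53.PSEval
import Fermat.Agent.S53.PSComplete
import Fermat.Agent.S53.ProRepAlg

/-!
# S53: abstract pro-representability, second route, part a
(uniform generation, range lemma, uniqueness of families with given coordinates)

Owner: helper293.
-/

set_option autoImplicit false

namespace Fermat.Agent.S53.PR2

open IsLocalRing GaloisRep

variable {𝒪 : Type} [CommRing 𝒪] [IsLocalRing 𝒪]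
variable {X : Type}
  {S : ∀ ⦃A : Type⦄ [CommRing A] [IsLocalRing A] [Algebra 𝒪 A], (X → A) → Prop} {c : X → 𝒪}

/-- `ξ` separates the tangent set. -/
def Sep (S : ∀ ⦃A : Type⦄ [CommRing A] [IsLocalRing A] [Algebra 𝒪 A], (X → A) → Prop)
    {d : ℕ} (ξ : Fin d → X) : Prop :=
  ∀ t t' : X → Dk 𝒪, S t → S t' → (∀ i, t (ξ i) = t' (ξ i)) → t = t'

theorem exists_sep (h : ProRepHyp 𝒪 X S c) : ∃ (d : ℕ) (ξ : Fin d → X), Sep S ξ := by
  have hfin : {f : X → Dk 𝒪 | S f}.Finite := Set.finite_coe_iff.mp h.tan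
  obtain ⟨d, ξ, hξ⟩ := ProRepAlg.exists_separating _ hfin
  exact ⟨d, ξ, fun t t' ht ht' => hξ t ht t' ht'⟩

variable {d : ℕ} {ξ : Fin d → X}
variable {A : Type} [CommRing A] [IsLocalRing A] [Algebra 𝒪 A]

/-- Uniform generation: the entries at the separating coordinates generate everything. -/
theorem adjoin_le [Finite (ResidueField 𝒪)] (h : ProRepHyp 𝒪 X S c) (hξ : Sep S ξ)
    (hA : IsArtinianTestAlgebra 𝒪 A) {f : X → A} (hf : S f) :
    Algebra.adjoin 𝒪 (Set.range f) ≤ Algebra.adjoin 𝒪 (Set.range (f ∘ ξ)) := by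
  set E : Subalgebra 𝒪 A := Algebra.adjoin 𝒪 (Set.range f) with hEdef
  obtain ⟨hEloc, hE⟩ := subalgebra_test hA E
  let fE : X → E := fun x => ⟨f x, Algebra.subset_adjoin ⟨x, rfl⟩⟩
  have hfE : S fE := h.inj hE hA E.val Subtype.val_injective (f := fE) hf
  set B : Subalgebra 𝒪 E := Algebra.adjoin 𝒪 (Set.range (fE ∘ ξ)) with hBdef
  have hB : B = ⊤ := by
    by_contra hB
    obtain ⟨l₁, l₂, hne, hl⟩ := exists_dual_homs hE B hB
    apply hne
    have h1 : (l₁ ∘ fE) = (l₂ ∘ fE) := by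
      refine hξ _ _ (h.map hE Dk.isArtinianTestAlgebra l₁ hfE)
        (h.map hE Dk.isArtinianTestAlgebra l₂ hfE) fun i => ?_
      exact hl _ (Algebra.subset_adjoin ⟨i, rfl⟩)
    have htop : Algebra.adjoin 𝒪 (Set.range fE) = ⊤ := by
      have h2 := Algebra.adjoin_adjoin_coe_preimage (R := 𝒪) (s := Set.range f)
      rw [← h2]
      congr 1
      ext ⟨y, hy⟩
      constructor
      · rintro ⟨x, hx⟩
        exact ⟨x, congrArg Subtype.val hx⟩
      · rintro ⟨x, hx⟩
        exact ⟨x, Subtype.ext hx⟩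
    refine AlgHom.ext_of_adjoin_eq_top htop ?_
    rintro _ ⟨x, rfl⟩
    exact congrFun h1 x
  intro y hy
  have h3 : (⟨y, hy⟩ : E) ∈ B := by rw [hB]; exact Algebra.mem_top
  have h4 : E.val ⟨y, hy⟩ ∈ B.map E.val := ⟨_, h3, rfl⟩
  rw [hBdef, AlgHom.map_adjoin, ← Set.range_comp] at h4
  exact h4

/-- `θ` is the evaluation map attached to `f` at the coordinates `ξ`. -/
def Compat (c : X → 𝒪) (ξ : Fin d → X) (f : X → A) (θ : MvPowerSeries (Fin d) 𝒪 →ₐ[𝒪] A) : Prop :=
  ∀ i, θ (MvPowerSeries.X i) = f (ξ i) - algebraMap 𝒪 A (c (ξ i))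

theorem mem_range [Finite (ResidueField 𝒪)] (h : ProRepHyp 𝒪 X S c) (hξ : Sep S ξ)
    (hA : IsArtinianTestAlgebra 𝒪 A) {f : X → A} (hf : S f)
    {θ : MvPowerSeries (Fin d) 𝒪 →ₐ[𝒪] A} (hθ : Compat c ξ f θ) (x : X) : f x ∈ θ.range := by
  have h1 : Algebra.adjoin 𝒪 (Set.range (f ∘ ξ)) ≤ θ.range := by
    rw [Algebra.adjoin_le_iff]
    rintro _ ⟨i, rfl⟩
    have : (f ∘ ξ) i = θ (MvPowerSeries.X i) + algebraMap 𝒪 A (c (ξ i)) := by
      rw [hθ i]; simp
    rw [this]
    exact θ.range.add_mem ⟨_, rfl⟩ (θ.range.algebraMap_mem _)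
  exact h1 (adjoin_le h hξ hA hf (Algebra.subset_adjoin ⟨x, rfl⟩))

omit [IsLocalRing 𝒪] in
theorem exists_compat [IsAdicComplete (maximalIdeal A) A] (c : X → 𝒪) (ξ : Fin d → X) (f : X → A)
    (hf : ∀ x, f x - algebraMap 𝒪 A (c x) ∈ maximalIdeal A) :
    ∃ θ : MvPowerSeries (Fin d) 𝒪 →ₐ[𝒪] A, Compat c ξ f θ :=
  exists_eval (fun i => f (ξ i) - algebraMap 𝒪 A (c (ξ i))) fun i => hf (ξ i)

theorem algHom_residue_eq_zero (hA : IsArtinianTestAlgebra 𝒪 A) (e : A →ₐ[𝒪] ResidueField 𝒪)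
    {a : A} (ha : a ∈ maximalIdeal A) : e a = 0 := by
  have := hA.isArtinian
  exact ((isNilpotent_of_mem_maximalIdeal ha).map e).eq_zero

/-- Families of type `S` are determined by their values at the separating coordinates. -/
theorem unique [Finite (ResidueField 𝒪)] (h : ProRepHyp 𝒪 X S c) (hξ : Sep S ξ)
    (hA : IsArtinianTestAlgebra 𝒪 A) {f f' : X → A} (hf : S f) (hf' : S f')
    (heq : ∀ i, f (ξ i) = f' (ξ i)) : f = f' := by
  obtain ⟨Pr, _, _, _, pA, pB, eA, eB, hPr, hsq, hinj, hex⟩ := exists_fibreProduct hA hA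
  have := hA.isArtinian
  have := hPr.isArtinian
  have hres : ∀ x, eA (f x) = eB (f' x) := by
    intro x
    have h1 := algHom_residue_eq_zero hA eA (h.res hA hf x)
    have h2 := algHom_residue_eq_zero hA eB (h.res hA hf' x)
    rw [map_sub, AlgHom.commutes, sub_eq_zero] at h1 h2
    rw [h1, h2]
  choose hh hh1 hh2 using fun x => hex (f x) (f' x) (hres x)
  have hShh : S hh := by
    refine h.fib hA hA residueField_test hPr eA eB pA pB hsq hinj hex (h := hh) ?_ ?_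
    · have : (pA ∘ hh) = f := funext hh1
      rw [this]; exact hf
    · have : (pB ∘ hh) = f' := funext hh2
      rw [this]; exact hf'
  obtain ⟨θ, hθ⟩ := exists_compat c ξ hh (h.res hPr hShh)
  have hAB : pA.comp θ = pB.comp θ := by
    refine eval_ext _ _ (fun l => ?_) (fun l => ?_)
    · rw [AlgHom.comp_apply, hθ l, map_sub, AlgHom.commutes, hh1]
      exact h.res hA hf _
    · rw [AlgHom.comp_apply, AlgHom.comp_apply, hθ l, map_sub, map_sub, AlgHom.commutes,
        AlgHom.commutes, hh1, hh2, heq]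
  funext x
  obtain ⟨lam, hlam⟩ := mem_range h hξ hPr hShh hθ x
  have h3 := congrArg (fun ψ => ψ lam) hAB
  simp only [AlgHom.comp_apply] at h3
  have hlam' : θ lam = hh x := hlam
  rw [hlam', hh1, hh2] at h3
  exact h3

end Fermat.Agent.S53.PR2
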