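import Fermat.Agent.S53.PR2a

/-!
# S53: abstract pro-representability, second route, part b (good ideals of the power series ring)

Owner: helper293.
-/

set_option autoImplicit false

namespace Fermat.Agent.S53.PR2

open IsLocalRing GaloisRep

/-- The power series ring. -/
abbrev PS (d : ℕ) (𝒪 : Type) [CommRing 𝒪] : Type := MvPowerSeries (Fin d) 𝒪

variable {𝒪 : Type} [CommRing 𝒪] [IsDomain 𝒪] [IsDiscreteValuationRing 𝒪]
  [IsAdicComplete (maximalIdeal 𝒪) 𝒪] [Finite (ResidueField 𝒪)]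
variable {X : Type}
  {S : ∀ ⦃A : Type⦄ [CommRing A] [IsLocalRing A] [Algebra 𝒪 A], (X → A) → Prop} {c : X → 𝒪}
variable {d : ℕ} {ξ : Fin d → X}

theorem quot_test (K : Ideal (PS d 𝒪)) (hK : K ≠ ⊤) {n : ℕ}
    (hn : maximalIdeal (PS d 𝒪) ^ n ≤ K) :
    ∃ _ : IsLocalRing (PS d 𝒪 ⧸ K), IsArtinianTestAlgebra 𝒪 (PS d 𝒪 ⧸ K) := by
  obtain ⟨hl, _, _, hloc, hres⟩ := ProRepAlg.cnl_quotient K hK
  have := ProRepAlg.finite_quotient_pow (𝒪 := 𝒪) d n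
  have : Finite (PS d 𝒪 ⧸ K) :=
    Finite.of_surjective (Ideal.Quotient.factor hn) (Ideal.Quotient.factor_surjective hn)
  exact ⟨hl, ⟨hloc, hres, inferInstance⟩⟩

/-- Good ideals: the quotient carries a family of type `S` with the tautological coordinates. -/
def Good (S : ∀ ⦃A : Type⦄ [CommRing A] [IsLocalRing A] [Algebra 𝒪 A], (X → A) → Prop)
    (c : X → 𝒪) (ξ : Fin d → X) (K : Ideal (PS d 𝒪)) : Prop :=
  ∃ (_ : IsLocalRing (PS d 𝒪 ⧸ K)) (g : X → PS d 𝒪 ⧸ K),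
    IsArtinianTestAlgebra 𝒪 (PS d 𝒪 ⧸ K) ∧ S g ∧ Compat c ξ g (Ideal.Quotient.mkₐ 𝒪 K)

omit [IsDomain 𝒪] [IsDiscreteValuationRing 𝒪] [IsAdicComplete (maximalIdeal 𝒪) 𝒪]
  [Finite (ResidueField 𝒪)] in
theorem Good.ne_top [IsLocalRing 𝒪] {K : Ideal (PS d 𝒪)} (hK : Good S c ξ K) : K ≠ ⊤ := by
  obtain ⟨hl, _⟩ := hK
  exact Ideal.Quotient.nontrivial_iff.mp hl.toNontrivial

omit [IsDomain 𝒪] [IsDiscreteValuationRing 𝒪] [IsAdicComplete (maximalIdeal 𝒪) 𝒪]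
  [Finite (ResidueField 𝒪)] in
theorem Good.le_max [IsLocalRing 𝒪] {K : Ideal (PS d 𝒪)} (hK : Good S c ξ K) :
    K ≤ maximalIdeal (PS d 𝒪) :=
  le_maximalIdeal hK.ne_top

omit [IsDomain 𝒪] [IsDiscreteValuationRing 𝒪] [IsAdicComplete (maximalIdeal 𝒪) 𝒪]
  [Finite (ResidueField 𝒪)] in
theorem Good.exists_pow_le [IsLocalRing 𝒪] {K : Ideal (PS d 𝒪)} (hK : Good S c ξ K) :
    ∃ n, maximalIdeal (PS d 𝒪) ^ n ≤ K := by
  obtain ⟨hl, g, ht, _⟩ := hK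
  have := ht.isArtinian
  obtain ⟨n, hn⟩ := (isArtinianRing_iff_isNilpotent_maximalIdeal (PS d 𝒪 ⧸ K)).1 inferInstance
  refine ⟨n, fun x hx => ?_⟩
  have h1 : Ideal.Quotient.mk K x ∈ maximalIdeal (PS d 𝒪 ⧸ K) ^ n := by
    rw [ProRepAlg.mk_mem_maximalIdeal_pow_iff]
    exact Ideal.mem_sup_left hx
  rw [hn] at h1
  exact Ideal.Quotient.eq_zero_iff_mem.mp h1

/-- A point gives a good ideal. -/
theorem good_of_point (h : ProRepHyp 𝒪 X S c) (hξ : Sep S ξ)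
    {A : Type} [CommRing A] [IsLocalRing A] [Algebra 𝒪 A]
    (hA : IsArtinianTestAlgebra 𝒪 A) {f : X → A} (hf : S f)
    {θ : PS d 𝒪 →ₐ[𝒪] A} (hθ : Compat c ξ f θ) :
    ∃ (_ : IsLocalRing (PS d 𝒪 ⧸ RingHom.ker θ)) (g : X → PS d 𝒪 ⧸ RingHom.ker θ),
      IsArtinianTestAlgebra 𝒪 (PS d 𝒪 ⧸ RingHom.ker θ) ∧ S g ∧
      Compat c ξ g (Ideal.Quotient.mkₐ 𝒪 (RingHom.ker θ)) ∧
      ∀ x, Ideal.kerLiftAlg θ (g x) = f x := by
  have := hA.isArtinian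
  have := hA.isLocalHom
  have hX : ∀ i, θ (MvPowerSeries.X i) ∈ maximalIdeal A := fun i => by
    rw [hθ i]; exact h.res hA hf _
  obtain ⟨n, hn⟩ := (isArtinianRing_iff_isNilpotent_maximalIdeal A).1 inferInstance
  have hpow : maximalIdeal (PS d 𝒪) ^ n ≤ RingHom.ker θ := by
    intro x hx
    have h1 := PSC.algHom_map_pow_le θ hX n hx
    rw [hn] at h1
    exact h1
  obtain ⟨hl, ht⟩ := quot_test (RingHom.ker θ) (RingHom.ker_ne_top _) hpow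
  choose lam hlam using fun x => mem_range h hξ hA hf hθ x
  have hlam' : ∀ x, θ (lam x) = f x := hlam
  let g : X → PS d 𝒪 ⧸ RingHom.ker θ := fun x => Ideal.Quotient.mk _ (lam x)
  have hg : ∀ x, Ideal.kerLiftAlg θ (g x) = f x := fun x => by
    rw [← hlam' x]; exact Ideal.kerLiftAlg_mk θ (lam x)
  refine ⟨hl, g, ht, ?_, ?_, hg⟩
  · refine h.inj ht hA (Ideal.kerLiftAlg θ) (Ideal.kerLiftAlg_injective θ) (f := g) ?_
    have : (Ideal.kerLiftAlg θ ∘ g) = f := funext hg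
    rw [this]; exact hf
  · intro i
    apply Ideal.kerLiftAlg_injective θ
    rw [map_sub, hg, AlgHom.commutes, ← hθ i]
    exact Ideal.kerLiftAlg_mk θ _

theorem good_ker (h : ProRepHyp 𝒪 X S c) (hξ : Sep S ξ)
    {A : Type} [CommRing A] [IsLocalRing A] [Algebra 𝒪 A]
    (hA : IsArtinianTestAlgebra 𝒪 A) {f : X → A} (hf : S f)
    {θ : PS d 𝒪 →ₐ[𝒪] A} (hθ : Compat c ξ f θ) : Good S c ξ (RingHom.ker θ) := by
  obtain ⟨hl, g, ht, hS, hc, _⟩ := good_of_point h hξ hA hf hθ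
  exact ⟨hl, g, ht, hS, hc⟩

/-- Enlarging a good ideal. -/
theorem good_up (h : ProRepHyp 𝒪 X S c) {K K' : Ideal (PS d 𝒪)} (hK : Good S c ξ K)
    (hle : K ≤ K') (hK' : K' ≠ ⊤) : Good S c ξ K' := by
  obtain ⟨n, hn⟩ := hK.exists_pow_le
  obtain ⟨hl, g, ht, hS, hc⟩ := hK
  obtain ⟨hl', ht'⟩ := quot_test K' hK' (hn.trans hle)
  refine ⟨hl', Ideal.Quotient.factorₐ 𝒪 hle ∘ g, ht', h.map ht ht' _ hS, fun i => ?_⟩
  have h1 := congrArg (Ideal.Quotient.factorₐ 𝒪 hle) (hc i)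
  rw [map_sub, AlgHom.commutes] at h1
  rw [Function.comp_apply, ← h1]
  rfl

/-- The family on a good quotient is unique. -/
theorem good_unique (h : ProRepHyp 𝒪 X S c) (hξ : Sep S ξ) {K : Ideal (PS d 𝒪)}
    [IsLocalRing (PS d 𝒪 ⧸ K)] (ht : IsArtinianTestAlgebra 𝒪 (PS d 𝒪 ⧸ K))
    {g g' : X → PS d 𝒪 ⧸ K} (hS : S g) (hS' : S g')
    (hc : Compat c ξ g (Ideal.Quotient.mkₐ 𝒪 K)) (hc' : Compat c ξ g' (Ideal.Quotient.mkₐ 𝒪 K)) :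
    g = g' := by
  refine unique h hξ ht hS hS' fun i => ?_
  have h1 := hc i
  rw [hc' i] at h1
  exact (sub_left_injective h1).symm

/-- Good ideals are closed under intersection. -/
theorem good_inf (h : ProRepHyp 𝒪 X S c) (hξ : Sep S ξ) {K₁ K₂ : Ideal (PS d 𝒪)}
    (h₁ : Good S c ξ K₁) (h₂ : Good S c ξ K₂) : Good S c ξ (K₁ ⊓ K₂) := by
  have hsup : K₁ ⊔ K₂ ≠ ⊤ := by
    intro htop
    have : (⊤ : Ideal (PS d 𝒪)) ≤ maximalIdeal (PS d 𝒪) := htop ▸ sup_le h₁.le_max h₂.le_max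
    exact (Ideal.IsMaximal.ne_top inferInstance) (top_le_iff.mp this)
  obtain ⟨n₁, hn₁⟩ := h₁.exists_pow_le
  obtain ⟨n₂, hn₂⟩ := h₂.exists_pow_le
  have hinfpow : maximalIdeal (PS d 𝒪) ^ (n₁ + n₂) ≤ K₁ ⊓ K₂ :=
    le_inf ((Ideal.pow_le_pow_right (Nat.le_add_right _ _)).trans hn₁)
      ((Ideal.pow_le_pow_right (Nat.le_add_left _ _)).trans hn₂)
  have hinftop : K₁ ⊓ K₂ ≠ ⊤ := fun htop => h₁.ne_top (top_le_iff.mp (htop ▸ inf_le_left))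
  obtain ⟨hl₃, ht₃⟩ := quot_test (K₁ ⊔ K₂) hsup (hn₁.trans le_sup_left)
  obtain ⟨hl₀, ht₀⟩ := quot_test (K₁ ⊓ K₂) hinftop hinfpow
  obtain ⟨hl₁, g₁, ht₁, hS₁, hc₁⟩ := h₁
  obtain ⟨hl₂, g₂, ht₂, hS₂, hc₂⟩ := h₂
  -- the two families agree on the quotient by the sum
  have hagree : (Ideal.Quotient.factorₐ 𝒪 (le_sup_left : K₁ ≤ K₁ ⊔ K₂)) ∘ g₁ =
      (Ideal.Quotient.factorₐ 𝒪 (le_sup_right : K₂ ≤ K₁ ⊔ K₂)) ∘ g₂ := by
    refine good_unique h hξ ht₃ (h.map ht₁ ht₃ _ hS₁) (h.map ht₂ ht₃ _ hS₂) ?_ ?_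
    · intro i
      have h1 := congrArg (Ideal.Quotient.factorₐ 𝒪 (le_sup_left : K₁ ≤ K₁ ⊔ K₂)) (hc₁ i)
      rw [map_sub, AlgHom.commutes] at h1
      rw [Function.comp_apply, ← h1]
      rfl
    · intro i
      have h1 := congrArg (Ideal.Quotient.factorₐ 𝒪 (le_sup_right : K₂ ≤ K₁ ⊔ K₂)) (hc₂ i)
      rw [map_sub, AlgHom.commutes] at h1
      rw [Function.comp_apply, ← h1]
      rfl
  choose g hg₁ hg₂ using fun x =>
    ProRepAlg.factor_exists (𝒪 := 𝒪) K₁ K₂ (g₁ x) (g₂ x) (congrFun hagree x)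
  refine ⟨hl₀, g, ht₀, ?_, ?_⟩
  · refine h.fib ht₁ ht₂ ht₃ ht₀ _ _ _ _ (ProRepAlg.factor_square (𝒪 := 𝒪) K₁ K₂)
      (ProRepAlg.factor_injective (𝒪 := 𝒪) K₁ K₂)
      (ProRepAlg.factor_exists (𝒪 := 𝒪) K₁ K₂) (h := g) ?_ ?_
    · have : (Ideal.Quotient.factorₐ 𝒪 (inf_le_left : K₁ ⊓ K₂ ≤ K₁)) ∘ g = g₁ := funext hg₁
      rw [this]; exact hS₁
    · have : (Ideal.Quotient.factorₐ 𝒪 (inf_le_right : K₁ ⊓ K₂ ≤ K₂)) ∘ g = g₂ := funext hg₂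
      rw [this]; exact hS₂
  · intro i
    apply ProRepAlg.factor_injective (𝒪 := 𝒪) K₁ K₂
    refine Prod.ext ?_ ?_
    · simp only
      rw [map_sub, hg₁, AlgHom.commutes, ← hc₁ i]
      rfl
    · simp only
      rw [map_sub, hg₂, AlgHom.commutes, ← hc₂ i]
      rfl

/-- There is a good ideal containing the maximal ideal. -/
theorem exists_good_max (h : ProRepHyp 𝒪 X S c) (hξ : Sep S ξ) :
    ∃ K : Ideal (PS d 𝒪), Good S c ξ K ∧ maximalIdeal (PS d 𝒪) ≤ K := by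
  have hk : IsArtinianTestAlgebra 𝒪 (ResidueField 𝒪) := residueField_test
  obtain ⟨θ, hθ⟩ := exists_compat (A := ResidueField 𝒪) c ξ
    (fun x => algebraMap 𝒪 (ResidueField 𝒪) (c x)) (fun x => by simp)
  refine ⟨RingHom.ker θ, good_ker h hξ hk h.base hθ, fun x hx => ?_⟩
  have := hk.isLocalHom
  have hX : ∀ i, θ (MvPowerSeries.X i) ∈ maximalIdeal (ResidueField 𝒪) := fun i => by
    rw [hθ i]; simp
  have h1 := PSC.algHom_mem_maximalIdeal θ hX hx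
  rw [maximalIdeal_eq_bot] at h1
  exact h1

end Fermat.Agent.S53.PR2
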