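import Fermat.Agent.S53.PR2b

/-!
# S53: abstract pro-representability, second route, part c (levels and the limit family)

Owner: helper293.
-/

set_option autoImplicit false

namespace Fermat.Agent.S53.PR2

open IsLocalRing GaloisRep

variable {𝒪 : Type} [CommRing 𝒪] [IsDomain 𝒪] [IsDiscreteValuationRing 𝒪]
  [IsAdicComplete (maximalIdeal 𝒪) 𝒪] [Finite (ResidueField 𝒪)]
variable {X : Type}
  {S : ∀ ⦃A : Type⦄ [CommRing A] [IsLocalRing A] [Algebra 𝒪 A], (X → A) → Prop} {c : X → 𝒪}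
variable {d : ℕ} {ξ : Fin d → X}

/-- The set of ideals competing at level `n`. -/
def levSet (S : ∀ ⦃A : Type⦄ [CommRing A] [IsLocalRing A] [Algebra 𝒪 A], (X → A) → Prop)
    (c : X → 𝒪) (ξ : Fin d → X) (n : ℕ) : Set (Ideal (PS d 𝒪)) :=
  {K | (K = ⊤ ∨ Good S c ξ K) ∧ maximalIdeal (PS d 𝒪) ^ n ≤ K}

/-- The level `n` ideal. -/
noncomputable def lev (S : ∀ ⦃A : Type⦄ [CommRing A] [IsLocalRing A] [Algebra 𝒪 A], (X → A) → Prop)
    (c : X → 𝒪) (ξ : Fin d → X) (n : ℕ) : Ideal (PS d 𝒪) :=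
  sInf (levSet S c ξ n)

theorem lev_mem (h : ProRepHyp 𝒪 X S c) (hξ : Sep S ξ) (n : ℕ) :
    lev S c ξ n ∈ levSet S c ξ n := by
  have := ProRepAlg.finite_quotient_pow (𝒪 := 𝒪) d n
  have hinf : ∀ I ∈ levSet S c ξ n, ∀ J ∈ levSet S c ξ n, I ⊓ J ∈ levSet S c ξ n := by
    rintro I ⟨hI, hIn⟩ J ⟨hJ, hJn⟩
    refine ⟨?_, le_inf hIn hJn⟩
    rcases hI with rfl | hI
    · rw [top_inf_eq]; exact hJ
    · rcases hJ with rfl | hJ
      · rw [inf_top_eq]; exact Or.inr hI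
      · exact Or.inr (good_inf h hξ hI hJ)
  obtain ⟨I, hI, hmin⟩ := ProRepAlg.exists_least_ideal (maximalIdeal (PS d 𝒪) ^ n)
    (levSet S c ξ n) ⟨⊤, Or.inl rfl, le_top⟩ hinf (fun I hI => hI.2)
  have : lev S c ξ n = I := le_antisymm (sInf_le hI) (le_sInf hmin)
  rw [this]; exact hI

omit [IsAdicComplete (maximalIdeal 𝒪) 𝒪] [Finite (ResidueField 𝒪)] in
theorem lev_le {n : ℕ} {K : Ideal (PS d 𝒪)} (hK : K ∈ levSet S c ξ n) :
    lev S c ξ n ≤ K :=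
  sInf_le hK

omit [IsAdicComplete (maximalIdeal 𝒪) 𝒪] [Finite (ResidueField 𝒪)] in
theorem pow_le_lev (n : ℕ) : maximalIdeal (PS d 𝒪) ^ n ≤ lev S c ξ n :=
  le_sInf fun _ hK => hK.2

theorem lev_succ_le (h : ProRepHyp 𝒪 X S c) (hξ : Sep S ξ) (n : ℕ) :
    lev S c ξ (n + 1) ≤ lev S c ξ n :=
  lev_le ⟨(lev_mem h hξ n).1, (Ideal.pow_le_pow_right (Nat.le_succ n)).trans (pow_le_lev n)⟩

theorem lev_le_sup (h : ProRepHyp 𝒪 X S c) (hξ : Sep S ξ) (n : ℕ) :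
    lev S c ξ n ≤ lev S c ξ (n + 1) ⊔ maximalIdeal (PS d 𝒪) ^ n := by
  refine lev_le ⟨?_, le_sup_right⟩
  by_cases htop : lev S c ξ (n + 1) ⊔ maximalIdeal (PS d 𝒪) ^ n = ⊤
  · exact Or.inl htop
  · rcases (lev_mem h hξ (n + 1)).1 with h1 | h1
    · rw [h1, top_sup_eq] at htop
      exact absurd rfl htop
    · exact Or.inr (good_up h h1 le_sup_left htop)

theorem lev_good (h : ProRepHyp 𝒪 X S c) (hξ : Sep S ξ) (n : ℕ) :
    Good S c ξ (lev S c ξ (n + 1)) := by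
  obtain ⟨K, hK, hmK⟩ := exists_good_max h hξ
  have h1 : lev S c ξ (n + 1) ≤ K :=
    lev_le ⟨Or.inr hK, (Ideal.pow_le_self (Nat.succ_ne_zero n)).trans hmK⟩
  rcases (lev_mem h hξ (n + 1)).1 with h2 | h2
  · rw [h2] at h1
    exact absurd (top_le_iff.mp h1) hK.ne_top
  · exact h2

/-- The limit ideal. -/
noncomputable def limI (S : ∀ ⦃A : Type⦄ [CommRing A] [IsLocalRing A] [Algebra 𝒪 A], (X → A) → Prop)
    (c : X → 𝒪) (ξ : Fin d → X) : Ideal (PS d 𝒪) :=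
  ⨅ n, lev S c ξ n

theorem lev_eq (h : ProRepHyp 𝒪 X S c) (hξ : Sep S ξ) (n : ℕ) :
    lev S c ξ n = limI S c ξ ⊔ maximalIdeal (PS d 𝒪) ^ n := by
  have := isAdicComplete_mvPowerSeries 𝒪 d
  exact ProRepAlg.eq_iInf_sup_pow (maximalIdeal (PS d 𝒪)) (lev S c ξ) pow_le_lev
    (lev_succ_le h hξ) (lev_le_sup h hξ) n

theorem limI_ne_top (h : ProRepHyp 𝒪 X S c) (hξ : Sep S ξ) : limI S c ξ ≠ ⊤ := by
  intro htop
  have h1 : limI S c ξ ≤ lev S c ξ 1 := iInf_le _ 1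
  rw [htop] at h1
  exact (lev_good h hξ 0).ne_top (top_le_iff.mp h1)

/-- `q` induces the family of type `S` on the quotient by `K`. -/
def Induces (S : ∀ ⦃A : Type⦄ [CommRing A] [IsLocalRing A] [Algebra 𝒪 A], (X → A) → Prop)
    (c : X → 𝒪) (ξ : Fin d → X) (q : X → PS d 𝒪) (K : Ideal (PS d 𝒪)) : Prop :=
  ∃ (_ : IsLocalRing (PS d 𝒪 ⧸ K)), IsArtinianTestAlgebra 𝒪 (PS d 𝒪 ⧸ K) ∧
    S (fun x => Ideal.Quotient.mk K (q x)) ∧
    Compat c ξ (fun x => Ideal.Quotient.mk K (q x)) (Ideal.Quotient.mkₐ 𝒪 K)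

/-- The limit family. -/
theorem exists_q (h : ProRepHyp 𝒪 X S c) (hξ : Sep S ξ) :
    ∃ q : X → PS d 𝒪, ∀ n, Induces S c ξ q (lev S c ξ (n + 1)) := by
  have := isAdicComplete_mvPowerSeries 𝒪 d
  choose hl g ht hS hc using fun n => lev_good h hξ n
  choose p hp using fun (n : ℕ) (x : X) => Ideal.Quotient.mk_surjective (g n x)
  -- compatibility
  have hcompat : ∀ n, (Ideal.Quotient.factorₐ 𝒪 (lev_succ_le h hξ (n + 1))) ∘ g (n + 1) = g n := by
    intro n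
    have := hl n
    have := hl (n + 1)
    refine good_unique h hξ (ht n) (h.map (ht (n + 1)) (ht n) _ (hS (n + 1))) (hS n) ?_ (hc n)
    intro i
    have h1 := congrArg (Ideal.Quotient.factorₐ 𝒪 (lev_succ_le h hξ (n + 1))) (hc (n + 1) i)
    rw [map_sub, AlgHom.commutes] at h1
    rw [Function.comp_apply, ← h1]
    rfl
  have hlim : ∀ x, ∃ q : PS d 𝒪, ∀ n, q - (fun n => p (n - 1) x) n ∈ lev S c ξ n := by
    intro x
    refine ProRepAlg.exists_limit (maximalIdeal (PS d 𝒪)) (lev S c ξ) pow_le_lev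
      (lev_le_sup h hξ) _ ?_
    intro n
    cases n with
    | zero =>
      have : lev S c ξ 0 = ⊤ := top_le_iff.mp (by simpa using pow_le_lev (S := S) (c := c) (ξ := ξ) 0)
      rw [this]; exact Submodule.mem_top
    | succ n =>
      simp only [Nat.add_sub_cancel]
      rw [← Ideal.Quotient.eq, hp n x, ← congrFun (hcompat n) x, Function.comp_apply, ← hp (n + 1) x]
      rfl
  choose q hq using hlim
  refine ⟨q, fun n => ?_⟩
  have hqg : (fun x => Ideal.Quotient.mk (lev S c ξ (n + 1)) (q x)) = g n := by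
    funext x
    have h1 := hq x (n + 1)
    simp only [Nat.add_sub_cancel] at h1
    rw [← hp n x]
    exact Ideal.Quotient.eq.mpr h1
  refine ⟨hl n, ht n, ?_, ?_⟩
  · rw [hqg]; exact hS n
  · rw [hqg]; exact hc n

/-- The limit family induces the family of every good ideal. -/
theorem induces_of_good (h : ProRepHyp 𝒪 X S c) {q : X → PS d 𝒪}
    (hq : ∀ n, Induces S c ξ q (lev S c ξ (n + 1))) {K : Ideal (PS d 𝒪)} (hK : Good S c ξ K) :
    Induces S c ξ q K := by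
  obtain ⟨n, hn⟩ := hK.exists_pow_le
  have hle : lev S c ξ (n + 1) ≤ K :=
    lev_le ⟨Or.inr hK, (Ideal.pow_le_pow_right (Nat.le_succ n)).trans hn⟩
  obtain ⟨hl, ht, hS, hc⟩ := hq n
  obtain ⟨hl', _, ht', _, _⟩ := hK
  refine ⟨hl', ht', h.map ht ht' (Ideal.Quotient.factorₐ 𝒪 hle) hS, fun i => ?_⟩
  have h1 := congrArg (Ideal.Quotient.factorₐ 𝒪 hle) (hc i)
  rw [map_sub, AlgHom.commutes] at h1
  exact h1

end Fermat.Agent.S53.PR2
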