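import Fermat.Agent.S53.PR2c

/-!
# S53: abstract pro-representability, second route, part d (the universal ring)

Owner: helper293.
-/

set_option autoImplicit false
set_option linter.unusedSectionVars false

namespace Fermat.Agent.S53.PR2

open IsLocalRing GaloisRep

variable {𝒪 : Type} [CommRing 𝒪] [IsDomain 𝒪] [IsDiscreteValuationRing 𝒪]
  [IsAdicComplete (maximalIdeal 𝒪) 𝒪] [Finite (ResidueField 𝒪)]
variable {X : Type}
  {S : ∀ ⦃A : Type⦄ [CommRing A] [IsLocalRing A] [Algebra 𝒪 A], (X → A) → Prop} {c : X → 𝒪}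
variable {d : ℕ} {ξ : Fin d → X}

/-- Artinian quotients of a complete Noetherian local algebra. -/
theorem cnl_quot_test {A : Type} [CommRing A] [IsLocalRing A] [IsNoetherianRing A]
    [Algebra 𝒪 A] [IsLocalHom (algebraMap 𝒪 A)]
    (hres : Function.Surjective (residue A ∘ algebraMap 𝒪 A)) (n : ℕ) :
    ∃ _ : IsLocalRing (A ⧸ maximalIdeal A ^ (n + 1)),
      IsArtinianTestAlgebra 𝒪 (A ⧸ maximalIdeal A ^ (n + 1)) := by
  have hne : maximalIdeal A ^ (n + 1) ≠ ⊤ := by
    intro htop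
    have h1 : maximalIdeal A ^ (n + 1) ≤ maximalIdeal A := Ideal.pow_le_self (Nat.succ_ne_zero n)
    rw [htop] at h1
    exact (Ideal.IsMaximal.ne_top inferInstance) (top_le_iff.mp h1)
  have hl := ProRepAlg.isLocalRing_quot _ hne
  refine ⟨hl, ProRepAlg.isLocalHom_algebraMap_quot _, ProRepAlg.residue_surjective_quot _ hres, ?_⟩
  rw [isArtinianRing_iff_isNilpotent_maximalIdeal]
  refine ⟨n + 1, ?_⟩
  rw [ProRepAlg.maximalIdeal_quot_pow_eq, Ideal.zero_eq_bot, Ideal.map_quotient_self]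

theorem compat_limI {q : X → PS d 𝒪} (hq : ∀ n, Induces S c ξ q (lev S c ξ (n + 1))) (i : Fin d) :
    MvPowerSeries.X i - (q (ξ i) - algebraMap 𝒪 (PS d 𝒪) (c (ξ i))) ∈ limI S c ξ := by
  rw [limI, Ideal.mem_iInf]
  intro n
  cases n with
  | zero =>
    have : lev S c ξ 0 = ⊤ := top_le_iff.mp (by simpa using pow_le_lev (S := S) (c := c) (ξ := ξ) 0)
    rw [this]; exact Submodule.mem_top
  | succ n =>
    obtain ⟨_, _, _, hc⟩ := hq n
    rw [← Ideal.Quotient.eq]
    exact hc i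

theorem proRep (h : ProRepHyp 𝒪 X S c) : ProRepConcl 𝒪 X S := by
  obtain ⟨d, ξ, hξ⟩ := exists_sep h
  obtain ⟨q, hq⟩ := exists_q h hξ
  set J := limI S c ξ with hJ
  obtain ⟨hl, hnoeth, hcomp, hloc, hres⟩ := ProRepAlg.cnl_quotient J (limI_ne_top h hξ)
  refine ⟨PS d 𝒪 ⧸ J, inferInstance, hl, hnoeth, hcomp, inferInstance, hloc,
    fun x => Ideal.Quotient.mk J (q x), hres, ?_, ?_⟩
  · -- U1
    intro B _ _ _ hB qB hqB
    have := hB.isArtinian
    have := hB.isLocalHom
    set θ : PS d 𝒪 →ₐ[𝒪] B := qB.comp (Ideal.Quotient.mkₐ 𝒪 J) with hθ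
    have hθsurj : Function.Surjective θ := hqB.comp Ideal.Quotient.mk_surjective
    have hθloc : IsLocalHom (θ : PS d 𝒪 →+* B) := IsLocalHom.of_surjective _ hθsurj
    have hX : ∀ i, θ (MvPowerSeries.X i) ∈ maximalIdeal B := fun i =>
      map_nonunit (θ : PS d 𝒪 →+* B) _ (PSC.span_X_le (Ideal.subset_span ⟨i, rfl⟩))
    obtain ⟨n, hn⟩ := (isArtinianRing_iff_isNilpotent_maximalIdeal B).1 inferInstance
    have hker : ∀ a ∈ lev S c ξ (n + 1), θ a = 0 := by
      intro a ha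
      rw [lev_eq h hξ] at ha
      obtain ⟨u, hu, v, hv, rfl⟩ := Submodule.mem_sup.mp ha
      rw [map_add]
      have h1 : θ u = 0 := by
        rw [hθ, AlgHom.comp_apply]
        have : Ideal.Quotient.mkₐ 𝒪 J u = 0 := Ideal.Quotient.eq_zero_iff_mem.mpr hu
        rw [this, map_zero]
      have h2 : θ v = 0 := by
        have h3 := PSC.algHom_map_pow_le θ hX n (Ideal.pow_le_pow_right (Nat.le_succ n) hv)
        rw [hn] at h3
        exact h3
      rw [h1, h2, add_zero]
    obtain ⟨hl', ht', hS', _⟩ := hq n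
    exact h.map ht' hB (Ideal.Quotient.liftₐ (lev S c ξ (n + 1)) θ hker) hS'
  · -- U2
    intro A _ _ _ _ _ _ hresA f hf
    have hmem : ∀ x, f x - algebraMap 𝒪 A (c x) ∈ maximalIdeal A := by
      intro x
      obtain ⟨hl0, ht0⟩ := cnl_quot_test (𝒪 := 𝒪) hresA 0
      have h1 := h.res ht0 (hf _ ht0 (Ideal.Quotient.mkₐ 𝒪 _) Ideal.Quotient.mk_surjective) x
      exact (ProRepAlg.mk_mem_maximalIdeal_iff _ _).mp h1
    obtain ⟨θ, hθ⟩ := exists_compat c ξ f hmem
    have hX : ∀ i, θ (MvPowerSeries.X i) ∈ maximalIdeal A := fun i => by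
      rw [hθ i]; exact hmem _
    -- level n analysis
    have hlevel : ∀ n : ℕ, (∀ a ∈ J, θ a ∈ maximalIdeal A ^ (n + 1)) ∧
        ∀ x, θ (q x) - f x ∈ maximalIdeal A ^ (n + 1) := by
      intro n
      obtain ⟨hln, htn⟩ := cnl_quot_test (𝒪 := 𝒪) hresA n
      set π := Ideal.Quotient.mkₐ 𝒪 (maximalIdeal A ^ (n + 1)) with hπ
      have hSn : S (π ∘ f) := hf _ htn π Ideal.Quotient.mk_surjective
      have hcn : Compat c ξ (π ∘ f) (π.comp θ) := by
        intro i
        rw [AlgHom.comp_apply, hθ i, map_sub, AlgHom.commutes]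
        rfl
      obtain ⟨hlk, g, htk, hSg, hcg, hg⟩ := good_of_point h hξ htn hSn hcn
      have hgood : Good S c ξ (RingHom.ker (π.comp θ)) := ⟨hlk, g, htk, hSg, hcg⟩
      obtain ⟨_, _, hSq, hcq⟩ := induces_of_good h hq hgood
      have hgq : (fun x => Ideal.Quotient.mk (RingHom.ker (π.comp θ)) (q x)) = g :=
        good_unique h hξ htk hSq hSg hcq hcg
      constructor
      · intro a ha
        obtain ⟨m, hm⟩ := hgood.exists_pow_le
        have hle : lev S c ξ m ≤ RingHom.ker (π.comp θ) := lev_le ⟨Or.inr hgood, hm⟩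
        have h1 : a ∈ RingHom.ker (π.comp θ) := hle ((iInf_le _ m : J ≤ lev S c ξ m) ha)
        exact Ideal.Quotient.eq_zero_iff_mem.mp h1
      · intro x
        have h1 := hg x
        rw [← congrFun hgq x] at h1
        rw [← Ideal.Quotient.eq]
        exact h1
    have hJ0 : ∀ a ∈ J, θ a = 0 := by
      intro a ha
      refine IsHausdorff.haus (I := maximalIdeal A) inferInstance _ fun n => ?_
      rw [SModEq.zero, smul_eq_mul, Ideal.mul_top]
      exact Ideal.pow_le_pow_right (Nat.le_succ n) ((hlevel n).1 a ha)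
    have hqf : ∀ x, θ (q x) = f x := by
      intro x
      rw [← sub_eq_zero]
      refine IsHausdorff.haus (I := maximalIdeal A) inferInstance _ fun n => ?_
      rw [SModEq.zero, smul_eq_mul, Ideal.mul_top]
      exact Ideal.pow_le_pow_right (Nat.le_succ n) ((hlevel n).2 x)
    refine ⟨Ideal.Quotient.liftₐ J θ hJ0, funext fun x => hqf x, ?_⟩
    intro φ' hφ'
    have hkey : ∀ l, (φ'.comp (Ideal.Quotient.mkₐ 𝒪 J)) (MvPowerSeries.X l) =
        θ (MvPowerSeries.X l) := by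
      intro l
      have h2 : Ideal.Quotient.mk J (MvPowerSeries.X l) =
          Ideal.Quotient.mk J (q (ξ l) - algebraMap 𝒪 (PS d 𝒪) (c (ξ l))) :=
        Ideal.Quotient.eq.mpr (compat_limI hq l)
      have h3 : φ' (Ideal.Quotient.mk J (q (ξ l))) = f (ξ l) := congrFun hφ' (ξ l)
      have h4 : Ideal.Quotient.mk J (algebraMap 𝒪 (PS d 𝒪) (c (ξ l))) =
          algebraMap 𝒪 (PS d 𝒪 ⧸ J) (c (ξ l)) := rfl
      rw [AlgHom.comp_apply, Ideal.Quotient.mkₐ_eq_mk, h2, map_sub, map_sub, h3, h4,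
        AlgHom.commutes, hθ l]
    have h1 : φ'.comp (Ideal.Quotient.mkₐ 𝒪 J) = θ :=
      eval_ext _ _ (fun l => by rw [hkey l]; exact hX l) hkey
    apply Ideal.Quotient.algHom_ext
    rw [h1]
    ext1 a
    rfl

end Fermat.Agent.S53.PR2
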