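import Fermat.Agent.S53.ProRepSpec
import Fermat.Agent.S53.Artin
import Fermat.Agent.S53.ProRepAlg

/-!
# S53: abstract pro-representability, part 1: good ideals of the free algebra
-/

set_option autoImplicit false
set_option linter.unusedSectionVars false
set_option linter.style.haveILetI false

namespace Fermat.Agent.S53.ProRep

open IsLocalRing GaloisRep

variable {𝒪 : Type} [CommRing 𝒪] [IsLocalRing 𝒪]

/-- A finite `𝒪`-algebra with an augmentation to the residue field with nil kernel is a test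
algebra. -/
theorem test_of_hom {B : Type} [CommRing B] [Algebra 𝒪 B] [Finite B]
    (e : B →ₐ[𝒪] ResidueField 𝒪) (hnil : ∀ x, e x = 0 → IsNilpotent x) :
    ∃ _ : IsLocalRing B, IsArtinianTestAlgebra 𝒪 B := by
  have key : ∀ x : B, ∃ a : 𝒪, e (x - algebraMap 𝒪 B a) = 0 ∧ residue 𝒪 a = e x := by
    intro x
    obtain ⟨a, ha⟩ := residue_surjective (e x)
    refine ⟨a, ?_, ha⟩
    rw [map_sub, AlgHom.commutes, ResidueField.algebraMap_eq, ha, sub_self]
  have hloc : IsLocalHom (e : B →+* ResidueField 𝒪) := by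
    refine ⟨fun x hx => ?_⟩
    obtain ⟨a, ha, ha'⟩ := key x
    have hau : IsUnit a := by
      by_contra hcon
      have : residue 𝒪 a = 0 := (residue_eq_zero_iff a).2 ((mem_maximalIdeal a).2 hcon)
      rw [ha'] at this
      have hx' : IsUnit (e x) := hx
      rw [this] at hx'
      exact not_isUnit_zero hx'
    have h1 := (hnil _ ha).isUnit_add_right_of_commute (hau.map (algebraMap 𝒪 B))
      (Commute.all _ _)
    simpa using h1
  have hB : IsLocalRing B := RingHom.domain_isLocalRing (e : B →+* ResidueField 𝒪)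
  refine ⟨hB, ?_, ?_, inferInstance⟩
  · refine ⟨fun a ha => ?_⟩
    have h1 : IsUnit (e (algebraMap 𝒪 B a)) := ha.map e
    rw [AlgHom.commutes, ResidueField.algebraMap_eq] at h1
    exact isUnit_of_map_unit (residue 𝒪) a h1
  · intro y
    obtain ⟨x, rfl⟩ := residue_surjective y
    obtain ⟨a, ha, -⟩ := key x
    refine ⟨a, ?_⟩
    simp only [Function.comp_apply]
    rw [eq_comm, ← sub_eq_zero, ← map_sub, residue_eq_zero_iff, mem_maximalIdeal,
      mem_nonunits_iff]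
    exact (hnil _ ha).not_isUnit

/-- Every `𝒪`-algebra homomorphism to a local `𝒪`-algebra with residue field `k` is local. -/
theorem isLocalHom_of_residue_surjective {A B : Type} [CommRing A] [IsLocalRing A] [Algebra 𝒪 A]
    [CommRing B] [IsLocalRing B] [Algebra 𝒪 B] [IsLocalHom (algebraMap 𝒪 B)]
    (hB : Function.Surjective (residue B ∘ algebraMap 𝒪 B)) (φ : A →ₐ[𝒪] B) :
    IsLocalHom (φ : A →+* B) := by
  refine ⟨fun x hx => ?_⟩
  by_contra hcon
  have hx' : IsUnit (φ x) := hx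
  obtain ⟨a, ha⟩ := hB (residue B (φ x))
  simp only [Function.comp_apply] at ha
  rw [← sub_eq_zero, ← map_sub, residue_eq_zero_iff] at ha
  have hau : IsUnit a := by
    by_contra hcon'
    have h1 : algebraMap 𝒪 B a ∈ maximalIdeal B := map_nonunit (algebraMap 𝒪 B) a hcon'
    have h2 : φ x ∈ maximalIdeal B := by
      have := (maximalIdeal B).sub_mem h1 ha
      simpa using this
    exact h2 hx'
  have h3 : IsUnit (algebraMap 𝒪 A a - x) := by
    by_contra hcon'
    have h4 : algebraMap 𝒪 A a ∈ maximalIdeal A := by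
      have := (maximalIdeal A).add_mem ((mem_maximalIdeal _).2 hcon') ((mem_maximalIdeal _).2 hcon)
      simpa using this
    exact h4 (hau.map (algebraMap 𝒪 A))
  have h5 : IsUnit (φ (algebraMap 𝒪 A a - x)) := h3.map φ
  rw [map_sub, AlgHom.commutes] at h5
  exact ha h5

variable {X : Type}

/-- The tautological family in a quotient of the free algebra. -/
noncomputable def taut (J : Ideal (MvPolynomial X 𝒪)) : X → MvPolynomial X 𝒪 ⧸ J :=
  fun x => Ideal.Quotient.mk J (MvPolynomial.X x)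

/-- Good ideals of the free algebra. -/
def Good (S : ∀ ⦃A : Type⦄ [CommRing A] [IsLocalRing A] [Algebra 𝒪 A], (X → A) → Prop)
    (J : Ideal (MvPolynomial X 𝒪)) : Prop :=
  ∃ _ : IsLocalRing (MvPolynomial X 𝒪 ⧸ J),
    IsArtinianTestAlgebra 𝒪 (MvPolynomial X 𝒪 ⧸ J) ∧ S (taut J)

/-- The augmentation of the free algebra. -/
noncomputable def aug (c : X → 𝒪) : MvPolynomial X 𝒪 →ₐ[𝒪] ResidueField 𝒪 :=
  MvPolynomial.aeval (fun x => algebraMap 𝒪 (ResidueField 𝒪) (c x))

/-- The augmentation ideal of the free algebra. -/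
noncomputable def mF (c : X → 𝒪) : Ideal (MvPolynomial X 𝒪) := RingHom.ker (aug c)

theorem mem_mF {c : X → 𝒪} {p : MvPolynomial X 𝒪} : p ∈ mF c ↔ aug c p = 0 := Iff.rfl

theorem mF_ne_top (c : X → 𝒪) : mF c ≠ ⊤ := RingHom.ker_ne_top _

theorem factor_comp_taut {J J' : Ideal (MvPolynomial X 𝒪)} (h : J ≤ J') :
    (Ideal.Quotient.factorₐ 𝒪 h) ∘ taut J = taut J' := rfl

theorem algHom_ext_taut {J : Ideal (MvPolynomial X 𝒪)} {B : Type} [CommRing B] [Algebra 𝒪 B]
    {φ ψ : (MvPolynomial X 𝒪 ⧸ J) →ₐ[𝒪] B} (h : ∀ x, φ (taut J x) = ψ (taut J x)) : φ = ψ := by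
  apply Ideal.Quotient.algHom_ext
  apply MvPolynomial.algHom_ext
  intro x
  exact h x

theorem aeval_taut (J : Ideal (MvPolynomial X 𝒪)) :
    MvPolynomial.aeval (taut J) = Ideal.Quotient.mkₐ 𝒪 J := by
  apply MvPolynomial.algHom_ext
  intro x
  simp [taut]

/-- Quotients of the free algebra by "open" ideals with finite quotient are test algebras. -/
theorem test_quot {c : X → 𝒪} {J : Ideal (MvPolynomial X 𝒪)} (h1 : J ≤ mF c) {n : ℕ}
    (h2 : mF c ^ n ≤ J) [Finite (MvPolynomial X 𝒪 ⧸ J)] :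
    ∃ _ : IsLocalRing (MvPolynomial X 𝒪 ⧸ J), IsArtinianTestAlgebra 𝒪 (MvPolynomial X 𝒪 ⧸ J) := by
  refine test_of_hom (Ideal.Quotient.liftₐ J (aug c) fun a ha => h1 ha) ?_
  intro x hx
  obtain ⟨p, rfl⟩ := Ideal.Quotient.mk_surjective x
  have hp : p ∈ mF c := hx
  refine ⟨n, ?_⟩
  rw [← map_pow, Ideal.Quotient.eq_zero_iff_mem]
  exact h2 (Ideal.pow_mem_pow hp n)

section

variable {S : ∀ ⦃A : Type⦄ [CommRing A] [IsLocalRing A] [Algebra 𝒪 A], (X → A) → Prop}
  {c : X → 𝒪} (H : ProRepHyp 𝒪 X S c)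

include H

/-- For a family of type `S` in a test algebra, the residue of the evaluation map is the
augmentation. -/
theorem resHom_comp_aeval {A : Type} [CommRing A] [IsLocalRing A] [Algebra 𝒪 A]
    (hA : IsArtinianTestAlgebra 𝒪 A) {f : X → A} (hf : S f) :
    (resHom hA).comp (MvPolynomial.aeval f) = aug c := by
  apply MvPolynomial.algHom_ext
  intro x
  have h1 := H.res hA hf x
  rw [← resHom_eq_zero_iff hA, map_sub, AlgHom.commutes, sub_eq_zero] at h1
  simp [aug, h1]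

theorem aeval_mem_maximalIdeal_iff {A : Type} [CommRing A] [IsLocalRing A] [Algebra 𝒪 A]
    (hA : IsArtinianTestAlgebra 𝒪 A) {f : X → A} (hf : S f) (p : MvPolynomial X 𝒪) :
    MvPolynomial.aeval f p ∈ maximalIdeal A ↔ p ∈ mF c := by
  rw [← resHom_eq_zero_iff hA, mem_mF, ← resHom_comp_aeval H hA hf]
  rfl

theorem aeval_mem_pow {A : Type} [CommRing A] [IsLocalRing A] [Algebra 𝒪 A]
    (hA : IsArtinianTestAlgebra 𝒪 A) {f : X → A} (hf : S f) (n : ℕ) {p : MvPolynomial X 𝒪}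
    (hp : p ∈ mF c ^ n) : MvPolynomial.aeval f p ∈ maximalIdeal A ^ n := by
  have h1 : Ideal.map (MvPolynomial.aeval f : MvPolynomial X 𝒪 →ₐ[𝒪] A) (mF c) ≤
      maximalIdeal A := by
    rw [Ideal.map_le_iff_le_comap]
    intro q hq
    exact (aeval_mem_maximalIdeal_iff H hA hf q).2 hq
  have h2 := Ideal.mem_map_of_mem (MvPolynomial.aeval f : MvPolynomial X 𝒪 →ₐ[𝒪] A) hp
  rw [Ideal.map_pow] at h2
  exact Ideal.pow_right_mono h1 n h2

theorem Good.mk_mem_iff {J : Ideal (MvPolynomial X 𝒪)} (hJ : Good S J) (p : MvPolynomial X 𝒪) :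
    letI := hJ.choose
    Ideal.Quotient.mk J p ∈ maximalIdeal (MvPolynomial X 𝒪 ⧸ J) ↔ p ∈ mF c := by
  obtain ⟨_, hT, hS⟩ := hJ
  have := aeval_mem_maximalIdeal_iff H hT hS p
  rwa [aeval_taut] at this

theorem Good.le_mF {J : Ideal (MvPolynomial X 𝒪)} (hJ : Good S J) : J ≤ mF c := by
  intro p hp
  letI := hJ.choose
  rw [← hJ.mk_mem_iff H, Ideal.Quotient.eq_zero_iff_mem.2 hp]
  exact zero_mem _

theorem Good.map_mF {J : Ideal (MvPolynomial X 𝒪)} (hJ : Good S J) :
    letI := hJ.choose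
    Ideal.map (Ideal.Quotient.mk J) (mF c) = maximalIdeal (MvPolynomial X 𝒪 ⧸ J) := by
  letI := hJ.choose
  apply le_antisymm
  · rw [Ideal.map_le_iff_le_comap]
    intro p hp
    exact (hJ.mk_mem_iff H p).2 hp
  · intro y hy
    obtain ⟨p, rfl⟩ := Ideal.Quotient.mk_surjective y
    exact Ideal.mem_map_of_mem _ ((hJ.mk_mem_iff H p).1 hy)

theorem Good.pow_le_iff {J : Ideal (MvPolynomial X 𝒪)} (hJ : Good S J) (n : ℕ) :
    letI := hJ.choose
    mF c ^ n ≤ J ↔ maximalIdeal (MvPolynomial X 𝒪 ⧸ J) ^ n = ⊥ := by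
  letI := hJ.choose
  rw [← hJ.map_mF H, ← Ideal.map_pow, Ideal.map_eq_bot_iff_le_ker, Ideal.mk_ker]

theorem Good.exists_pow_le {J : Ideal (MvPolynomial X 𝒪)} (hJ : Good S J) :
    ∃ n, mF c ^ n ≤ J := by
  letI := hJ.choose
  have := hJ.choose_spec.1.isArtinian
  obtain ⟨n, hn⟩ := (isArtinianRing_iff_isNilpotent_maximalIdeal _).1 this
  exact ⟨n, (hJ.pow_le_iff H n).2 hn⟩

variable [Finite (ResidueField 𝒪)]

theorem Good.finite {J : Ideal (MvPolynomial X 𝒪)} (hJ : Good S J) :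
    Finite (MvPolynomial X 𝒪 ⧸ J) := by
  obtain ⟨_, hT, -⟩ := hJ
  exact finite_of_artinian hT

/-- Good ideals are stable under enlargement. -/
theorem Good.mono {J J' : Ideal (MvPolynomial X 𝒪)} (hJ : Good S J) (h : J ≤ J')
    (h' : J' ≤ mF c) : Good S J' := by
  obtain ⟨n, hn⟩ := hJ.exists_pow_le H
  have := hJ.finite H
  have : Finite (MvPolynomial X 𝒪 ⧸ J') :=
    Finite.of_surjective _ (Ideal.Quotient.factor_surjective h)
  obtain ⟨hl, hT'⟩ := test_quot h' (hn.trans h)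
  obtain ⟨_, hT, hS⟩ := hJ
  exact ⟨hl, hT', H.map hT hT' (Ideal.Quotient.factorₐ 𝒪 h) hS⟩

/-- Good ideals are stable under intersection. -/
theorem Good.inf {J₁ J₂ : Ideal (MvPolynomial X 𝒪)} (h₁ : Good S J₁) (h₂ : Good S J₂) :
    Good S (J₁ ⊓ J₂) := by
  obtain ⟨n₁, hn₁⟩ := h₁.exists_pow_le H
  obtain ⟨n₂, hn₂⟩ := h₂.exists_pow_le H
  have := h₁.finite H
  have := h₂.finite H
  have : Finite (MvPolynomial X 𝒪 ⧸ J₁ ⊓ J₂) :=
    Finite.of_injective _ (ProRepAlg.factor_injective (𝒪 := 𝒪) J₁ J₂)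
  have hle : mF c ^ (max n₁ n₂) ≤ J₁ ⊓ J₂ :=
    le_inf ((Ideal.pow_le_pow_right (le_max_left _ _)).trans hn₁)
      ((Ideal.pow_le_pow_right (le_max_right _ _)).trans hn₂)
  obtain ⟨hl, hT⟩ := test_quot (inf_le_left.trans (h₁.le_mF H)) hle
  obtain ⟨_, hT₃, -⟩ := h₁.mono H le_sup_left (sup_le (h₁.le_mF H) (h₂.le_mF H))
  obtain ⟨_, hT₁, hS₁⟩ := h₁
  obtain ⟨_, hT₂, hS₂⟩ := h₂
  exact ⟨hl, hT, H.fib hT₁ hT₂ hT₃ hT _ _ _ _ (ProRepAlg.factor_square J₁ J₂)
    (ProRepAlg.factor_injective J₁ J₂) (ProRepAlg.factor_exists J₁ J₂) hS₁ hS₂⟩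

/-- The kernel of the evaluation at a family of type `S` is good. -/
theorem good_ker {A : Type} [CommRing A] [IsLocalRing A] [Algebra 𝒪 A]
    (hA : IsArtinianTestAlgebra 𝒪 A) {f : X → A} (hf : S f) :
    Good S (RingHom.ker (MvPolynomial.aeval f : MvPolynomial X 𝒪 →ₐ[𝒪] A)) := by
  have := finite_of_artinian hA
  have := hA.isArtinian
  set ev : MvPolynomial X 𝒪 →ₐ[𝒪] A := MvPolynomial.aeval f with hev
  have hinj : Function.Injective (Ideal.kerLiftAlg ev) := Ideal.kerLiftAlg_injective ev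
  have : Finite (MvPolynomial X 𝒪 ⧸ RingHom.ker ev) := Finite.of_injective _ hinj
  obtain ⟨n, hn⟩ := (isArtinianRing_iff_isNilpotent_maximalIdeal A).1 inferInstance
  have h1 : RingHom.ker ev ≤ mF c := by
    intro p hp
    rw [← aeval_mem_maximalIdeal_iff H hA hf p, ← hev, (RingHom.mem_ker).1 hp]
    exact zero_mem _
  have h2 : mF c ^ n ≤ RingHom.ker ev := by
    intro p hp
    have := aeval_mem_pow H hA hf n hp
    rw [hn] at this
    exact this
  obtain ⟨hl, hT⟩ := test_quot h1 h2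
  refine ⟨hl, hT, H.inj hT hA (Ideal.kerLiftAlg ev) hinj ?_⟩
  have : (Ideal.kerLiftAlg ev) ∘ taut (RingHom.ker ev) = f := by
    funext x
    simp [taut, hev]
  rw [this]
  exact hf

/-- The augmentation ideal is good. -/
theorem good_mF : Good S (mF c) := by
  have := good_ker H residueField_test H.base
  exact this

end

end Fermat.Agent.S53.ProRep
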