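import Fermat.Agent.S53.ProRepGood
import Fermat.Agent.S53.Tangent
import Fermat.Agent.S53.PSEval
import Fermat.Agent.S53.PSComplete
import Fermat.Agent.S53.PowerSeriesEval

/-!
# S53: abstract pro-representability, part 2: uniform generation and the maps from the
power series ring
-/

set_option autoImplicit false
set_option linter.unusedSectionVars false
set_option linter.style.haveILetI false

namespace Fermat.Agent.S53.ProRep

open IsLocalRing GaloisRep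

variable {𝒪 : Type} [CommRing 𝒪] [IsDomain 𝒪] [IsDiscreteValuationRing 𝒪]
  [IsAdicComplete (maximalIdeal 𝒪) 𝒪] [Finite (ResidueField 𝒪)]

variable {X : Type}
  {S : ∀ ⦃A : Type⦄ [CommRing A] [IsLocalRing A] [Algebra 𝒪 A], (X → A) → Prop}
  {c : X → 𝒪} (H : ProRepHyp 𝒪 X S c)

/-- `ξ` separates the tangent vectors. -/
def Sep (S : ∀ ⦃A : Type⦄ [CommRing A] [IsLocalRing A] [Algebra 𝒪 A], (X → A) → Prop)
    {d : ℕ} (ξ : Fin d → X) : Prop :=
  ∀ t t' : X → Dk 𝒪, S t → S t' → (∀ i, t (ξ i) = t' (ξ i)) → t = t'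

include H

theorem exists_sep : ∃ (d : ℕ) (ξ : Fin d → X), Sep S ξ := by
  have hfin : {t : X → Dk 𝒪 | S t}.Finite := Set.finite_coe_iff.mp H.tan
  obtain ⟨d, ξ, h⟩ := ProRepAlg.exists_separating _ hfin
  exact ⟨d, ξ, fun t t' ht ht' => h t ht t' ht'⟩

variable {d : ℕ} {ξ : Fin d → X} (hξ : Sep S ξ)

include hξ

/-- Uniform generation. -/
theorem adjoin_eq_top {J : Ideal (MvPolynomial X 𝒪)} (hJ : Good S J) :
    Algebra.adjoin 𝒪 (Set.range fun i => taut J (ξ i)) = ⊤ := by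
  by_contra hne
  obtain ⟨_, hT, hS⟩ := hJ
  obtain ⟨l₁, l₂, hne', hl⟩ := exists_dual_homs hT _ hne
  apply hne'
  apply algHom_ext_taut
  have := hξ (l₁ ∘ taut J) (l₂ ∘ taut J) (H.map hT Dk.isArtinianTestAlgebra l₁ hS)
    (H.map hT Dk.isArtinianTestAlgebra l₂ hS) (fun i => hl _ (Algebra.subset_adjoin ⟨i, rfl⟩))
  intro x
  exact congrFun this x

theorem adjoin_shift_eq_top {J : Ideal (MvPolynomial X 𝒪)} (hJ : Good S J) :
    Algebra.adjoin 𝒪 (Set.range fun i => taut J (ξ i) - algebraMap 𝒪 _ (c (ξ i))) = ⊤ := by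
  rw [eq_top_iff, ← adjoin_eq_top H hξ hJ, Algebra.adjoin_le_iff]
  rintro _ ⟨i, rfl⟩
  have h1 : taut J (ξ i) - algebraMap 𝒪 _ (c (ξ i)) ∈
      Algebra.adjoin 𝒪 (Set.range fun i => taut J (ξ i) - algebraMap 𝒪 _ (c (ξ i))) :=
    Algebra.subset_adjoin ⟨i, rfl⟩
  have h2 := Subalgebra.add_mem _ h1 (Subalgebra.algebraMap_mem _ (c (ξ i)))
  simpa using h2

omit hξ in
theorem exists_theta (ξ : Fin d → X) {J : Ideal (MvPolynomial X 𝒪)} (hJ : Good S J) :
    ∃ θ : MvPowerSeries (Fin d) 𝒪 →ₐ[𝒪] MvPolynomial X 𝒪 ⧸ J,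
      ∀ i, θ (MvPowerSeries.X i) = taut J (ξ i) - algebraMap 𝒪 _ (c (ξ i)) := by
  obtain ⟨_, hT, hS⟩ := hJ
  have := hT.isArtinian
  exact exists_eval _ fun i => H.res hT hS (ξ i)

omit hξ in
/-- The map from the power series ring to a good quotient. -/
noncomputable def theta (ξ : Fin d → X) {J : Ideal (MvPolynomial X 𝒪)} (hJ : Good S J) :
    MvPowerSeries (Fin d) 𝒪 →ₐ[𝒪] MvPolynomial X 𝒪 ⧸ J :=
  (exists_theta H ξ hJ).choose

omit hξ in
theorem theta_X (ξ : Fin d → X) {J : Ideal (MvPolynomial X 𝒪)} (hJ : Good S J) (i : Fin d) :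
    theta H ξ hJ (MvPowerSeries.X i) = taut J (ξ i) - algebraMap 𝒪 _ (c (ξ i)) :=
  (exists_theta H ξ hJ).choose_spec i

omit hξ in
theorem theta_X_mem (ξ : Fin d → X) {J : Ideal (MvPolynomial X 𝒪)} (hJ : Good S J) (i : Fin d) :
    letI := hJ.choose
    theta H ξ hJ (MvPowerSeries.X i) ∈ maximalIdeal (MvPolynomial X 𝒪 ⧸ J) := by
  letI := hJ.choose
  rw [theta_X]
  exact H.res hJ.choose_spec.1 hJ.choose_spec.2 (ξ i)

theorem theta_surjective {J : Ideal (MvPolynomial X 𝒪)} (hJ : Good S J) :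
    Function.Surjective (theta H ξ hJ) := by
  letI := hJ.choose
  have := hJ.choose_spec.1.isArtinian
  have hnil := (isArtinianRing_iff_isNilpotent_maximalIdeal (MvPolynomial X 𝒪 ⧸ J)).1 this
  have h1 := eval_range hnil (theta H ξ hJ) (theta_X_mem H ξ hJ)
  simp only [theta_X] at h1
  rw [adjoin_shift_eq_top H hξ hJ] at h1
  exact AlgHom.range_eq_top _ |>.1 h1

omit hξ in
theorem theta_compat (ξ : Fin d → X) {J J' : Ideal (MvPolynomial X 𝒪)} (hJ : Good S J)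
    (hJ' : Good S J') (h : J ≤ J') :
    (Ideal.Quotient.factorₐ 𝒪 h).comp (theta H ξ hJ) = theta H ξ hJ' := by
  letI := hJ'.choose
  have := hJ'.choose_spec.1.isArtinian
  symm
  refine eval_ext _ _ (theta_X_mem H ξ hJ') fun i => ?_
  rw [AlgHom.comp_apply, theta_X, theta_X, map_sub, AlgHom.commutes]
  rfl

omit hξ in
theorem theta_mem_pow (ξ : Fin d → X) {J : Ideal (MvPolynomial X 𝒪)} (hJ : Good S J) (n : ℕ)
    {f : MvPowerSeries (Fin d) 𝒪} (hf : f ∈ maximalIdeal (MvPowerSeries (Fin d) 𝒪) ^ n) :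
    letI := hJ.choose
    theta H ξ hJ f ∈ maximalIdeal (MvPolynomial X 𝒪 ⧸ J) ^ n := by
  letI := hJ.choose
  have := hJ.choose_spec.1.isLocalHom
  exact PSC.algHom_map_pow_le _ (theta_X_mem H ξ hJ) n hf

omit hξ in
theorem pow_le_ker_theta (ξ : Fin d → X) {J : Ideal (MvPolynomial X 𝒪)} (hJ : Good S J) {n : ℕ}
    (hn : mF c ^ n ≤ J) :
    maximalIdeal (MvPowerSeries (Fin d) 𝒪) ^ n ≤ RingHom.ker (theta H ξ hJ) := by
  intro f hf
  have h1 := theta_mem_pow H ξ hJ n hf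
  rw [(hJ.pow_le_iff H n).1 hn] at h1
  exact h1

theorem map_theta {J : Ideal (MvPolynomial X 𝒪)} (hJ : Good S J) :
    letI := hJ.choose
    Ideal.map (theta H ξ hJ) (maximalIdeal (MvPowerSeries (Fin d) 𝒪)) =
      maximalIdeal (MvPolynomial X 𝒪 ⧸ J) := by
  letI := hJ.choose
  apply le_antisymm
  · rw [Ideal.map_le_iff_le_comap]
    intro f hf
    have := theta_mem_pow H ξ hJ 1 (by simpa using hf)
    simpa using this
  · intro y hy
    obtain ⟨f, rfl⟩ := theta_surjective H hξ hJ y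
    refine Ideal.mem_map_of_mem _ ?_
    rw [mem_maximalIdeal, mem_nonunits_iff]
    intro hu
    exact hy (hu.map (theta H ξ hJ))

theorem card_le {J : Ideal (MvPolynomial X 𝒪)} (hJ : Good S J) {n : ℕ} (hn : mF c ^ n ≤ J) :
    Nat.card (MvPolynomial X 𝒪 ⧸ J) ≤
      Nat.card (MvPowerSeries (Fin d) 𝒪 ⧸ maximalIdeal (MvPowerSeries (Fin d) 𝒪) ^ n) := by
  have := ProRepAlg.finite_quotient_pow (𝒪 := 𝒪) d n
  refine Nat.card_le_card_of_surjective
    (Ideal.Quotient.lift _ (theta H ξ hJ : MvPowerSeries (Fin d) 𝒪 →+* _)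
      (fun a ha => RingHom.mem_ker.1 (pow_le_ker_theta H ξ hJ hn ha))) ?_
  exact Ideal.Quotient.lift_surjective_of_surjective _ _ (theta_surjective H hξ hJ)

/-- There is a least good ideal containing a given positive power of the augmentation ideal. -/
theorem exists_min (n : ℕ) : ∃ J, Good S J ∧ mF c ^ (n + 1) ≤ J ∧
    ∀ J', Good S J' → mF c ^ (n + 1) ≤ J' → J ≤ J' := by
  set s : Set ℕ := {m | ∃ J, Good S J ∧ mF c ^ (n + 1) ≤ J ∧
    Nat.card (MvPolynomial X 𝒪 ⧸ J) = m} with hs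
  have hne : s.Nonempty :=
    ⟨_, mF c, good_mF H, Ideal.pow_le_self (Nat.succ_ne_zero n), rfl⟩
  have hbdd : BddAbove s := by
    refine ⟨Nat.card (MvPowerSeries (Fin d) 𝒪 ⧸
      maximalIdeal (MvPowerSeries (Fin d) 𝒪) ^ (n + 1)), ?_⟩
    rintro _ ⟨J, hJ, hn, rfl⟩
    exact card_le H hξ hJ hn
  obtain ⟨J, hJ, hn, hcard⟩ := Nat.sSup_mem hne hbdd
  refine ⟨J, hJ, hn, fun J' hJ' hn' => ?_⟩
  have hinf : Good S (J ⊓ J') := hJ.inf H hJ'
  have h1 : Nat.card (MvPolynomial X 𝒪 ⧸ J ⊓ J') ≤ Nat.card (MvPolynomial X 𝒪 ⧸ J) := by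
    rw [hcard]
    exact le_csSup hbdd ⟨J ⊓ J', hinf, le_inf hn hn', rfl⟩
  have := hinf.finite H
  have h2 : Function.Bijective (Ideal.Quotient.factor (inf_le_left : J ⊓ J' ≤ J)) :=
    (Ideal.Quotient.factor_surjective _).bijective_of_nat_card_le h1
  intro p hp
  have h3 : Ideal.Quotient.mk (J ⊓ J') p = 0 := by
    apply h2.1
    rw [Ideal.Quotient.factor_mk, map_zero]
    exact Ideal.Quotient.eq_zero_iff_mem.2 hp
  exact (Ideal.Quotient.eq_zero_iff_mem.1 h3).2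

end Fermat.Agent.S53.ProRep
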